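/-
PROJECT T (S56), block Flat/Passage: the norm frame.

Finite subextensions `E` of `Ω := PadicAlgCl p` over `ℚ_[p]`, described through the ambient norm of
`Ω` only: uniformizers, discreteness of the value group, Galois descent (`mem_of_forall_fixed`),
invariance of the norm, and the residue representatives by roots of unity.
-/
import Mathlib
import Fermat.Agent.CFT.Local.PadicAlgCl

set_option autoImplicit false

namespace Fermat.Agent.S56.Flat.Passage.NormFrame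

open Fermat.Agent.CFT.Local.Model Fermat.Agent.CFT.Local.PadicAlgClLocal
  Fermat.Agent.CFT.LocalBridge

variable (p : ℕ) [Fact p.Prime]

/-- `ϖ` is a uniformizer of the finite subfield `E`: its norm generates the value group. -/
def IsUnif (E : IntermediateField ℚ_[p] (PadicAlgCl p)) (ϖ : PadicAlgCl p) : Prop :=
  ϖ ∈ E ∧ 0 < ‖ϖ‖ ∧ ‖ϖ‖ < 1 ∧ ∀ x ∈ E, x ≠ 0 → ∃ k : ℤ, ‖x‖ = ‖ϖ‖ ^ k

theorem norm_p : ‖(p : PadicAlgCl p)‖ = (p : ℝ)⁻¹ := by
  rw [← map_natCast (algebraMap ℚ_[p] (PadicAlgCl p)), PadicAlgCl.norm_extends]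
  exact Padic.norm_p

theorem exists_isUnif (E : IntermediateField ℚ_[p] (PadicAlgCl p))
    [FiniteDimensional ℚ_[p] E] : ∃ ϖ, IsUnif p E ϖ := by
  refine ⟨((ϖu p E : E) : PadicAlgCl p), (ϖu p E : E).2, ?_, ?_, ?_⟩
  · rw [← nrm_eq_norm]; exact nrm_ϖu_pos p E
  · rw [← nrm_eq_norm]; exact nrm_ϖu_lt_one p E
  · intro x hx hx0
    have hx0' : (⟨x, hx⟩ : E) ≠ 0 := fun h => hx0 (congrArg Subtype.val h)
    refine ⟨ordFun p E (Units.mk0 ⟨x, hx⟩ hx0'), ?_⟩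
    have := nrm_eq_zpow_ordFun p E (Units.mk0 ⟨x, hx⟩ hx0')
    rw [Units.val_mk0, nrm_eq_norm, nrm_eq_norm] at this
    exact this

/-- The exponent of `p`: `‖ϖ‖ ^ e = p⁻¹` for some `e ≥ 1`. -/
theorem IsUnif.exists_pow_eq {E : IntermediateField ℚ_[p] (PadicAlgCl p)} {ϖ : PadicAlgCl p}
    (h : IsUnif p E ϖ) : ∃ e : ℕ, 0 < e ∧ ‖ϖ‖ ^ e = (p : ℝ)⁻¹ := by
  obtain ⟨-, h0, h1, hv⟩ := h
  have hp0 : (p : PadicAlgCl p) ≠ 0 := by
    intro h
    have := norm_p p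
    rw [h, norm_zero] at this
    have hp : (0 : ℝ) < (p : ℝ)⁻¹ := inv_pos.mpr (by exact_mod_cast (Fact.out : p.Prime).pos)
    exact hp.ne this
  obtain ⟨k, hk⟩ := hv (p : PadicAlgCl p) (natCast_mem E p) hp0
  rw [norm_p] at hk
  have hplt : (p : ℝ)⁻¹ < 1 :=
    inv_lt_one_of_one_lt₀ (by exact_mod_cast (Fact.out : p.Prime).one_lt)
  have hkpos : 0 < k := by
    by_contra hk0
    have hk0' : k ≤ 0 := not_lt.mp hk0
    have : (1 : ℝ) ≤ ‖ϖ‖ ^ k := by
      obtain ⟨m, rfl⟩ := Int.exists_eq_neg_ofNat hk0'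
      rw [zpow_neg, zpow_natCast]
      exact (one_le_inv₀ (pow_pos h0 m)).mpr (pow_le_one₀ h0.le h1.le)
    rw [← hk] at this
    exact not_lt.mpr this hplt
  refine ⟨k.toNat, by omega, ?_⟩
  rw [hk, ← zpow_natCast, Int.toNat_of_nonneg hkpos.le]

/-- **Galois descent**: an element of `Ω` fixed by every automorphism fixing `E` lies in `E`. -/
theorem mem_of_forall_fixed (E : IntermediateField ℚ_[p] (PadicAlgCl p)) (x : PadicAlgCl p)
    (h : ∀ σ : PadicAlgCl p ≃ₐ[ℚ_[p]] PadicAlgCl p, (∀ y ∈ E, σ y = y) → σ x = x) : x ∈ E := by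
  have hG : IsGalois ℚ_[p] (PadicAlgCl p) := inferInstance
  have := InfiniteGalois.fixedField_fixingSubgroup (k := ℚ_[p]) (K := PadicAlgCl p) E
  rw [← this, IntermediateField.mem_fixedField_iff]
  intro σ hσ
  exact h σ (fun y hy => hσ ⟨y, hy⟩)

theorem norm_algEquiv (σ : PadicAlgCl p ≃ₐ[ℚ_[p]] PadicAlgCl p) (x : PadicAlgCl p) :
    ‖σ x‖ = ‖x‖ := norm_locGal_apply p σ x

theorem norm_sub_le_max (a b : PadicAlgCl p) : ‖a - b‖ ≤ max ‖a‖ ‖b‖ := norm_sub_le_max' p a b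

/-- Residue representatives: an integral element of a subfield `E` is congruent to an element of
`E ⊓ nrField` of norm `≤ 1` (a root of unity of order prime to `p`, or `0`). -/
theorem exists_unram_near (E : IntermediateField ℚ_[p] (PadicAlgCl p)) {x : PadicAlgCl p}
    (hx : x ∈ E) (hx1 : ‖x‖ ≤ 1) : ∃ c ∈ E ⊓ nrField p, ‖c‖ ≤ 1 ∧ ‖x - c‖ < 1 := by
  rcases lt_or_eq_of_le hx1 with hlt | heq
  · exact ⟨0, zero_mem _, by simp, by simpa using hlt⟩
  · obtain ⟨m, ζ, hm, hζ, hnear⟩ := exists_rootOfUnity_near p heq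
    have hm0 : m ≠ 0 := fun h0 => hm (h0 ▸ dvd_zero p)
    have hζ1 : ‖ζ‖ = 1 := norm_eq_one_of_pow_eq_one p hm0 hζ
    refine ⟨ζ, ⟨?_, mem_nrField_of_pow_eq_one p hm hζ⟩, hζ1.le, hnear⟩
    apply mem_of_forall_fixed
    intro σ hσ
    by_contra hne
    have hσζ : (σ ζ) ^ m = 1 := by rw [← map_pow, hζ, map_one]
    have h1 := norm_sub_eq_one_of_pow_eq_one p hm hσζ hζ hne
    have h2 : σ ζ - ζ = σ (ζ - x) - (ζ - x) := by
      rw [map_sub, hσ x hx]; ring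
    have h3 : ‖σ ζ - ζ‖ < 1 := by
      rw [h2]
      refine lt_of_le_of_lt (norm_sub_le_max p _ _) (max_lt ?_ ?_)
      · rw [norm_algEquiv, norm_sub_rev]; exact hnear
      · rw [norm_sub_rev]; exact hnear
    rw [h1] at h3
    exact lt_irrefl _ h3

end Fermat.Agent.S56.Flat.Passage.NormFrame
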