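/-
PROJECT T (S56), block Flat/Passage, leaf P2: the unit filtration lemma, in pure ultrametric form.

In an ultrametric normed field with `‖p‖ = p⁻¹`: if `y ^ p = x`, `‖x - 1‖ < 1` and
`p⁻¹ ^ p < ‖x - 1‖ ^ (p - 1)` (i.e. `‖x - 1‖ > p ^ (-p/(p-1))`), then `‖x - 1‖ = ‖y - 1‖ ^ p`.
-/
import Mathlib

set_option autoImplicit false

namespace Fermat.Agent.S56.Flat.Passage.UnitFiltration

open Finset

/-- Binomial expansion of `(1 + a) ^ p` for a prime `p`, isolating `1`, `a ^ p`, `p * a`. -/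
theorem one_add_pow_prime {R : Type*} [CommRing R] {p : ℕ} (hp : p.Prime) (a : R) :
    (1 + a) ^ p = 1 + a ^ p + p * a +
      p * a ^ 2 * ∑ j ∈ Finset.Ico 2 p, a ^ (j - 2) * ((p.choose j / p : ℕ) : R) := by
  have h2 : 2 ≤ p := hp.two_le
  rw [add_comm 1 a, add_pow]
  simp only [one_pow, mul_one]
  rw [Finset.range_eq_Ico, Finset.sum_Ico_succ_top (Nat.zero_le p),
    ← Finset.sum_Ico_consecutive _ (Nat.zero_le 2) h2]
  have h02 : ∑ i ∈ Finset.Ico 0 2, a ^ i * ((p.choose i : ℕ) : R) = 1 + p * a := by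
    rw [show Finset.Ico 0 2 = {0, 1} from rfl]
    rw [Finset.sum_pair (by norm_num)]
    simp [mul_comm]
  have hmid : ∑ i ∈ Finset.Ico 2 p, a ^ i * ((p.choose i : ℕ) : R) =
      p * a ^ 2 * ∑ j ∈ Finset.Ico 2 p, a ^ (j - 2) * ((p.choose j / p : ℕ) : R) := by
    rw [Finset.mul_sum]
    refine Finset.sum_congr rfl fun j hj => ?_
    rw [Finset.mem_Ico] at hj
    have hdvd : p ∣ p.choose j := hp.dvd_choose_self (by omega) hj.2
    obtain ⟨c, hc⟩ := hdvd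
    have hc' : p.choose j / p = c := by rw [hc, Nat.mul_div_cancel_left _ hp.pos]
    rw [hc', hc]
    have : a ^ j = a ^ 2 * a ^ (j - 2) := by rw [← pow_add]; congr 1; omega
    rw [this]
    push_cast
    ring
  rw [h02, hmid, Nat.choose_self]
  push_cast
  ring

variable {K : Type*} [NormedField K] [IsUltrametricDist K] {p : ℕ}

/-- The error term of `one_add_pow_prime` is integral. -/
theorem norm_sum_le_one {a : K} (ha : ‖a‖ ≤ 1) :
    ‖∑ j ∈ Finset.Ico 2 p, a ^ (j - 2) * ((p.choose j / p : ℕ) : K)‖ ≤ 1 := by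
  refine IsUltrametricDist.norm_sum_le_of_forall_le_of_nonneg zero_le_one fun j _ => ?_
  rw [norm_mul, norm_pow]
  calc ‖a‖ ^ (j - 2) * ‖((p.choose j / p : ℕ) : K)‖ ≤ 1 * 1 :=
        mul_le_mul (pow_le_one₀ (norm_nonneg _) ha) (IsUltrametricDist.norm_natCast_le_one K _)
          (norm_nonneg _) zero_le_one
    _ = 1 := one_mul 1

/-- **Unit filtration lemma.** -/
theorem norm_sub_one_eq_pow (hp : p.Prime) (hpK : ‖(p : K)‖ = (p : ℝ)⁻¹) {x y : K}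
    (hyx : y ^ p = x) (h1 : ‖x - 1‖ < 1) (h2 : ((p : ℝ)⁻¹) ^ p < ‖x - 1‖ ^ (p - 1)) :
    ‖x - 1‖ = ‖y - 1‖ ^ p := by
  have hp0 : (0 : ℝ) < p := by exact_mod_cast hp.pos
  have hp1 : (1 : ℝ) < p := by exact_mod_cast hp.one_lt
  have hpinv : (p : ℝ)⁻¹ < 1 := inv_lt_one_of_one_lt₀ hp1
  have hpinv0 : (0 : ℝ) < (p : ℝ)⁻¹ := inv_pos.mpr hp0
  -- `‖x‖ = 1`, `‖y‖ = 1`
  have hx1 : ‖x‖ = 1 := by
    have : x = (x - 1) + 1 := by ring
    rw [this]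
    have h := IsUltrametricDist.norm_add_eq_max_of_norm_ne_norm (x := x - 1) (y := (1 : K))
      (by rw [norm_one]; exact h1.ne)
    rw [h, norm_one]
    exact max_eq_right h1.le
  have hy1 : ‖y‖ = 1 := by
    have : ‖y‖ ^ p = 1 := by rw [← norm_pow, hyx, hx1]
    exact (pow_eq_one_iff_of_nonneg (norm_nonneg _) hp.ne_zero).mp this
  set a := y - 1 with ha
  have hya : y = 1 + a := by rw [ha]; ring
  have ha1 : ‖a‖ ≤ 1 := by
    rw [ha]
    rw [sub_eq_add_neg]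
    refine le_trans (IsUltrametricDist.norm_add_le_max _ _) ?_
    rw [norm_neg, hy1, norm_one, max_self]
  set h := ∑ j ∈ Finset.Ico 2 p, a ^ (j - 2) * ((p.choose j / p : ℕ) : K) with hh
  have hh1 : ‖h‖ ≤ 1 := norm_sum_le_one ha1
  have hexp : x - 1 = a ^ p + ((p : K) * a + (p : K) * a ^ 2 * h) := by
    rw [← hyx, hya, one_add_pow_prime hp a]
    ring
  -- the norm of the `p`-part
  have hB : ‖(p : K) * a + (p : K) * a ^ 2 * h‖ ≤ (p : ℝ)⁻¹ * ‖a‖ := by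
    refine le_trans (IsUltrametricDist.norm_add_le_max _ _) (max_le ?_ ?_)
    · rw [norm_mul, hpK]
    · rw [norm_mul, norm_mul, hpK, norm_pow, mul_assoc]
      refine mul_le_mul_of_nonneg_left ?_ hpinv0.le
      calc ‖a‖ ^ 2 * ‖h‖ ≤ ‖a‖ ^ 2 * 1 := mul_le_mul_of_nonneg_left hh1 (by positivity)
        _ = ‖a‖ * ‖a‖ := by ring
        _ ≤ ‖a‖ * 1 := mul_le_mul_of_nonneg_left ha1 (norm_nonneg _)
        _ = ‖a‖ := mul_one _
  -- `‖a‖ < 1`
  have ha_lt : ‖a‖ < 1 := by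
    rcases lt_or_eq_of_le ha1 with h' | h'
    · exact h'
    · exfalso
      have hA : ‖a ^ p‖ = 1 := by rw [norm_pow, h', one_pow]
      have hlt : ‖(p : K) * a + (p : K) * a ^ 2 * h‖ < ‖a ^ p‖ := by
        rw [hA]; refine lt_of_le_of_lt hB ?_
        rw [h', mul_one]; exact hpinv
      have := IsUltrametricDist.norm_add_eq_max_of_norm_ne_norm hlt.ne'
      rw [← hexp, max_eq_left hlt.le, hA] at this
      exact h1.ne this
  -- exact norm of the `p`-part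
  have hB' : ‖(p : K) * a + (p : K) * a ^ 2 * h‖ = (p : ℝ)⁻¹ * ‖a‖ := by
    by_cases ha0 : a = 0
    · simp [ha0]
    have hapos : 0 < ‖a‖ := norm_pos_iff.mpr ha0
    have hlt : ‖(p : K) * a ^ 2 * h‖ < ‖(p : K) * a‖ := by
      rw [norm_mul, norm_mul, hpK, norm_pow, norm_mul, hpK, mul_assoc]
      refine mul_lt_mul_of_pos_left ?_ hpinv0
      calc ‖a‖ ^ 2 * ‖h‖ ≤ ‖a‖ ^ 2 * 1 := mul_le_mul_of_nonneg_left hh1 (by positivity)
        _ = ‖a‖ * ‖a‖ := by ring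
        _ < ‖a‖ * 1 := mul_lt_mul_of_pos_left ha_lt hapos
        _ = ‖a‖ := mul_one _
    rw [IsUltrametricDist.norm_add_eq_max_of_norm_ne_norm hlt.ne', max_eq_left hlt.le, norm_mul,
      hpK]
  have hA : ‖a ^ p‖ = ‖a‖ ^ p := norm_pow _ _
  have hp1' : 1 ≤ p - 1 := by have := hp.two_le; omega
  have hpp : p = (p - 1) + 1 := by omega
  rcases lt_trichotomy (‖a‖ ^ p) ((p : ℝ)⁻¹ * ‖a‖) with hlt | heq | hgt
  · -- `‖x - 1‖ = p⁻¹ ‖a‖` : too small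
    exfalso
    have hne : ‖a ^ p‖ ≠ ‖(p : K) * a + (p : K) * a ^ 2 * h‖ := by rw [hA, hB']; exact hlt.ne
    have hx : ‖x - 1‖ = (p : ℝ)⁻¹ * ‖a‖ := by
      rw [hexp, IsUltrametricDist.norm_add_eq_max_of_norm_ne_norm hne, hA, hB']
      exact max_eq_right hlt.le
    have hapos : 0 < ‖a‖ := by
      by_contra h0
      have : ‖a‖ = 0 := le_antisymm (not_lt.mp h0) (norm_nonneg _)
      rw [this, zero_pow hp.ne_zero, mul_zero] at hlt
      exact lt_irrefl _ hlt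
    have ha' : ‖a‖ ^ (p - 1) < (p : ℝ)⁻¹ := by
      have : ‖a‖ ^ (p - 1) * ‖a‖ < (p : ℝ)⁻¹ * ‖a‖ := by
        rw [← pow_succ, ← hpp]; exact hlt
      exact lt_of_mul_lt_mul_right this hapos.le
    have : ‖x - 1‖ ^ (p - 1) < ((p : ℝ)⁻¹) ^ p := by
      rw [hx, mul_pow]
      calc (p : ℝ)⁻¹ ^ (p - 1) * ‖a‖ ^ (p - 1) < (p : ℝ)⁻¹ ^ (p - 1) * (p : ℝ)⁻¹ :=
            mul_lt_mul_of_pos_left ha' (pow_pos hpinv0 _)
        _ = (p : ℝ)⁻¹ ^ p := by rw [← pow_succ, ← hpp]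
    exact lt_irrefl _ (lt_trans h2 this)
  · -- equality: `‖x - 1‖ ≤ p⁻¹ ‖a‖` and `‖a‖ ^ (p-1) = p⁻¹`
    exfalso
    have hx : ‖x - 1‖ ≤ (p : ℝ)⁻¹ * ‖a‖ := by
      rw [hexp]
      refine le_trans (IsUltrametricDist.norm_add_le_max _ _) (max_le ?_ hB'.le)
      rw [hA]; exact heq.le
    by_cases ha0 : ‖a‖ = 0
    · rw [ha0, mul_zero] at hx
      have hx0 : ‖x - 1‖ = 0 := le_antisymm hx (norm_nonneg _)
      rw [hx0, zero_pow (by omega : p - 1 ≠ 0)] at h2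
      exact lt_irrefl _ (lt_trans (pow_pos hpinv0 _) h2)
    have hapos : 0 < ‖a‖ := lt_of_le_of_ne (norm_nonneg _) (Ne.symm ha0)
    have ha' : ‖a‖ ^ (p - 1) = (p : ℝ)⁻¹ := by
      have : ‖a‖ ^ (p - 1) * ‖a‖ = (p : ℝ)⁻¹ * ‖a‖ := by
        rw [← pow_succ, ← hpp]; exact heq
      exact mul_right_cancel₀ ha0 this
    have : ‖x - 1‖ ^ (p - 1) ≤ ((p : ℝ)⁻¹) ^ p := by
      calc ‖x - 1‖ ^ (p - 1) ≤ ((p : ℝ)⁻¹ * ‖a‖) ^ (p - 1) :=
            pow_le_pow_left₀ (norm_nonneg _) hx _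
        _ = (p : ℝ)⁻¹ ^ (p - 1) * (p : ℝ)⁻¹ := by rw [mul_pow, ha']
        _ = (p : ℝ)⁻¹ ^ p := by rw [← pow_succ, ← hpp]
    exact lt_irrefl _ (lt_of_lt_of_le h2 this)
  · have hne : ‖a ^ p‖ ≠ ‖(p : K) * a + (p : K) * a ^ 2 * h‖ := by rw [hA, hB']; exact hgt.ne'
    rw [hexp, IsUltrametricDist.norm_add_eq_max_of_norm_ne_norm hne, hA, hB']
    exact max_eq_left hgt.le

end Fermat.Agent.S56.Flat.Passage.UnitFiltration
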