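/-
PROJECT T (S56), block Flat/Passage: the norm of `ζ - 1` for a primitive `p`-th root of unity, in
pure ultrametric form: `‖ζ - 1‖ ^ (p - 1) = p⁻¹`.
-/
import Mathlib
import Fermat.Agent.S56.Flat.Passage.UnitFiltration

set_option autoImplicit false

namespace Fermat.Agent.S56.Flat.Passage.Zeta

open Fermat.Agent.S56.Flat.Passage.UnitFiltration

variable {K : Type*} [NormedField K] [IsUltrametricDist K] {p : ℕ}

/-- In an ultrametric normed field with `‖p‖ = p⁻¹`, a nontrivial `p`-th root of unity `ζ` has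
`‖ζ - 1‖ ^ (p - 1) = p⁻¹`. -/
theorem norm_sub_one_pow (hp : p.Prime) (hpK : ‖(p : K)‖ = (p : ℝ)⁻¹) {ζ : K} (hζ : ζ ^ p = 1)
    (hζ1 : ζ ≠ 1) : ‖ζ - 1‖ ^ (p - 1) = (p : ℝ)⁻¹ := by
  have hp1 : (1 : ℝ) < p := by exact_mod_cast hp.one_lt
  have hpinv : (p : ℝ)⁻¹ < 1 := inv_lt_one_of_one_lt₀ hp1
  set l := ζ - 1 with hl
  have hl0 : l ≠ 0 := sub_ne_zero.mpr hζ1
  have hζn : ‖ζ‖ = 1 := by
    have h1 : ‖ζ‖ ^ p = 1 := by rw [← norm_pow, hζ, norm_one]
    exact (pow_eq_one_iff_of_nonneg (norm_nonneg _) hp.ne_zero).mp h1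
  have hl1 : ‖l‖ ≤ 1 := by
    have h := IsUltrametricDist.norm_add_le_max ζ (-1)
    rw [norm_neg, hζn, norm_one, max_self, ← sub_eq_add_neg] at h
    exact h
  set S := ∑ j ∈ Finset.Ico 2 p, l ^ (j - 2) * ((p.choose j / p : ℕ) : K) with hS
  have hS1 : ‖S‖ ≤ 1 := norm_sum_le_one hl1
  have hexp : (1 + l) ^ p = 1 + l ^ p + p * l + p * l ^ 2 * S := one_add_pow_prime hp l
  have h1l : 1 + l = ζ := by rw [hl]; ring
  rw [h1l, hζ] at hexp
  -- divide by `l`
  have hpm : p = (p - 1) + 1 := (Nat.sub_add_cancel hp.pos).symm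
  have hkey : l ^ (p - 1) = -((p : K) * (1 + l * S)) := by
    have h2 : l * (l ^ (p - 1) + (p : K) * (1 + l * S)) = 0 := by
      have : l * l ^ (p - 1) = l ^ p := by rw [← pow_succ', ← hpm]
      calc l * (l ^ (p - 1) + (p : K) * (1 + l * S))
          = l * l ^ (p - 1) + p * l + p * l ^ 2 * S := by ring
        _ = l ^ p + p * l + p * l ^ 2 * S := by rw [this]
        _ = 0 := by linear_combination -hexp
    rcases mul_eq_zero.mp h2 with h | h
    · exact absurd h hl0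
    · exact eq_neg_of_add_eq_zero_left h
  have hnorm : ‖l‖ ^ (p - 1) = (p : ℝ)⁻¹ * ‖1 + l * S‖ := by
    rw [← norm_pow, hkey, norm_neg, norm_mul, hpK]
  have hle : ‖1 + l * S‖ ≤ 1 := by
    refine (IsUltrametricDist.norm_add_le_max _ _).trans (max_le (by rw [norm_one]) ?_)
    rw [norm_mul]
    exact mul_le_one₀ hl1 (norm_nonneg _) hS1
  -- `‖l‖ < 1`
  have hllt : ‖l‖ < 1 := by
    rcases lt_or_eq_of_le hl1 with h | h
    · exact h
    · exfalso
      rw [h, one_pow] at hnorm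
      have : (p : ℝ)⁻¹ * ‖1 + l * S‖ ≤ (p : ℝ)⁻¹ * 1 :=
        mul_le_mul_of_nonneg_left hle (inv_nonneg.mpr (by positivity))
      rw [← hnorm, mul_one] at this
      exact not_lt.mpr this hpinv
  have hlS : ‖l * S‖ < 1 := by
    rw [norm_mul]
    calc ‖l‖ * ‖S‖ ≤ ‖l‖ * 1 := mul_le_mul_of_nonneg_left hS1 (norm_nonneg _)
      _ = ‖l‖ := mul_one _
      _ < 1 := hllt
  have hone : ‖1 + l * S‖ = 1 := by
    have h := IsUltrametricDist.norm_add_eq_max_of_norm_ne_norm (x := (1 : K)) (y := l * S)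
      (by rw [norm_one]; exact hlS.ne')
    rw [h, norm_one]
    exact max_eq_left hlS.le
  rw [hnorm, hone, mul_one]

end Fermat.Agent.S56.Flat.Passage.Zeta
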