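/-
PROJECT T (S56), block Flat/Passage, leaf P4: totally ramified pairs, in norm form.

`F ≤ E` finite subfields of `Ω = PadicAlgCl p`, `π` a uniformizer of `F`, `ϖ ∈ E` with
`‖ϖ‖ ^ n = ‖π‖`.  Then the norms of `a * ϖ ^ j` (`a ∈ F`, `j < n`) are pairwise distinct, so
`‖∑ a_j ϖ^j‖ = max ‖a_j ϖ^j‖` (`term_le_norm_sum`).  If moreover the residues of `E` are
represented in `F` and `ϖ` is a uniformizer of `E`, the powers `ϖ^j`, `j < n`, span `E` over `F`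
(`spans_of_res`, by Nakayama over `ℤ_[p]`).
-/
import Mathlib
import Fermat.Agent.S56.Flat.Passage.NormFrame

set_option autoImplicit false

namespace Fermat.Agent.S56.Flat.Passage.TotRam

open Fermat.Agent.CFT.Local.Model Fermat.Agent.CFT.Local.PadicAlgClLocal
  Fermat.Agent.S56.Flat.Passage.NormFrame Finset

variable (p : ℕ) [Fact p.Prime]

/-- The data of a totally ramified pair in norm form. -/
structure TRData (F : IntermediateField ℚ_[p] (PadicAlgCl p)) (π ϖ : PadicAlgCl p) (n : ℕ) :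
    Prop where
  unif : IsUnif p F π
  npos : 0 < n
  pow : ‖ϖ‖ ^ n = ‖π‖

variable {p}
variable {F : IntermediateField ℚ_[p] (PadicAlgCl p)} {π ϖ : PadicAlgCl p} {n : ℕ}

theorem TRData.norm_pos (h : TRData p F π ϖ n) : 0 < ‖ϖ‖ := by
  have h1 : 0 < ‖ϖ‖ ^ n := by rw [h.pow]; exact h.unif.2.1
  by_contra h0
  have : ‖ϖ‖ = 0 := le_antisymm (not_lt.mp h0) (norm_nonneg _)
  rw [this, zero_pow h.npos.ne'] at h1
  exact lt_irrefl _ h1

theorem TRData.norm_lt_one (h : TRData p F π ϖ n) : ‖ϖ‖ < 1 := by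
  by_contra h1
  have : 1 ≤ ‖ϖ‖ ^ n := one_le_pow₀ (not_lt.mp h1)
  rw [h.pow] at this
  exact not_lt.mpr this h.unif.2.2.1

theorem TRData.ne_zero (h : TRData p F π ϖ n) : ϖ ≠ 0 := norm_pos_iff.mp h.norm_pos

/-- The norm of a nonzero term `a * ϖ ^ j`, `a ∈ F`. -/
theorem TRData.norm_term (h : TRData p F π ϖ n) {a : PadicAlgCl p} (ha : a ∈ F) (ha0 : a ≠ 0)
    (j : ℕ) : ∃ k : ℤ, ‖a * ϖ ^ j‖ = ‖ϖ‖ ^ ((n : ℤ) * k + j) := by
  obtain ⟨k, hk⟩ := h.unif.2.2.2 a ha ha0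
  refine ⟨k, ?_⟩
  rw [norm_mul, norm_pow, hk, ← h.pow, zpow_add₀ h.norm_pos.ne', zpow_mul, zpow_natCast,
    zpow_natCast]

theorem zpow_inj_of_lt_one {r : ℝ} (h0 : 0 < r) (h1 : r < 1) {a b : ℤ} (h : r ^ a = r ^ b) :
    a = b := zpow_right_injective₀ h0 h1.ne h

theorem zpow_le_zpow_iff_of_lt_one {r : ℝ} (h0 : 0 < r) (h1 : r < 1) {a b : ℤ} :
    r ^ a ≤ r ^ b ↔ b ≤ a := by
  constructor
  · intro h
    by_contra hlt
    have hlt' : a < b := not_le.mp hlt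
    have := zpow_lt_zpow_right_of_lt_one₀ h0 h1 hlt'
    exact not_lt.mpr h this
  · intro h
    exact zpow_le_zpow_right_of_le_one₀ h0 h1.le h

/-- **Distinct valuations**: every term is bounded by the norm of the sum. -/
theorem TRData.term_le_norm_sum (h : TRData p F π ϖ n) (a : ℕ → PadicAlgCl p)
    (ha : ∀ j, a j ∈ F) {j : ℕ} (hj : j < n) :
    ‖a j * ϖ ^ j‖ ≤ ‖∑ i ∈ range n, a i * ϖ ^ i‖ := by
  classical
  by_cases haj : a j = 0
  · rw [haj, zero_mul, norm_zero]; exact norm_nonneg _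
  set T := (range n).filter (fun i => a i ≠ 0) with hT
  have hsum : ∑ i ∈ range n, a i * ϖ ^ i = ∑ i ∈ T, a i * ϖ ^ i := by
    rw [hT, Finset.sum_filter]
    refine Finset.sum_congr rfl fun i _ => ?_
    by_cases hi : a i = 0
    · simp [hi]
    · simp [hi]
  have hjT : j ∈ T := by
    rw [hT, Finset.mem_filter, Finset.mem_range]; exact ⟨hj, haj⟩
  have hne : T.Nonempty := ⟨j, hjT⟩
  have hpair : Set.Pairwise (T : Set ℕ) (fun i i' => ‖a i * ϖ ^ i‖ ≠ ‖a i' * ϖ ^ i'‖) := by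
    intro i hi i' hi' hii' heq
    rw [Finset.mem_coe, hT, Finset.mem_filter, Finset.mem_range] at hi hi'
    obtain ⟨k, hk⟩ := h.norm_term (ha i) hi.2 i
    obtain ⟨k', hk'⟩ := h.norm_term (ha i') hi'.2 i'
    rw [hk, hk'] at heq
    have := zpow_inj_of_lt_one h.norm_pos h.norm_lt_one heq
    apply hii'
    have h1 : ((i : ℤ)) % n = (i' : ℤ) % n := by
      have e1 : (i : ℤ) = ((n : ℤ) * k' + i') - (n : ℤ) * k := by linarith
      rw [e1]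
      have : ((n : ℤ) * k' + i') - (n : ℤ) * k = i' + (n : ℤ) * (k' - k) := by ring
      rw [this, Int.add_mul_emod_self_left]
    rw [Int.emod_eq_of_lt (by positivity) (by exact_mod_cast hi.1),
      Int.emod_eq_of_lt (by positivity) (by exact_mod_cast hi'.1)] at h1
    exact_mod_cast h1
  rw [hsum, IsUltrametricDist.norm_sum_eq_sup'_of_pairwise_ne hne hpair]
  exact Finset.le_sup' (fun i => ‖a i * ϖ ^ i‖) hjT

/-- Linear independence of the powers of `ϖ` over `F`. -/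
theorem TRData.eq_zero_of_sum_eq_zero (h : TRData p F π ϖ n) (a : ℕ → PadicAlgCl p)
    (ha : ∀ j, a j ∈ F) (hs : ∑ i ∈ range n, a i * ϖ ^ i = 0) {j : ℕ} (hj : j < n) : a j = 0 := by
  have := h.term_le_norm_sum a ha hj
  rw [hs, norm_zero] at this
  have h0 : a j * ϖ ^ j = 0 := norm_le_zero_iff.mp this
  rcases mul_eq_zero.mp h0 with h1 | h1
  · exact h1
  · exact absurd (pow_eq_zero_iff (by
      intro hj0; subst hj0; simp at h1) |>.mp h1) h.ne_zero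

/-- The value of a nonzero sum is a power of `‖ϖ‖`. -/
theorem TRData.exists_norm_sum_eq (h : TRData p F π ϖ n) (a : ℕ → PadicAlgCl p)
    (ha : ∀ j, a j ∈ F) (hs : ∑ i ∈ range n, a i * ϖ ^ i ≠ 0) :
    ∃ k : ℤ, ‖∑ i ∈ range n, a i * ϖ ^ i‖ = ‖ϖ‖ ^ k := by
  obtain ⟨j, hjm, hj⟩ := IsUltrametricDist.exists_norm_finsetSum_le_of_nonempty
    (Finset.nonempty_range_iff.mpr h.npos.ne') (fun i => a i * ϖ ^ i)
  rw [Finset.mem_range] at hjm
  have hle := h.term_le_norm_sum a ha hjm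
  have heq : ‖∑ i ∈ range n, a i * ϖ ^ i‖ = ‖a j * ϖ ^ j‖ := le_antisymm hj hle
  have haj : a j ≠ 0 := by
    intro h0
    rw [h0, zero_mul, norm_zero] at heq
    exact hs (norm_eq_zero.mp heq)
  obtain ⟨k, hk⟩ := h.norm_term (ha j) haj j
  exact ⟨_, heq.trans hk⟩

/-- Integrality of the coefficients of an integral sum. -/
theorem TRData.coeff_le_of_sum_le (h : TRData p F π ϖ n) (a : ℕ → PadicAlgCl p)
    (ha : ∀ j, a j ∈ F) (hs : ‖∑ i ∈ range n, a i * ϖ ^ i‖ ≤ 1) {j : ℕ} (hj : j < n) :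
    ‖a j‖ ≤ 1 := by
  by_cases haj : a j = 0
  · rw [haj, norm_zero]; exact zero_le_one
  have h1 : ‖a j * ϖ ^ j‖ ≤ 1 := (h.term_le_norm_sum a ha hj).trans hs
  obtain ⟨k, hk⟩ := h.unif.2.2.2 (a j) (ha j) haj
  obtain ⟨k', hk'⟩ := h.norm_term (ha j) haj j
  -- recompute with the same `k`
  have hk2 : ‖a j * ϖ ^ j‖ = ‖ϖ‖ ^ ((n : ℤ) * k + j) := by
    rw [norm_mul, norm_pow, hk, ← h.pow, zpow_add₀ h.norm_pos.ne', zpow_mul, zpow_natCast,
      zpow_natCast]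
  rw [hk2, ← zpow_zero ‖ϖ‖, zpow_le_zpow_iff_of_lt_one h.norm_pos h.norm_lt_one] at h1
  have hk0 : 0 ≤ k := by
    by_contra hneg
    have hneg' : k ≤ -1 := by omega
    have hn : (0 : ℤ) < n := by exact_mod_cast h.npos
    have : (n : ℤ) * k ≤ -(n : ℤ) := by nlinarith
    have hj' : (j : ℤ) < n := by exact_mod_cast hj
    omega
  rw [hk]
  obtain ⟨m, rfl⟩ := Int.eq_ofNat_of_zero_le hk0
  rw [zpow_natCast]
  exact pow_le_one₀ h.unif.2.1.le h.unif.2.2.1.le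

/-! ### Spanning, by Nakayama over `ℤ_[p]` -/

section Span

open scoped Fermat.Agent.CFT.Local.Model

variable {E : IntermediateField ℚ_[p] (PadicAlgCl p)}

/-- In a subfield with uniformizer `ϖ`, norm `< 1` means norm `≤ ‖ϖ‖`. -/
theorem IsUnif.le_of_lt_one {ϖ : PadicAlgCl p} (hϖ : IsUnif p E ϖ) {x : PadicAlgCl p} (hx : x ∈ E)
    (h1 : ‖x‖ < 1) : ‖x‖ ≤ ‖ϖ‖ := by
  by_cases hx0 : x = 0
  · rw [hx0, norm_zero]; exact hϖ.2.1.le
  obtain ⟨k, hk⟩ := hϖ.2.2.2 x hx hx0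
  rw [hk] at h1 ⊢
  have hk1 : 1 ≤ k := by
    by_contra hlt
    have hk0 : k ≤ 0 := by omega
    have : (1 : ℝ) ≤ ‖ϖ‖ ^ k := by
      rw [← zpow_zero ‖ϖ‖]
      exact (zpow_le_zpow_iff_of_lt_one hϖ.2.1 hϖ.2.2.1).mpr hk0
    exact not_lt.mpr this h1
  calc ‖ϖ‖ ^ k ≤ ‖ϖ‖ ^ (1 : ℤ) := (zpow_le_zpow_iff_of_lt_one hϖ.2.1 hϖ.2.2.1).mpr hk1
    _ = ‖ϖ‖ := zpow_one _

/-- The shape of an element of the `𝒪_F`-span of the powers of `ϖ`. -/
def InSpan (F : IntermediateField ℚ_[p] (PadicAlgCl p)) (ϖ : PadicAlgCl p) (n : ℕ)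
    (x : PadicAlgCl p) : Prop :=
  ∃ a : ℕ → PadicAlgCl p, (∀ j, a j ∈ F ∧ ‖a j‖ ≤ 1) ∧ x = ∑ j ∈ range n, a j * ϖ ^ j

theorem InSpan.zero : InSpan F ϖ n 0 :=
  ⟨fun _ => 0, fun _ => ⟨zero_mem F, by simp⟩, by simp⟩

theorem InSpan.add {x y : PadicAlgCl p} (hx : InSpan F ϖ n x) (hy : InSpan F ϖ n y) :
    InSpan F ϖ n (x + y) := by
  obtain ⟨a, ha, rfl⟩ := hx
  obtain ⟨b, hb, rfl⟩ := hy
  refine ⟨fun j => a j + b j, fun j => ⟨add_mem (ha j).1 (hb j).1, ?_⟩, ?_⟩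
  · exact (IsUltrametricDist.norm_add_le_max _ _).trans (max_le (ha j).2 (hb j).2)
  · rw [← Finset.sum_add_distrib]
    exact Finset.sum_congr rfl fun j _ => by ring

theorem InSpan.mul_left {x c : PadicAlgCl p} (hc : c ∈ F) (hc1 : ‖c‖ ≤ 1)
    (hx : InSpan F ϖ n x) : InSpan F ϖ n (c * x) := by
  obtain ⟨a, ha, rfl⟩ := hx
  refine ⟨fun j => c * a j, fun j => ⟨mul_mem hc (ha j).1, ?_⟩, ?_⟩
  · rw [norm_mul]
    calc ‖c‖ * ‖a j‖ ≤ 1 * 1 := mul_le_mul hc1 (ha j).2 (norm_nonneg _) zero_le_one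
      _ = 1 := one_mul 1
  · rw [Finset.mul_sum]
    exact Finset.sum_congr rfl fun j _ => by ring

/-- Digits: `y = ∑_{i<j} a_i ϖ^i + ϖ^j y_j`. -/
theorem exists_digits (hFE : F ≤ E) (hϖ : IsUnif p E ϖ)
    (hres : ∀ x ∈ E, ‖x‖ ≤ 1 → ∃ c ∈ F, ‖c‖ ≤ 1 ∧ ‖x - c‖ < 1)
    {y : PadicAlgCl p} (hy : y ∈ E) (hy1 : ‖y‖ ≤ 1) (j : ℕ) :
    ∃ (a : ℕ → PadicAlgCl p) (y' : PadicAlgCl p), (∀ i, a i ∈ F ∧ ‖a i‖ ≤ 1) ∧ y' ∈ E ∧ ‖y'‖ ≤ 1 ∧
      y = ∑ i ∈ range j, a i * ϖ ^ i + ϖ ^ j * y' := by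
  induction j with
  | zero => exact ⟨fun _ => 0, y, fun _ => ⟨zero_mem F, by simp⟩, hy, hy1, by simp⟩
  | succ j ih =>
    obtain ⟨a, y', ha, hy', hy'1, hsum⟩ := ih
    obtain ⟨c, hcF, hc1, hc⟩ := hres y' hy' hy'1
    have hϖ0 : ϖ ≠ 0 := norm_pos_iff.mp hϖ.2.1
    have hdE : y' - c ∈ E := sub_mem hy' (hFE hcF)
    have hle : ‖y' - c‖ ≤ ‖ϖ‖ := IsUnif.le_of_lt_one hϖ hdE hc
    refine ⟨Function.update a j c, (y' - c) / ϖ, ?_, div_mem hdE hϖ.1, ?_, ?_⟩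
    · intro i
      by_cases hij : i = j
      · subst hij; rw [Function.update_self]; exact ⟨hcF, hc1⟩
      · rw [Function.update_of_ne hij]; exact ha i
    · rw [norm_div]
      exact div_le_one_of_le₀ hle (norm_nonneg _)
    · rw [Finset.sum_range_succ, Function.update_self]
      have hs : ∑ i ∈ range j, Function.update a j c i * ϖ ^ i = ∑ i ∈ range j, a i * ϖ ^ i := by
        refine Finset.sum_congr rfl fun i hi => ?_
        rw [Finset.mem_range] at hi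
        rw [Function.update_of_ne hi.ne]
      rw [hs, hsum, pow_succ]
      field_simp
      ring

/-- One step modulo `π`. -/
theorem exists_step (hFE : F ≤ E) (h : TRData p F π ϖ n) (hϖ : IsUnif p E ϖ)
    (hres : ∀ x ∈ E, ‖x‖ ≤ 1 → ∃ c ∈ F, ‖c‖ ≤ 1 ∧ ‖x - c‖ < 1)
    {y : PadicAlgCl p} (hy : y ∈ E) (hy1 : ‖y‖ ≤ 1) :
    ∃ s y' : PadicAlgCl p, InSpan F ϖ n s ∧ y' ∈ E ∧ ‖y'‖ ≤ 1 ∧ y = s + π * y' := by
  obtain ⟨a, y', ha, hy', hy'1, hsum⟩ := exists_digits hFE hϖ hres hy hy1 n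
  have hπ0 : π ≠ 0 := norm_pos_iff.mp h.unif.2.1
  refine ⟨∑ i ∈ range n, a i * ϖ ^ i, ϖ ^ n / π * y', ⟨a, ha, rfl⟩,
    mul_mem (div_mem (pow_mem hϖ.1 n) (hFE h.unif.1)) hy', ?_, ?_⟩
  · rw [norm_mul, norm_div, norm_pow, h.pow, div_self (norm_pos_iff.mpr hπ0).ne', one_mul]
    exact hy'1
  · rw [hsum]
    field_simp

/-- `m` steps modulo `π`. -/
theorem exists_steps (hFE : F ≤ E) (h : TRData p F π ϖ n) (hϖ : IsUnif p E ϖ)
    (hres : ∀ x ∈ E, ‖x‖ ≤ 1 → ∃ c ∈ F, ‖c‖ ≤ 1 ∧ ‖x - c‖ < 1)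
    {y : PadicAlgCl p} (hy : y ∈ E) (hy1 : ‖y‖ ≤ 1) (m : ℕ) :
    ∃ s y' : PadicAlgCl p, InSpan F ϖ n s ∧ y' ∈ E ∧ ‖y'‖ ≤ 1 ∧ y = s + π ^ m * y' := by
  induction m with
  | zero => exact ⟨0, y, InSpan.zero, hy, hy1, by simp⟩
  | succ m ih =>
    obtain ⟨s, y', hs, hy', hy'1, hsum⟩ := ih
    obtain ⟨s', y'', hs', hy'', hy''1, hsum'⟩ := exists_step hFE h hϖ hres hy' hy'1
    have hπm : ‖π ^ m‖ ≤ 1 := by
      rw [norm_pow]; exact pow_le_one₀ h.unif.2.1.le h.unif.2.2.1.le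
    refine ⟨s + π ^ m * s', y'', hs.add (hs'.mul_left (pow_mem h.unif.1 m) hπm), hy'', hy''1, ?_⟩
    rw [hsum, hsum', pow_succ]
    ring

/-- **Spanning**: if the residues of `E` are represented in `F`, `ϖ` is a uniformizer of `E` and
`‖ϖ‖ ^ n = ‖π‖`, then every integral element of `E` is an `𝒪_F`-combination of `ϖ^j`, `j < n`. -/
theorem inSpan_of_res [FiniteDimensional ℚ_[p] E] (hFE : F ≤ E) (h : TRData p F π ϖ n)
    (hϖ : IsUnif p E ϖ)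
    (hres : ∀ x ∈ E, ‖x‖ ≤ 1 → ∃ c ∈ F, ‖c‖ ≤ 1 ∧ ‖x - c‖ < 1)
    {x : PadicAlgCl p} (hx : x ∈ E) (hx1 : ‖x‖ ≤ 1) : InSpan F ϖ n x := by
  classical
  obtain ⟨e, he0, he⟩ := h.unif.exists_pow_eq
  -- the `ℤ_[p]`-submodule of `𝒪 p E` of elements of the right shape
  let S : Submodule ℤ_[p] ↥(𝒪 p E) :=
    { carrier := {y | InSpan F ϖ n ((y : E) : PadicAlgCl p)}
      zero_mem' := by
        show InSpan F ϖ n (((0 : ↥(𝒪 p E)) : E) : PadicAlgCl p)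
        simpa using (InSpan.zero : InSpan F ϖ n 0)
      add_mem' := by
        intro a b ha hb
        show InSpan F ϖ n (((a + b : ↥(𝒪 p E)) : E) : PadicAlgCl p)
        have := InSpan.add ha hb
        simpa using this
      smul_mem' := by
        intro c y hy
        show InSpan F ϖ n (((c • y : ↥(𝒪 p E)) : E) : PadicAlgCl p)
        have hc : ((c • y : ↥(𝒪 p E)) : E) =
            algebraMap ℚ_[p] E (c : ℚ_[p]) * (y : E) := by
          rw [Algebra.smul_def]; rfl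
        rw [hc]
        have hcF : algebraMap ℚ_[p] (PadicAlgCl p) (c : ℚ_[p]) ∈ F := F.algebraMap_mem _
        have hc1 : ‖algebraMap ℚ_[p] (PadicAlgCl p) (c : ℚ_[p])‖ ≤ 1 := by
          rw [PadicAlgCl.norm_extends]; exact PadicInt.norm_le_one c
        have := InSpan.mul_left hcF hc1 hy
        simpa using this }
  have hmemS : ∀ y : ↥(𝒪 p E), y ∈ S ↔ InSpan F ϖ n ((y : E) : PadicAlgCl p) := fun _ => Iff.rfl
  have hjac : Ideal.span {(p : ℤ_[p])} ≤ Ideal.jacobson ⊥ := by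
    rw [IsLocalRing.jacobson_eq_maximalIdeal ⊥ bot_ne_top, PadicInt.maximalIdeal_eq_span_p]
  have hfg : (⊤ : Submodule ℤ_[p] ↥(𝒪 p E)).FG := Module.finite_def.mp inferInstance
  have hNN : (⊤ : Submodule ℤ_[p] ↥(𝒪 p E)) ≤ S ⊔ Ideal.span {(p : ℤ_[p])} • ⊤ := by
    intro y _
    have hyE : ((y : E) : PadicAlgCl p) ∈ E := (y : E).2
    have hy1 : ‖((y : E) : PadicAlgCl p)‖ ≤ 1 := by
      rw [← nrm_eq_norm]; exact y.2
    obtain ⟨s, y', hs, hy', hy'1, hsum⟩ := exists_steps hFE h hϖ hres hyE hy1 e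
    -- `π ^ e = p * w`
    have hp0 : (p : PadicAlgCl p) ≠ 0 := by
      intro h0
      have := norm_p p
      rw [h0, norm_zero] at this
      exact (inv_pos.mpr (by exact_mod_cast (Fact.out : p.Prime).pos : (0 : ℝ) < p)).ne this
    set w := π ^ e / (p : PadicAlgCl p) with hw
    have hwE : w ∈ E := div_mem (pow_mem (hFE h.unif.1) e) (natCast_mem E p)
    have hw1 : ‖w‖ = 1 := by
      rw [hw, norm_div, norm_pow, he, norm_p]
      exact div_self (inv_pos.mpr (by exact_mod_cast (Fact.out : p.Prime).pos : (0 : ℝ) < p)).ne'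
    have hsE : s ∈ E := by
      obtain ⟨a, ha, rfl⟩ := hs
      exact sum_mem fun j _ => mul_mem (hFE (ha j).1) (pow_mem hϖ.1 j)
    have hs1 : ‖s‖ ≤ 1 := by
      obtain ⟨a, ha, rfl⟩ := hs
      refine IsUltrametricDist.norm_sum_le_of_forall_le_of_nonneg zero_le_one fun j _ => ?_
      rw [norm_mul, norm_pow]
      calc ‖a j‖ * ‖ϖ‖ ^ j ≤ 1 * 1 :=
            mul_le_mul (ha j).2 (pow_le_one₀ hϖ.2.1.le hϖ.2.2.1.le) (by positivity) zero_le_one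
        _ = 1 := one_mul 1
    let sO : ↥(𝒪 p E) := ⟨⟨s, hsE⟩, by
      show nrm p E ⟨s, hsE⟩ ≤ 1
      rw [nrm_eq_norm]; exact hs1⟩
    let yO : ↥(𝒪 p E) := ⟨⟨w * y', mul_mem hwE hy'⟩, by
      show nrm p E ⟨w * y', mul_mem hwE hy'⟩ ≤ 1
      rw [nrm_eq_norm]
      show ‖w * y'‖ ≤ 1
      rw [norm_mul, hw1, one_mul]; exact hy'1⟩
    have hy_eq : y = sO + (p : ℤ_[p]) • yO := by
      apply Subtype.ext
      apply Subtype.ext
      have hc : (((p : ℤ_[p]) • yO : ↥(𝒪 p E)) : E) =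
          algebraMap ℚ_[p] E ((p : ℤ_[p]) : ℚ_[p]) * (yO : E) := by
        rw [Algebra.smul_def]; rfl
      show ((y : E) : PadicAlgCl p) = ((sO + (p : ℤ_[p]) • yO : ↥(𝒪 p E)) : E)
      rw [show ((sO + (p : ℤ_[p]) • yO : ↥(𝒪 p E)) : E) =
        (sO : E) + (((p : ℤ_[p]) • yO : ↥(𝒪 p E)) : E) from rfl, hc]
      show ((y : E) : PadicAlgCl p) = s + algebraMap ℚ_[p] (PadicAlgCl p) ((p : ℤ_[p]) : ℚ_[p]) * (w * y')
      rw [hsum, hw]
      simp only [PadicInt.coe_natCast, map_natCast]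
      field_simp
    rw [hy_eq]
    exact Submodule.add_mem_sup ((hmemS sO).mpr hs)
      (Submodule.smul_mem_smul (Ideal.mem_span_singleton_self _) Submodule.mem_top)
  have htop := Submodule.le_of_le_smul_of_le_jacobson_bot hfg hjac hNN
  have hx1' : nrm p E ⟨x, hx⟩ ≤ 1 := by rw [nrm_eq_norm]; exact hx1
  exact (hmemS ⟨⟨x, hx⟩, hx1'⟩).mp (htop Submodule.mem_top)

end Span

end Fermat.Agent.S56.Flat.Passage.TotRam
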