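/-
PROJECT T (S56), block Flat/Passage: simple extensions `F(θ)` inside `Ω = PadicAlgCl p` as
intermediate fields over `ℚ_[p]`, with the degree bound `[F(θ) : ℚ_p] ≤ deg g · [F : ℚ_p]` for a
monic `g ∈ F[X]` vanishing at `θ`, and the lower bound `n · [F : ℚ_p] ≤ [L : ℚ_p]` for a totally
ramified pair.
-/
import Mathlib
import Fermat.Agent.S56.Flat.Passage.TotRam

set_option autoImplicit false

namespace Fermat.Agent.S56.Flat.Passage.Adjoin

open Fermat.Agent.S56.Flat.Passage.NormFrame Fermat.Agent.S56.Flat.Passage.TotRam Polynomial Finset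
  Module

variable {p : ℕ} [Fact p.Prime]

/-- `F(θ)` as an intermediate field of `Ω / ℚ_[p]`. -/
noncomputable def adj (F : IntermediateField ℚ_[p] (PadicAlgCl p)) (θ : PadicAlgCl p) :
    IntermediateField ℚ_[p] (PadicAlgCl p) :=
  (IntermediateField.adjoin ↥F {θ}).restrictScalars ℚ_[p]

variable (F : IntermediateField ℚ_[p] (PadicAlgCl p)) (θ : PadicAlgCl p)

theorem mem_adj_iff {x : PadicAlgCl p} :
    x ∈ adj F θ ↔ x ∈ IntermediateField.adjoin ↥F {θ} := Iff.rfl

theorem le_adj : F ≤ adj F θ := by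
  intro x hx
  rw [mem_adj_iff]
  exact (IntermediateField.adjoin ↥F {θ}).algebraMap_mem ⟨x, hx⟩

theorem mem_adj : θ ∈ adj F θ := by
  rw [mem_adj_iff]
  exact IntermediateField.mem_adjoin_simple_self ↥F θ

theorem isIntegral_top : IsIntegral ↥F θ :=
  ((PadicAlgCl.isAlgebraic p).isAlgebraic θ).isIntegral.tower_top

/-- The identity, as a `ℚ_[p]`-linear equivalence between the two incarnations of `F(θ)`. -/
noncomputable def adjEquiv :
    ↥(adj F θ) ≃ₗ[ℚ_[p]] ↥(IntermediateField.adjoin ↥F {θ}) where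
  toFun x := ⟨x.1, x.2⟩
  invFun x := ⟨x.1, x.2⟩
  map_add' _ _ := rfl
  map_smul' _ _ := rfl
  left_inv _ := rfl
  right_inv _ := rfl

variable [FiniteDimensional ℚ_[p] F]

theorem finiteDimensional_adj : FiniteDimensional ℚ_[p] ↥(adj F θ) := by
  have h1 : FiniteDimensional ↥F ↥(IntermediateField.adjoin ↥F {θ}) :=
    IntermediateField.adjoin.finiteDimensional (isIntegral_top F θ)
  have h2 : FiniteDimensional ℚ_[p] ↥(IntermediateField.adjoin ↥F {θ}) :=
    FiniteDimensional.trans ℚ_[p] ↥F _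
  exact LinearEquiv.finiteDimensional (adjEquiv F θ).symm

theorem finrank_adj_le (g : (↥F)[X]) (hg : g.Monic) (h0 : aeval θ g = 0) :
    finrank ℚ_[p] ↥(adj F θ) ≤ g.natDegree * finrank ℚ_[p] ↥F := by
  have h1 : FiniteDimensional ↥F ↥(IntermediateField.adjoin ↥F {θ}) :=
    IntermediateField.adjoin.finiteDimensional (isIntegral_top F θ)
  rw [LinearEquiv.finrank_eq (adjEquiv F θ),
    ← Module.finrank_mul_finrank ℚ_[p] ↥F ↥(IntermediateField.adjoin ↥F {θ}),
    IntermediateField.adjoin.finrank (isIntegral_top F θ), mul_comm]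
  exact Nat.mul_le_mul_right _ (natDegree_le_of_dvd (minpoly.dvd ↥F θ h0) hg.ne_zero)

/-- Lower bound for the degree of a totally ramified pair. -/
theorem le_finrank_of_TR {L : IntermediateField ℚ_[p] (PadicAlgCl p)} [FiniteDimensional ℚ_[p] L]
    (hFL : F ≤ L) {ϖ τ : PadicAlgCl p} {n : ℕ} (h : TRData p F ϖ τ n) (hτ : τ ∈ L) :
    n * finrank ℚ_[p] ↥F ≤ finrank ℚ_[p] ↥L := by
  classical
  let f : (Fin n → ↥F) →ₗ[ℚ_[p]] ↥L :=
    { toFun := fun a => ⟨∑ j : Fin n, (a j : PadicAlgCl p) * τ ^ (j : ℕ),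
        sum_mem fun j _ => mul_mem (hFL (a j).2) (pow_mem hτ _)⟩
      map_add' := by
        intro a b
        apply Subtype.ext
        show ∑ j : Fin n, ((a j + b j : ↥F) : PadicAlgCl p) * τ ^ (j : ℕ) =
          ∑ j : Fin n, (a j : PadicAlgCl p) * τ ^ (j : ℕ) +
            ∑ j : Fin n, (b j : PadicAlgCl p) * τ ^ (j : ℕ)
        rw [← Finset.sum_add_distrib]
        refine Finset.sum_congr rfl fun j _ => ?_
        push_cast
        ring
      map_smul' := by
        intro c a
        apply Subtype.ext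
        show ∑ j : Fin n, ((c • a j : ↥F) : PadicAlgCl p) * τ ^ (j : ℕ) =
          c • ∑ j : Fin n, (a j : PadicAlgCl p) * τ ^ (j : ℕ)
        rw [Finset.smul_sum]
        refine Finset.sum_congr rfl fun j _ => ?_
        rw [IntermediateField.coe_smul, smul_mul_assoc] }
  have hinj : Function.Injective f := by
    rw [← LinearMap.ker_eq_bot, LinearMap.ker_eq_bot']
    intro a ha
    have ha' : ∑ j : Fin n, (a j : PadicAlgCl p) * τ ^ (j : ℕ) = 0 :=
      congrArg Subtype.val ha
    let a' : ℕ → PadicAlgCl p := fun j => if hj : j < n then (a ⟨j, hj⟩ : PadicAlgCl p) else 0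
    have hsum : ∑ j ∈ range n, a' j * τ ^ j = 0 := by
      rw [← Fin.sum_univ_eq_sum_range (fun j => a' j * τ ^ j) n, ← ha']
      refine Finset.sum_congr rfl fun j _ => ?_
      simp only [a', j.2, dif_pos]
    have ha'F : ∀ j, a' j ∈ F := by
      intro j
      by_cases hj : j < n
      · simp only [a', hj, dif_pos]; exact (a ⟨j, hj⟩).2
      · simp only [a', hj, dif_neg, not_false_eq_true]; exact zero_mem F
    funext j
    have := h.eq_zero_of_sum_eq_zero a' ha'F hsum j.2
    simp only [a', j.2, dif_pos] at this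
    exact Subtype.ext this
  have := LinearMap.finrank_le_finrank_of_injective hinj
  rwa [Module.finrank_pi_fintype, Finset.sum_const, Finset.card_univ, Fintype.card_fin,
    smul_eq_mul] at this

end Fermat.Agent.S56.Flat.Passage.Adjoin
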