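/-
PROJECT T (S56), block Flat/Passage: ultrametric estimates used by `ApproxAut` and `Level`
(Mathlib only).
-/
import Mathlib

set_option autoImplicit false

namespace Fermat.Agent.S56.Flat.Passage.Estimates

open Finset

/-! ### Ultrametric estimates -/

section Estimates

variable {K : Type*} [NormedField K] [IsUltrametricDist K]

theorem norm_one_add_le {z : K} (hz : ‖z‖ ≤ 1) : ‖1 + z‖ ≤ 1 :=
  (IsUltrametricDist.norm_add_le_max _ _).trans (max_le (by simp) hz)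

theorem norm_one_add_pow_sub_one_le {z : K} (hz : ‖z‖ ≤ 1) (k : ℕ) : ‖(1 + z) ^ k - 1‖ ≤ ‖z‖ := by
  have h := geom_sum_mul (1 + z) k
  have h' : (1 + z) ^ k - 1 = (∑ i ∈ range k, (1 + z) ^ i) * z := by
    rw [← h]; ring
  rw [h', norm_mul]
  have hs : ‖∑ i ∈ range k, (1 + z) ^ i‖ ≤ 1 := by
    refine IsUltrametricDist.norm_sum_le_of_forall_le_of_nonneg zero_le_one fun i _ => ?_
    rw [norm_pow]
    exact pow_le_one₀ (norm_nonneg _) (norm_one_add_le hz)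
  calc ‖∑ i ∈ range k, (1 + z) ^ i‖ * ‖z‖ ≤ 1 * ‖z‖ :=
        mul_le_mul_of_nonneg_right hs (norm_nonneg _)
    _ = ‖z‖ := one_mul _

/-- The relation of `ϖ`, evaluated at `ϖ (1 + z)`, is small. -/
theorem norm_rel_shift_le {ϖ z : K} {b : ℕ → K} {e : ℕ}
    (hrel : ϖ ^ e = ∑ j ∈ range e, b j * ϖ ^ j)
    (hterm : ∀ j, j < e → ‖b j * ϖ ^ j‖ ≤ ‖ϖ ^ e‖) (hz : ‖z‖ ≤ 1) :
    ‖(ϖ * (1 + z)) ^ e - ∑ j ∈ range e, b j * (ϖ * (1 + z)) ^ j‖ ≤ ‖ϖ ^ e‖ * ‖z‖ := by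
  have h1 : (ϖ * (1 + z)) ^ e - ∑ j ∈ range e, b j * (ϖ * (1 + z)) ^ j =
      ϖ ^ e * ((1 + z) ^ e - 1) - ∑ j ∈ range e, b j * ϖ ^ j * ((1 + z) ^ j - 1) := by
    have h2 : ∑ j ∈ range e, b j * ϖ ^ j * ((1 + z) ^ j - 1) =
        ∑ j ∈ range e, b j * (ϖ * (1 + z)) ^ j - ∑ j ∈ range e, b j * ϖ ^ j := by
      rw [← Finset.sum_sub_distrib]
      exact Finset.sum_congr rfl fun j _ => by rw [mul_pow]; ring
    rw [h2, ← hrel, mul_pow]
    ring
  rw [h1, sub_eq_add_neg]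
  refine (IsUltrametricDist.norm_add_le_max _ _).trans (max_le ?_ ?_)
  · rw [norm_mul]
    exact mul_le_mul_of_nonneg_left (norm_one_add_pow_sub_one_le hz e) (norm_nonneg _)
  · rw [norm_neg]
    refine IsUltrametricDist.norm_sum_le_of_forall_le_of_nonneg
      (mul_nonneg (norm_nonneg _) (norm_nonneg _)) fun j hj => ?_
    rw [Finset.mem_range] at hj
    rw [norm_mul]
    exact mul_le_mul (hterm j hj) (norm_one_add_pow_sub_one_le hz j) (norm_nonneg _)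
      (norm_nonneg _)

/-- A root of a monic polynomial with integral coefficients is integral. -/
theorem norm_le_one_of_relation {θ : K} {c : ℕ → K} {n : ℕ} (hn : 0 < n)
    (hc : ∀ j, ‖c j‖ ≤ 1) (hrel : θ ^ n = ∑ j ∈ range n, c j * θ ^ j) : ‖θ‖ ≤ 1 := by
  by_contra hlt
  have h1 : 1 < ‖θ‖ := not_le.mp hlt
  have hle : ‖∑ j ∈ range n, c j * θ ^ j‖ ≤ ‖θ‖ ^ (n - 1) := by
    refine IsUltrametricDist.norm_sum_le_of_forall_le_of_nonneg (by positivity) fun j hj => ?_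
    rw [Finset.mem_range] at hj
    rw [norm_mul, norm_pow]
    calc ‖c j‖ * ‖θ‖ ^ j ≤ 1 * ‖θ‖ ^ (n - 1) :=
          mul_le_mul (hc j) (pow_le_pow_right₀ h1.le (by omega)) (by positivity) zero_le_one
      _ = ‖θ‖ ^ (n - 1) := one_mul _
  rw [← hrel, norm_pow] at hle
  have : ‖θ‖ ^ (n - 1) < ‖θ‖ ^ n := pow_lt_pow_right₀ h1 (by omega)
  exact not_lt.mpr hle this

end Estimates

end Fermat.Agent.S56.Flat.Passage.Estimates
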