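/-
PROJECT T (S56), block Flat/Passage: rings of integers of subfields of `Ω = PadicAlgCl p` as
subrings of `Ω`, their closed-ball ideals, and the dictionary with main's `𝒪 p E` and helper15's
`ballIdeal`.
-/
import Mathlib
import Fermat.Agent.S56.Flat.Ball
import Fermat.Agent.S56.Flat.Passage.NormFrame

set_option autoImplicit false

namespace Fermat.Agent.S56.Flat.Passage.IntRing

open Fermat.Agent.CFT.Local.Model Fermat.Agent.CFT.Local.PadicAlgClLocal
  Fermat.Agent.S56.Flat.Passage.NormFrame Fermat.Agent.S56.Flat.Ball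

variable (p : ℕ) [Fact p.Prime]

/-- The ring of integers of a subfield `E` of `Ω`, as a subring of `Ω`. -/
def intSub (E : IntermediateField ℚ_[p] (PadicAlgCl p)) : Subring (PadicAlgCl p) where
  carrier := {x | x ∈ E ∧ ‖x‖ ≤ 1}
  mul_mem' := by
    rintro a b ⟨ha, ha1⟩ ⟨hb, hb1⟩
    refine ⟨mul_mem ha hb, ?_⟩
    rw [norm_mul]
    calc ‖a‖ * ‖b‖ ≤ 1 * 1 := mul_le_mul ha1 hb1 (norm_nonneg _) zero_le_one
      _ = 1 := one_mul 1
  one_mem' := ⟨one_mem E, by simp⟩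
  add_mem' := by
    rintro a b ⟨ha, ha1⟩ ⟨hb, hb1⟩
    exact ⟨add_mem ha hb, (IsUltrametricDist.norm_add_le_max _ _).trans (max_le ha1 hb1)⟩
  zero_mem' := ⟨zero_mem E, by simp⟩
  neg_mem' := by
    rintro a ⟨ha, ha1⟩
    exact ⟨neg_mem ha, by rwa [norm_neg]⟩

variable {p}
variable {E F : IntermediateField ℚ_[p] (PadicAlgCl p)}

theorem mem_intSub {x : PadicAlgCl p} : x ∈ intSub p E ↔ x ∈ E ∧ ‖x‖ ≤ 1 := Iff.rfl

variable (p) in
/-- The closed ball of radius `r` as an ideal of the ring of integers. -/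
def ballSub (E : IntermediateField ℚ_[p] (PadicAlgCl p)) (r : ℝ) : Ideal ↥(intSub p E) where
  carrier := {x | ‖(x : PadicAlgCl p)‖ ≤ max r 0}
  add_mem' := by
    intro a b ha hb
    exact (IsUltrametricDist.norm_add_le_max _ _).trans (max_le ha hb)
  zero_mem' := by
    show ‖((0 : ↥(intSub p E)) : PadicAlgCl p)‖ ≤ max r 0
    simp
  smul_mem' := by
    intro c x hx
    show ‖((c * x : ↥(intSub p E)) : PadicAlgCl p)‖ ≤ max r 0
    rw [Subring.coe_mul, norm_mul]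
    calc ‖(c : PadicAlgCl p)‖ * ‖(x : PadicAlgCl p)‖ ≤ 1 * max r 0 :=
          mul_le_mul c.2.2 hx (norm_nonneg _) zero_le_one
      _ = max r 0 := one_mul _

theorem mem_ballSub {r : ℝ} (hr : 0 ≤ r) {x : ↥(intSub p E)} :
    x ∈ ballSub p E r ↔ ‖(x : PadicAlgCl p)‖ ≤ r := by
  show ‖(x : PadicAlgCl p)‖ ≤ max r 0 ↔ _
  rw [max_eq_left hr]

/-- The inclusion `𝒪_F → 𝒪_E` for `F ≤ E`. -/
noncomputable def incl (h : F ≤ E) : ↥(intSub p F) →+* ↥(intSub p E) :=
  Subring.inclusion (fun _ hx => ⟨h hx.1, hx.2⟩)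

@[simp] theorem coe_incl (h : F ≤ E) (x : ↥(intSub p F)) :
    ((incl h x : ↥(intSub p E)) : PadicAlgCl p) = x := rfl

theorem ballSub_le_comap_incl (h : F ≤ E) (r : ℝ) :
    ballSub p F r ≤ (ballSub p E r).comap (incl h) := fun _ hx => hx

/-- The induced map on quotients by closed balls. -/
noncomputable def quotIncl (h : F ≤ E) (r : ℝ) :
    ↥(intSub p F) ⧸ ballSub p F r →+* ↥(intSub p E) ⧸ ballSub p E r :=
  Ideal.quotientMap (ballSub p E r) (incl h) (ballSub_le_comap_incl h r)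

@[simp] theorem quotIncl_mk (h : F ≤ E) (r : ℝ) (x : ↥(intSub p F)) :
    quotIncl h r (Ideal.Quotient.mk _ x) = Ideal.Quotient.mk _ (incl h x) := by
  simp [quotIncl]

section Model

variable [FiniteDimensional ℚ_[p] E]

/-- Main's `𝒪 p E` is our `intSub p E`. -/
noncomputable def toSub (E : IntermediateField ℚ_[p] (PadicAlgCl p)) [FiniteDimensional ℚ_[p] E] :
    ↥(𝒪 p E) →+* ↥(intSub p E) where
  toFun x := ⟨((x : E) : PadicAlgCl p), (x : E).2, by rw [← nrm_eq_norm]; exact x.2⟩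
  map_one' := rfl
  map_mul' _ _ := rfl
  map_zero' := rfl
  map_add' _ _ := rfl

/-- Our `intSub p E` is main's `𝒪 p E`. -/
noncomputable def ofSub (E : IntermediateField ℚ_[p] (PadicAlgCl p)) [FiniteDimensional ℚ_[p] E] :
    ↥(intSub p E) →+* ↥(𝒪 p E) where
  toFun x := ⟨⟨(x : PadicAlgCl p), x.2.1⟩, by
    show nrm p E ⟨(x : PadicAlgCl p), x.2.1⟩ ≤ 1
    rw [nrm_eq_norm]; exact x.2.2⟩
  map_one' := rfl
  map_mul' _ _ := rfl
  map_zero' := rfl
  map_add' _ _ := rfl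

@[simp] theorem coe_toSub (x : ↥(𝒪 p E)) :
    ((toSub E x : ↥(intSub p E)) : PadicAlgCl p) = ((x : E) : PadicAlgCl p) := rfl

@[simp] theorem coe_ofSub (x : ↥(intSub p E)) :
    (((ofSub E x : ↥(𝒪 p E)) : E) : PadicAlgCl p) = (x : PadicAlgCl p) := rfl

theorem ballSub_le_comap_ofSub (r : ℝ) :
    ballSub p E r ≤ (ballIdeal p E r).comap (ofSub E) := by
  intro x hx
  rw [Ideal.mem_comap, mem_ballIdeal', nrm_eq_norm]
  exact hx

/-- From a ring hom in our frame to a ring hom in the frame of `Pm`. -/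
noncomputable def toPm {L : IntermediateField ℚ_[p] (PadicAlgCl p)} [FiniteDimensional ℚ_[p] L]
    (r : ℝ) (ψ : ↥(intSub p L) →+* ↥(intSub p E) ⧸ ballSub p E r) :
    ↥(𝒪 p L) →+* ↥(𝒪 p E) ⧸ ballIdeal p E r :=
  ((Ideal.quotientMap (ballIdeal p E r) (ofSub E) (ballSub_le_comap_ofSub r)).comp ψ).comp
    (toSub L)

end Model

end Fermat.Agent.S56.Flat.Passage.IntRing
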