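/-
PROJECT T (S56), block Flat/Passage: presentation of a ring by one generator with a monic relation,
and the resulting extension of ring homomorphisms.

`B` an `A`-algebra, `b : B`, `Q : A[X]` monic of degree `n` with `Q(b) = 0`; if the powers of `b`
generate `B` and the powers `b^j`, `j < n`, are `A`-linearly independent (in polynomial form), then
`B ≃ A[X]/(Q)`; hence any `φ : A →+* S` and any root `s` of `φ(Q)` give `ψ : B →+* S` extending
`φ` with `ψ b = s`.
-/
import Mathlib

set_option autoImplicit false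

namespace Fermat.Agent.S56.Flat.Passage.PresLift

open Polynomial

variable {A B : Type*} [CommRing A] [CommRing B] [Algebra A B]

/-- The canonical map `A[X]/(Q) → B`, `X ↦ b`, is bijective. -/
theorem bijective_lift {b : B} {Q : A[X]} (hQ : Q.Monic)
    (hQb : Q.eval₂ (algebraMap A B) b = 0)
    (hspan : ∀ x : B, ∃ f : A[X], f.eval₂ (algebraMap A B) b = x)
    (hind : ∀ f : A[X], f.degree < Q.degree → f.eval₂ (algebraMap A B) b = 0 → f = 0) :
    Function.Bijective (AdjoinRoot.lift (algebraMap A B) b hQb) := by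
  constructor
  · rw [injective_iff_map_eq_zero]
    intro x hx
    obtain ⟨f, rfl⟩ := AdjoinRoot.mk_surjective x
    have hmod : AdjoinRoot.mk Q f = AdjoinRoot.mk Q (f %ₘ Q) := by
      rw [AdjoinRoot.mk_eq_mk]
      refine ⟨f /ₘ Q, ?_⟩
      have := Polynomial.modByMonic_add_div f Q
      linear_combination (-1 : A[X]) * this
    have h1 : (f %ₘ Q).eval₂ (algebraMap A B) b = 0 := by
      have : AdjoinRoot.lift (algebraMap A B) b hQb (AdjoinRoot.mk Q (f %ₘ Q)) = 0 := by
        rw [← hmod]; exact hx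
      rwa [AdjoinRoot.lift_mk] at this
    rcases subsingleton_or_nontrivial A with hA | hA
    · have : f = 0 := Subsingleton.elim _ _
      rw [this, map_zero]
    · have hdeg : (f %ₘ Q).degree < Q.degree := Polynomial.degree_modByMonic_lt f hQ
      rw [hmod, hind _ hdeg h1, map_zero]
  · intro x
    obtain ⟨f, rfl⟩ := hspan x
    exact ⟨AdjoinRoot.mk Q f, by rw [AdjoinRoot.lift_mk]⟩

/-- **Extension of ring homomorphisms through a presentation.** -/
theorem exists_lift {b : B} {Q : A[X]} (hQ : Q.Monic)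
    (hQb : Q.eval₂ (algebraMap A B) b = 0)
    (hspan : ∀ x : B, ∃ f : A[X], f.eval₂ (algebraMap A B) b = x)
    (hind : ∀ f : A[X], f.degree < Q.degree → f.eval₂ (algebraMap A B) b = 0 → f = 0)
    {S : Type*} [CommRing S] (φ : A →+* S) (s : S) (hs : Q.eval₂ φ s = 0) :
    ∃ ψ : B →+* S, (∀ a : A, ψ (algebraMap A B a) = φ a) ∧ ψ b = s ∧
      ∀ f : A[X], ψ (f.eval₂ (algebraMap A B) b) = f.eval₂ φ s := by
  let e : AdjoinRoot Q ≃+* B :=
    RingEquiv.ofBijective _ (bijective_lift hQ hQb hspan hind)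
  let ψ : B →+* S := (AdjoinRoot.lift φ s hs).comp (e.symm : B →+* AdjoinRoot Q)
  have hf : ∀ f : A[X], ψ (f.eval₂ (algebraMap A B) b) = f.eval₂ φ s := by
    intro f
    have h1 : e (AdjoinRoot.mk Q f) = f.eval₂ (algebraMap A B) b := by
      show AdjoinRoot.lift (algebraMap A B) b hQb (AdjoinRoot.mk Q f) = _
      rw [AdjoinRoot.lift_mk]
    have h2 : e.symm (f.eval₂ (algebraMap A B) b) = AdjoinRoot.mk Q f := by
      rw [← h1, RingEquiv.symm_apply_apply]
    show (AdjoinRoot.lift φ s hs) (e.symm (f.eval₂ (algebraMap A B) b)) = _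
    rw [h2, AdjoinRoot.lift_mk]
  refine ⟨ψ, ?_, ?_, hf⟩
  · intro a
    have := hf (C a)
    rwa [eval₂_C, eval₂_C] at this
  · have := hf X
    rwa [eval₂_X, eval₂_X] at this

end Fermat.Agent.S56.Flat.Passage.PresLift
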