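/-
PROJECT T (S56), block Flat/Passage: the presentation of the ring of integers of a totally ramified
pair `F ≤ E` (in norm form) by the relation of the uniformizer, and the extension of ring
homomorphisms `𝒪_F → S` to `𝒪_E → S`.
-/
import Mathlib
import Fermat.Agent.S56.Flat.Passage.TotRam
import Fermat.Agent.S56.Flat.Passage.IntRing
import Fermat.Agent.S56.Flat.Passage.PresLift

set_option autoImplicit false

namespace Fermat.Agent.S56.Flat.Passage.TRLift

open Fermat.Agent.S56.Flat.Passage.NormFrame Fermat.Agent.S56.Flat.Passage.TotRam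
  Fermat.Agent.S56.Flat.Passage.IntRing Fermat.Agent.S56.Flat.Passage.PresLift Polynomial Finset

/-! ### Polynomials with prescribed coefficients -/

section PolyOf

variable {A : Type*} [CommRing A]

/-- `∑_{j<n} a_j X^j`. -/
noncomputable def polyOf (a : ℕ → A) (n : ℕ) : A[X] := ∑ j ∈ range n, C (a j) * X ^ j

theorem eval₂_polyOf {S : Type*} [CommRing S] (φ : A →+* S) (s : S) (a : ℕ → A) (n : ℕ) :
    (polyOf a n).eval₂ φ s = ∑ j ∈ range n, φ (a j) * s ^ j := by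
  rw [polyOf, eval₂_finsetSum]
  refine Finset.sum_congr rfl fun j _ => ?_
  rw [eval₂_mul, eval₂_C, eval₂_pow, eval₂_X]

theorem coeff_polyOf_of_le (a : ℕ → A) {n m : ℕ} (h : n ≤ m) : (polyOf a n).coeff m = 0 := by
  rw [polyOf, finsetSum_coeff]
  refine Finset.sum_eq_zero fun j hj => ?_
  rw [Finset.mem_range] at hj
  rw [coeff_C_mul_X_pow, if_neg (by omega)]

theorem degree_polyOf_lt (a : ℕ → A) (n : ℕ) : (polyOf a n).degree < n := by
  rw [degree_lt_iff_coeff_zero]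
  exact fun m hm => coeff_polyOf_of_le a hm

/-- The relation polynomial `X^n - ∑_{j<n} b_j X^j`. -/
noncomputable def relPoly (b : ℕ → A) (n : ℕ) : A[X] := X ^ n - polyOf b n

theorem relPoly_monic [Nontrivial A] (b : ℕ → A) (n : ℕ) : (relPoly b n).Monic := by
  refine (monic_X_pow n).sub_of_left ?_
  rw [degree_X_pow]
  exact degree_polyOf_lt b n

theorem degree_relPoly [Nontrivial A] (b : ℕ → A) (n : ℕ) : (relPoly b n).degree = n := by
  rw [relPoly, degree_sub_eq_left_of_degree_lt, degree_X_pow]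
  rw [degree_X_pow]
  exact degree_polyOf_lt b n

theorem eval₂_relPoly {S : Type*} [CommRing S] (φ : A →+* S) (s : S) (b : ℕ → A) (n : ℕ) :
    (relPoly b n).eval₂ φ s = s ^ n - ∑ j ∈ range n, φ (b j) * s ^ j := by
  rw [relPoly, eval₂_sub, eval₂_pow, eval₂_X, eval₂_polyOf]

end PolyOf

variable {p : ℕ} [Fact p.Prime]
variable {F E : IntermediateField ℚ_[p] (PadicAlgCl p)} {π ϖ : PadicAlgCl p} {n : ℕ}

/-- The relation of `ϖ` over `𝒪_F`. -/
theorem exists_relation (h : TRData p F π ϖ n) (hϖE : ϖ ∈ E)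
    (hspan : ∀ x ∈ E, ‖x‖ ≤ 1 → InSpan F ϖ n x) :
    ∃ b : ℕ → ↥(intSub p F), ϖ ^ n = ∑ j ∈ range n, (b j : PadicAlgCl p) * ϖ ^ j := by
  have h1 : ‖ϖ ^ n‖ ≤ 1 := by
    rw [norm_pow]; exact pow_le_one₀ h.norm_pos.le h.norm_lt_one.le
  obtain ⟨a, ha, hsum⟩ := hspan (ϖ ^ n) (pow_mem hϖE n) h1
  exact ⟨fun j => ⟨a j, ha j⟩, hsum⟩

/-- **Extension of ring homomorphisms along a totally ramified pair.** -/
theorem exists_lift (hFE : F ≤ E) (h : TRData p F π ϖ n) (hϖE : ϖ ∈ E)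
    (hspan : ∀ x ∈ E, ‖x‖ ≤ 1 → InSpan F ϖ n x)
    (b : ℕ → ↥(intSub p F)) (hb : ϖ ^ n = ∑ j ∈ range n, (b j : PadicAlgCl p) * ϖ ^ j)
    {S : Type} [CommRing S] (φ : ↥(intSub p F) →+* S) (s : S)
    (hs : s ^ n = ∑ j ∈ range n, φ (b j) * s ^ j) :
    ∃ ψ : ↥(intSub p E) →+* S, (∀ a, ψ (incl hFE a) = φ a) ∧
      ψ ⟨ϖ, hϖE, h.norm_lt_one.le⟩ = s := by
  let _ : Algebra ↥(intSub p F) ↥(intSub p E) := (incl hFE).toAlgebra
  have halg : ∀ a, algebraMap ↥(intSub p F) ↥(intSub p E) a = incl hFE a := fun _ => rfl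
  set ϖE : ↥(intSub p E) := ⟨ϖ, hϖE, h.norm_lt_one.le⟩ with hϖE'
  have hcoe : ∀ (a : ℕ → ↥(intSub p F)) (m : ℕ),
      ((∑ j ∈ range m, incl hFE (a j) * ϖE ^ j : ↥(intSub p E)) : PadicAlgCl p) =
        ∑ j ∈ range m, (a j : PadicAlgCl p) * ϖ ^ j := by
    intro a m
    rw [AddSubmonoidClass.coe_finsetSum]
    rfl
  have hQb : (relPoly b n).eval₂ (algebraMap ↥(intSub p F) ↥(intSub p E)) ϖE = 0 := by
    rw [eval₂_relPoly]
    apply Subtype.ext
    simp only [halg]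
    rw [AddSubgroupClass.coe_sub, hcoe, ← hb]
    show ϖ ^ n - ϖ ^ n = _
    rw [sub_self]; rfl
  have hspan' : ∀ x : ↥(intSub p E), ∃ f : (↥(intSub p F))[X],
      f.eval₂ (algebraMap ↥(intSub p F) ↥(intSub p E)) ϖE = x := by
    intro x
    obtain ⟨a, ha, hsum⟩ := hspan (x : PadicAlgCl p) x.2.1 x.2.2
    refine ⟨polyOf (fun j => (⟨a j, ha j⟩ : ↥(intSub p F))) n, ?_⟩
    rw [eval₂_polyOf]
    apply Subtype.ext
    simp only [halg]
    rw [hcoe, hsum]
  have hind : ∀ f : (↥(intSub p F))[X], f.degree < (relPoly b n).degree →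
      f.eval₂ (algebraMap ↥(intSub p F) ↥(intSub p E)) ϖE = 0 → f = 0 := by
    intro f hdeg hf
    rw [degree_relPoly] at hdeg
    by_cases hf0 : f = 0
    · exact hf0
    have hnat : f.natDegree < n := (natDegree_lt_iff_degree_lt hf0).mpr hdeg
    rw [eval₂_eq_sum_range' _ hnat] at hf
    have hf' := congrArg (fun x : ↥(intSub p E) => (x : PadicAlgCl p)) hf
    simp only [halg] at hf'
    rw [hcoe (fun j => f.coeff j) n] at hf'
    replace hf' : ∑ j ∈ range n, (f.coeff j : PadicAlgCl p) * ϖ ^ j = 0 := hf'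
    refine Polynomial.ext fun j => ?_
    rw [coeff_zero]
    by_cases hj : j < n
    · apply Subtype.ext
      exact h.eq_zero_of_sum_eq_zero (fun j => (f.coeff j : PadicAlgCl p))
        (fun j => (f.coeff j).2.1) hf' hj
    · exact coeff_eq_zero_of_natDegree_lt (lt_of_lt_of_le hnat (not_lt.mp hj))
  have hs' : (relPoly b n).eval₂ φ s = 0 := by
    rw [eval₂_relPoly, hs, sub_self]
  obtain ⟨ψ, hψ1, hψ2, -⟩ := PresLift.exists_lift (relPoly_monic b n) hQb hspan' hind φ s hs'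
  exact ⟨ψ, fun a => by rw [← halg, hψ1], hψ2⟩

end Fermat.Agent.S56.Flat.Passage.TRLift
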