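/-
PROJECT T (S56), block Flat/Passage, leaf P7: approximate automorphisms.

Setting: `K0 ≤ F ≤ L` finite subfields of `Ω`, `K0` unramified (`p` a uniformizer), `F / K0` totally
ramified with uniformizer `ϖ` (`‖ϖ‖ ^ e = ‖p‖`), `L / F` totally ramified with uniformizer `τ`
(`‖τ‖ ^ n = ‖ϖ‖`), both with integral spanning.  For `z ∈ 𝒪_F`:

* `exists_etaz`: the ring homomorphism `η_z : 𝒪_F → 𝒪_F / ball(‖z‖/p)`, identity on `𝒪_K0`,
  `ϖ ↦ ϖ (1 + z)`;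
* `transport`: under Fontaine's property for `LV` (`L = F·LV`), if `∑ c_k ϖ^k` (`c_k ∈ 𝒪_K0`) is a
  `p`-th power in `L`, then `∑ c_k (ϖ(1+z))^k` is a `p`-th power in `𝒪_L` modulo `ball(‖z‖/p)`.
-/
import Mathlib
import Fermat.Agent.S56.Flat.Passage.TRLift
import Fermat.Agent.S56.Flat.Passage.Adjoin
import Fermat.Agent.S56.Flat.Passage.Estimates

set_option autoImplicit false

namespace Fermat.Agent.S56.Flat.Passage.ApproxAut

open Fermat.Agent.CFT.Local.Model Fermat.Agent.S56.Flat.Ball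
  Fermat.Agent.S56.Flat.Passage.NormFrame Fermat.Agent.S56.Flat.Passage.TotRam
  Fermat.Agent.S56.Flat.Passage.IntRing Fermat.Agent.S56.Flat.Passage.TRLift
  Fermat.Agent.S56.Flat.Passage.Adjoin Fermat.Agent.S56.Flat.Passage.Estimates Polynomial Finset
  Module

/-- Fontaine's property `(P_m)` for all `m > p/(p-1)` (= helper15's `Pm`), as a hypothesis. -/
def FontaineP (p : ℕ) [Fact p.Prime] (LV : IntermediateField ℚ_[p] (PadicAlgCl p)) : Prop :=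
  ∀ (r : ℝ), 0 < r → r ^ (p - 1) < (p : ℝ)⁻¹ →
    ∀ (L E : IntermediateField ℚ_[p] (PadicAlgCl p)) [FiniteDimensional ℚ_[p] L]
      [FiniteDimensional ℚ_[p] E], LV ≤ L →
      (↥(𝒪 p L) →+* ↥(𝒪 p E) ⧸ ballIdeal p E (r / p)) → LV ≤ E

variable {p : ℕ} [Fact p.Prime]

/-- The setting of the passage: `K0 ≤ F ≤ L`, both steps totally ramified with integral spanning. -/
structure Setting (p : ℕ) [Fact p.Prime] (K0 F L : IntermediateField ℚ_[p] (PadicAlgCl p))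
    (ϖ τ : PadicAlgCl p) (e n : ℕ) : Prop where
  hKF : K0 ≤ F
  hFL : F ≤ L
  trK : TRData p K0 (p : PadicAlgCl p) ϖ e
  ϖF : ϖ ∈ F
  spanF : ∀ x ∈ F, ‖x‖ ≤ 1 → InSpan K0 ϖ e x
  trF : TRData p F ϖ τ n
  τL : τ ∈ L
  spanL : ∀ x ∈ L, ‖x‖ ≤ 1 → InSpan F τ n x

variable {K0 F L : IntermediateField ℚ_[p] (PadicAlgCl p)} {ϖ τ : PadicAlgCl p} {e n : ℕ}

theorem Setting.norm_ϖ_le_one (S : Setting p K0 F L ϖ τ e n) : ‖ϖ‖ ≤ 1 := S.trK.norm_lt_one.le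

/-- `ϖ` as an element of `𝒪_F`. -/
noncomputable def Setting.ϖO (S : Setting p K0 F L ϖ τ e n) : ↥(intSub p F) := ⟨ϖ, S.ϖF, S.norm_ϖ_le_one⟩

/-- `ϖ (1 + z)` as an element of `𝒪_F`. -/
noncomputable def Setting.wO (S : Setting p K0 F L ϖ τ e n) {z : PadicAlgCl p} (hzF : z ∈ F) (hz1 : ‖z‖ ≤ 1) :
    ↥(intSub p F) :=
  ⟨ϖ * (1 + z), mul_mem S.ϖF (add_mem (one_mem F) hzF), by
    rw [norm_mul]
    calc ‖ϖ‖ * ‖1 + z‖ ≤ 1 * 1 :=
          mul_le_mul S.norm_ϖ_le_one (norm_one_add_le hz1) (norm_nonneg _) zero_le_one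
      _ = 1 := one_mul 1⟩

/-- **The approximate automorphism `η_z`.** -/
theorem exists_etaz (S : Setting p K0 F L ϖ τ e n) {z : PadicAlgCl p} (hzF : z ∈ F)
    (hz1 : ‖z‖ ≤ 1) :
    ∃ η : ↥(intSub p F) →+* ↥(intSub p F) ⧸ ballSub p F (‖z‖ / p),
      (∀ c : ↥(intSub p K0), η (incl S.hKF c) = Ideal.Quotient.mk _ (incl S.hKF c)) ∧
      η S.ϖO = Ideal.Quotient.mk _ (S.wO hzF hz1) := by
  obtain ⟨b, hb⟩ := exists_relation S.trK S.ϖF S.spanF
  set I := ballSub p F (‖z‖ / p) with hI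
  set φ : ↥(intSub p K0) →+* ↥(intSub p F) ⧸ I := (Ideal.Quotient.mk I).comp (incl S.hKF) with hφ
  have hr0 : 0 ≤ ‖z‖ / p := div_nonneg (norm_nonneg _) (Nat.cast_nonneg _)
  have hs : (Ideal.Quotient.mk I (S.wO hzF hz1)) ^ e =
      ∑ j ∈ range e, φ (b j) * (Ideal.Quotient.mk I (S.wO hzF hz1)) ^ j := by
    have h1 : ∑ j ∈ range e, φ (b j) * (Ideal.Quotient.mk I (S.wO hzF hz1)) ^ j =
        Ideal.Quotient.mk I (∑ j ∈ range e, incl S.hKF (b j) * (S.wO hzF hz1) ^ j) := by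
      rw [map_sum]
      refine Finset.sum_congr rfl fun j _ => ?_
      rw [map_mul, map_pow]; rfl
    rw [h1, ← map_pow, Ideal.Quotient.mk_eq_mk_iff_sub_mem, hI, mem_ballSub hr0]
    have hcoe : (((S.wO hzF hz1) ^ e - ∑ j ∈ range e, incl S.hKF (b j) * (S.wO hzF hz1) ^ j :
        ↥(intSub p F)) : PadicAlgCl p) =
        (ϖ * (1 + z)) ^ e - ∑ j ∈ range e, (b j : PadicAlgCl p) * (ϖ * (1 + z)) ^ j := by
      rw [AddSubgroupClass.coe_sub, AddSubmonoidClass.coe_finsetSum]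
      rfl
    rw [hcoe]
    have hterm : ∀ j, j < e → ‖(b j : PadicAlgCl p) * ϖ ^ j‖ ≤ ‖ϖ ^ e‖ := by
      intro j hj
      have := S.trK.term_le_norm_sum (fun j => (b j : PadicAlgCl p)) (fun j => (b j).2.1) hj
      rwa [← hb] at this
    refine (norm_rel_shift_le hb hterm hz1).trans ?_
    rw [norm_pow, S.trK.pow, norm_p, div_eq_inv_mul]
  obtain ⟨η, hη1, hη2⟩ := TRLift.exists_lift S.hKF S.trK S.ϖF S.spanF b hb φ _ hs
  exact ⟨η, hη1, hη2⟩

/-- `η_z` on a polynomial expression in `ϖ` with coefficients in `𝒪_K0`. -/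
theorem etaz_sum (S : Setting p K0 F L ϖ τ e n) {z : PadicAlgCl p} (hzF : z ∈ F)
    (hz1 : ‖z‖ ≤ 1) (η : ↥(intSub p F) →+* ↥(intSub p F) ⧸ ballSub p F (‖z‖ / p))
    (hη1 : ∀ c : ↥(intSub p K0), η (incl S.hKF c) = Ideal.Quotient.mk _ (incl S.hKF c))
    (hη2 : η S.ϖO = Ideal.Quotient.mk _ (S.wO hzF hz1)) (c : ℕ → ↥(intSub p K0)) (N : ℕ) :
    η (∑ k ∈ range N, incl S.hKF (c k) * S.ϖO ^ k) =
      Ideal.Quotient.mk _ (∑ k ∈ range N, incl S.hKF (c k) * (S.wO hzF hz1) ^ k) := by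
  rw [map_sum, map_sum]
  refine Finset.sum_congr rfl fun k _ => ?_
  rw [map_mul, map_pow, hη1, hη2, map_mul, map_pow]

/-- **Transport of `p`-th powers along `η_z`** (steps (S2)-(S4) of the passage). -/
theorem transport [FiniteDimensional ℚ_[p] F] [FiniteDimensional ℚ_[p] L]
    (S : Setting p K0 F L ϖ τ e n) {LV : IntermediateField ℚ_[p] (PadicAlgCl p)}
    (hPm : FontaineP p LV) (hLV : LV ≤ L) (hLsup : L ≤ F ⊔ LV)
    {z : PadicAlgCl p} (hzF : z ∈ F) (hz0 : z ≠ 0) (hz1 : ‖z‖ ≤ 1)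
    (hzp : ‖z‖ ^ (p - 1) < (p : ℝ)⁻¹)
    (c : ℕ → PadicAlgCl p) (hc : ∀ k, c k ∈ K0 ∧ ‖c k‖ ≤ 1) (N : ℕ)
    {α : PadicAlgCl p} (hαL : α ∈ L) (hα : α ^ p = ∑ k ∈ range N, c k * ϖ ^ k) :
    ∃ y ∈ L, ‖y‖ ≤ 1 ∧
      ‖y ^ p - ∑ k ∈ range N, c k * (ϖ * (1 + z)) ^ k‖ ≤ ‖z‖ / p := by
  classical
  have hp : p.Prime := Fact.out
  have hr0 : 0 ≤ ‖z‖ / p := div_nonneg (norm_nonneg _) (Nat.cast_nonneg _)
  obtain ⟨η, hη1, hη2⟩ := exists_etaz S hzF hz1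
  -- the relation of `τ` over `𝒪_F`
  obtain ⟨b', hb'⟩ := exists_relation S.trF S.τL S.spanL
  -- lift the coefficients of the transported relation
  choose cc hcc using fun j => Ideal.Quotient.mk_surjective (η (b' j))
  -- a root `θ` of the lifted relation
  have hn : 0 < n := S.trF.npos
  have hdeg : (relPoly (fun j => (cc j : PadicAlgCl p)) n).degree ≠ 0 := by
    rw [degree_relPoly]; exact_mod_cast hn.ne'
  obtain ⟨θ, hθ⟩ := IsAlgClosed.exists_root _ hdeg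
  have hθrel : θ ^ n = ∑ j ∈ range n, (cc j : PadicAlgCl p) * θ ^ j := by
    have : (relPoly (fun j => (cc j : PadicAlgCl p)) n).eval₂ (RingHom.id _) θ = 0 := hθ
    rw [eval₂_relPoly] at this
    simpa [sub_eq_zero] using this
  have hθ1 : ‖θ‖ ≤ 1 := norm_le_one_of_relation hn (fun j => (cc j).2.2) hθrel
  -- the test field
  set E := adj F θ with hE
  have : FiniteDimensional ℚ_[p] ↥E := finiteDimensional_adj F θ
  have hFE : F ≤ E := le_adj F θ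
  let θO : ↥(intSub p E) := ⟨θ, mem_adj F θ, hθ1⟩
  set φ2 : ↥(intSub p F) →+* ↥(intSub p E) ⧸ ballSub p E (‖z‖ / p) :=
    (quotIncl hFE (‖z‖ / p)).comp η with hφ2
  have hφ2b : ∀ j, φ2 (b' j) = Ideal.Quotient.mk _ (incl hFE (cc j)) := by
    intro j
    rw [hφ2, RingHom.comp_apply, ← hcc j, quotIncl_mk]
  have hs2 : (Ideal.Quotient.mk (ballSub p E (‖z‖ / p)) θO) ^ n =
      ∑ j ∈ range n, φ2 (b' j) * (Ideal.Quotient.mk (ballSub p E (‖z‖ / p)) θO) ^ j := by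
    have h1 : ∑ j ∈ range n, φ2 (b' j) * (Ideal.Quotient.mk (ballSub p E (‖z‖ / p)) θO) ^ j =
        Ideal.Quotient.mk _ (∑ j ∈ range n, incl hFE (cc j) * θO ^ j) := by
      rw [map_sum]
      refine Finset.sum_congr rfl fun j _ => ?_
      rw [map_mul, map_pow, hφ2b]
    rw [h1, ← map_pow]
    congr 1
    apply Subtype.ext
    rw [AddSubmonoidClass.coe_finsetSum]
    exact hθrel
  obtain ⟨ψ, hψ1, -⟩ := TRLift.exists_lift S.hFL S.trF S.τL S.spanL b' hb' φ2 _ hs2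
  -- Fontaine's property: `LV ≤ E`
  have hz0' : 0 < ‖z‖ := norm_pos_iff.mpr hz0
  have hLVE : LV ≤ E := hPm ‖z‖ hz0' hzp L E hLV (toPm (‖z‖ / p) ψ)
  have hLE : L ≤ E := hLsup.trans (sup_le hFE hLVE)
  -- degrees: `E = L`
  have hEL : L = E := by
    refine IntermediateField.eq_of_le_of_finrank_le hLE ?_
    have h1 : finrank ℚ_[p] ↥E ≤ n * finrank ℚ_[p] ↥F := by
      have hmon : (relPoly (fun j => (⟨(cc j : PadicAlgCl p), (cc j).2.1⟩ : ↥F)) n).Monic :=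
        relPoly_monic _ n
      have h0 : aeval θ (relPoly (fun j => (⟨(cc j : PadicAlgCl p), (cc j).2.1⟩ : ↥F)) n) = 0 := by
        rw [aeval_def, eval₂_relPoly, hθrel, sub_eq_zero]
        rfl
      have := finrank_adj_le F θ _ hmon h0
      rwa [natDegree_eq_of_degree_eq_some (degree_relPoly _ n)] at this
    exact h1.trans (le_finrank_of_TR F S.hFL S.trF S.τL)
  -- the `p`-th root `α` and its image
  have hα1 : ‖α‖ ≤ 1 := by
    have hu : ‖∑ k ∈ range N, c k * ϖ ^ k‖ ≤ 1 := by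
      refine IsUltrametricDist.norm_sum_le_of_forall_le_of_nonneg zero_le_one fun k _ => ?_
      rw [norm_mul, norm_pow]
      calc ‖c k‖ * ‖ϖ‖ ^ k ≤ 1 * 1 :=
            mul_le_mul (hc k).2 (pow_le_one₀ (norm_nonneg _) S.norm_ϖ_le_one) (by positivity)
              zero_le_one
        _ = 1 := one_mul 1
    rw [← hα, norm_pow] at hu
    exact (pow_le_one_iff_of_nonneg (norm_nonneg _) hp.ne_zero).mp hu
  let αO : ↥(intSub p L) := ⟨α, hαL, hα1⟩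
  let cO : ℕ → ↥(intSub p K0) := fun k => ⟨c k, hc k⟩
  have hαpow : αO ^ p = incl S.hFL (∑ k ∈ range N, incl S.hKF (cO k) * S.ϖO ^ k) := by
    apply Subtype.ext
    rw [coe_incl, AddSubmonoidClass.coe_finsetSum]
    exact hα
  obtain ⟨y, hy⟩ := Ideal.Quotient.mk_surjective (ψ αO)
  have hyp : Ideal.Quotient.mk (ballSub p E (‖z‖ / p)) (y ^ p) =
      Ideal.Quotient.mk _ (incl hFE (∑ k ∈ range N, incl S.hKF (cO k) * (S.wO hzF hz1) ^ k)) := by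
    rw [map_pow, hy, ← map_pow, hαpow, hψ1, hφ2, RingHom.comp_apply,
      etaz_sum S hzF hz1 η hη1 hη2, quotIncl_mk]
  rw [Ideal.Quotient.mk_eq_mk_iff_sub_mem, mem_ballSub hr0] at hyp
  refine ⟨(y : PadicAlgCl p), by rw [hEL]; exact y.2.1, y.2.2, ?_⟩
  have hcoe : ((y ^ p - incl hFE (∑ k ∈ range N, incl S.hKF (cO k) * (S.wO hzF hz1) ^ k) :
      ↥(intSub p E)) : PadicAlgCl p) =
      (y : PadicAlgCl p) ^ p - ∑ k ∈ range N, c k * (ϖ * (1 + z)) ^ k := by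
    rw [AddSubgroupClass.coe_sub, coe_incl, AddSubmonoidClass.coe_finsetSum]
    rfl
  rwa [hcoe] at hyp

end Fermat.Agent.S56.Flat.Passage.ApproxAut
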