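/-
PROJECT T (S56), block Flat/Passage: construction of the `Setting` of `ApproxAut`.

For a finite `F` with uniformizer `π`, `t ≥ 1`, `ϖ ^ t = π` and a finite `LV`:
`L := F ⊔ ℚ_p(ϖ) ⊔ LV`, `K0 := L ⊓ nrField`, `F2 := K0(ϖ)`.  Then `F ≤ F2 ≤ L`, `F2 / K0` is
totally ramified with uniformizer `ϖ` (`‖ϖ‖ ^ (t e) = ‖p‖`), `L / F2` is totally ramified, both
with integral spanning.
-/
import Mathlib
import Fermat.Agent.S56.Flat.Passage.ApproxAut

set_option autoImplicit false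

namespace Fermat.Agent.S56.Flat.Passage.Build

open Fermat.Agent.CFT.Local.Model Fermat.Agent.CFT.Local.PadicAlgClLocal
  Fermat.Agent.S56.Flat.Passage.NormFrame Fermat.Agent.S56.Flat.Passage.TotRam
  Fermat.Agent.S56.Flat.Passage.Adjoin Fermat.Agent.S56.Flat.Passage.ApproxAut Finset Module
open scoped IntermediateField

variable {p : ℕ} [Fact p.Prime]

/-! ### Unramified subfields -/

theorem finiteDimensional_of_le {K E : IntermediateField ℚ_[p] (PadicAlgCl p)}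
    [FiniteDimensional ℚ_[p] E] (h : K ≤ E) : FiniteDimensional ℚ_[p] K :=
  Module.Finite.of_injective (IntermediateField.inclusion h).toLinearMap
    (IntermediateField.inclusion_injective h)

/-- In a finite subfield of the maximal unramified extension, `p` is a uniformizer. -/
theorem isUnif_p_of_le_nrField (K0 : IntermediateField ℚ_[p] (PadicAlgCl p))
    [FiniteDimensional ℚ_[p] K0] (h : K0 ≤ nrField p) : IsUnif p K0 (p : PadicAlgCl p) := by
  have hp0 : (0 : ℝ) < (p : ℝ)⁻¹ := inv_pos.mpr (by exact_mod_cast (Fact.out : p.Prime).pos)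
  have hp1 : (p : ℝ)⁻¹ < 1 :=
    inv_lt_one_of_one_lt₀ (by exact_mod_cast (Fact.out : p.Prime).one_lt)
  refine ⟨natCast_mem K0 p, by rw [norm_p]; exact hp0, by rw [norm_p]; exact hp1, ?_⟩
  intro x hx hx0
  have hx0' : (⟨x, hx⟩ : K0) ≠ 0 := fun h => hx0 (congrArg Subtype.val h)
  have h1 := nrm_eq_zpow_ordFun p K0 (Units.mk0 ⟨x, hx⟩ hx0')
  rw [nrm_ϖu_eq_of_ramIdx_eq_one p K0 (ramIdx_eq_one_of_le_nrField p K0 h), Units.val_mk0,
    nrm_eq_norm] at h1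
  exact ⟨_, by rw [norm_p]; exact h1⟩

/-! ### Field spanning -/

/-- `x` is a `K0`-combination of `ϖ^j`, `j < n`. -/
def FSpan (K0 : IntermediateField ℚ_[p] (PadicAlgCl p)) (ϖ : PadicAlgCl p) (n : ℕ)
    (x : PadicAlgCl p) : Prop :=
  ∃ a : ℕ → PadicAlgCl p, (∀ j, a j ∈ K0) ∧ x = ∑ j ∈ range n, a j * ϖ ^ j

variable {K0 : IntermediateField ℚ_[p] (PadicAlgCl p)} {ϖ : PadicAlgCl p} {n : ℕ}

theorem FSpan.zero : FSpan K0 ϖ n 0 := ⟨fun _ => 0, fun _ => zero_mem K0, by simp⟩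

theorem FSpan.add {x y : PadicAlgCl p} (hx : FSpan K0 ϖ n x) (hy : FSpan K0 ϖ n y) :
    FSpan K0 ϖ n (x + y) := by
  obtain ⟨a, ha, rfl⟩ := hx
  obtain ⟨b, hb, rfl⟩ := hy
  refine ⟨fun j => a j + b j, fun j => add_mem (ha j) (hb j), ?_⟩
  rw [← Finset.sum_add_distrib]
  exact Finset.sum_congr rfl fun j _ => by ring

theorem FSpan.mul_left {x c : PadicAlgCl p} (hc : c ∈ K0) (hx : FSpan K0 ϖ n x) :
    FSpan K0 ϖ n (c * x) := by
  obtain ⟨a, ha, rfl⟩ := hx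
  refine ⟨fun j => c * a j, fun j => mul_mem hc (ha j), ?_⟩
  rw [Finset.mul_sum]
  exact Finset.sum_congr rfl fun j _ => by ring

theorem FSpan.sum {ι : Type*} (s : Finset ι) (f : ι → PadicAlgCl p)
    (h : ∀ i ∈ s, FSpan K0 ϖ n (f i)) : FSpan K0 ϖ n (∑ i ∈ s, f i) := by
  classical
  induction s using Finset.induction_on with
  | empty => simpa using (FSpan.zero : FSpan K0 ϖ n 0)
  | insert i s hi ih =>
    rw [Finset.sum_insert hi]
    exact (h i (Finset.mem_insert_self i s)).add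
      (ih fun j hj => h j (Finset.mem_insert_of_mem hj))

theorem FSpan.pow_of_lt {m : ℕ} (hm : m < n) : FSpan K0 ϖ n (ϖ ^ m) := by
  classical
  refine ⟨fun j => if j = m then 1 else 0, fun j => ?_, ?_⟩
  · by_cases h : j = m
    · simp only [h, if_true]; exact one_mem K0
    · simp only [h, if_false]; exact zero_mem K0
  · rw [Finset.sum_eq_single m]
    · simp
    · intro j _ hj; simp [hj]
    · intro h; exact absurd (Finset.mem_range.mpr hm) h

theorem FSpan.mem {E : IntermediateField ℚ_[p] (PadicAlgCl p)} (hK : K0 ≤ E) (hϖ : ϖ ∈ E)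
    {x : PadicAlgCl p} (hx : FSpan K0 ϖ n x) : x ∈ E := by
  obtain ⟨a, ha, rfl⟩ := hx
  exact sum_mem fun j _ => mul_mem (hK (ha j)) (pow_mem hϖ j)

theorem FSpan.mono {K1 : IntermediateField ℚ_[p] (PadicAlgCl p)} (hK : K0 ≤ K1)
    {x : PadicAlgCl p} (hx : FSpan K0 ϖ n x) : FSpan K1 ϖ n x := by
  obtain ⟨a, ha, rfl⟩ := hx
  exact ⟨a, fun j => hK (ha j), rfl⟩

/-- From integral spanning to field spanning (scaling by a power of the uniformizer of `K0`). -/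
theorem fspan_of_inSpan {F : IntermediateField ℚ_[p] (PadicAlgCl p)} {π0 : PadicAlgCl p}
    (h : TRData p K0 π0 ϖ n) (hKF : K0 ≤ F)
    (hspan : ∀ x ∈ F, ‖x‖ ≤ 1 → InSpan K0 ϖ n x) {x : PadicAlgCl p} (hx : x ∈ F) :
    FSpan K0 ϖ n x := by
  have hπ0 := h.unif
  have hπ00 : π0 ≠ 0 := norm_pos_iff.mp hπ0.2.1
  obtain ⟨m, hm⟩ : ∃ m : ℕ, ‖x‖ * ‖π0‖ ^ m ≤ 1 := by
    obtain ⟨m, hm⟩ := exists_pow_lt_of_lt_one (show (0 : ℝ) < 1 / (‖x‖ + 1) by positivity)
      hπ0.2.2.1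
    refine ⟨m, ?_⟩
    have h1 : ‖x‖ * ‖π0‖ ^ m ≤ ‖x‖ * (1 / (‖x‖ + 1)) :=
      mul_le_mul_of_nonneg_left hm.le (norm_nonneg _)
    refine h1.trans ?_
    rw [mul_one_div, div_le_one (by positivity)]
    linarith
  have hxm : x * π0 ^ m ∈ F := mul_mem hx (pow_mem (hKF hπ0.1) m)
  have hxm1 : ‖x * π0 ^ m‖ ≤ 1 := by rw [norm_mul, norm_pow]; exact hm
  obtain ⟨a, ha, hsum⟩ := hspan _ hxm hxm1
  refine ⟨fun j => a j * (π0 ^ m)⁻¹, fun j => mul_mem (ha j).1 (inv_mem (pow_mem hπ0.1 m)), ?_⟩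
  have hpm : π0 ^ m ≠ 0 := pow_ne_zero m hπ00
  have : x = (x * π0 ^ m) * (π0 ^ m)⁻¹ := by field_simp
  rw [this, hsum, Finset.sum_mul]
  exact Finset.sum_congr rfl fun j _ => by ring

/-! ### The first level: `F` over `F ⊓ nrField` -/

/-- Every finite `F` is totally ramified over `F ⊓ nrField`, with integral spanning. -/
theorem exists_TR_over_unram (F : IntermediateField ℚ_[p] (PadicAlgCl p))
    [FiniteDimensional ℚ_[p] F] {π : PadicAlgCl p} (hπ : IsUnif p F π) :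
    ∃ e : ℕ, 0 < e ∧ ‖π‖ ^ e = (p : ℝ)⁻¹ ∧ TRData p (F ⊓ nrField p) (p : PadicAlgCl p) π e ∧
      ∀ x ∈ F, ‖x‖ ≤ 1 → InSpan (F ⊓ nrField p) π e x := by
  obtain ⟨e, he0, he⟩ := hπ.exists_pow_eq
  have hfd : FiniteDimensional ℚ_[p] ↥(F ⊓ nrField p) := finiteDimensional_of_le inf_le_left
  have hK : IsUnif p (F ⊓ nrField p) (p : PadicAlgCl p) :=
    isUnif_p_of_le_nrField _ inf_le_right
  have htr : TRData p (F ⊓ nrField p) (p : PadicAlgCl p) π e :=
    ⟨hK, he0, by rw [he, norm_p]⟩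
  refine ⟨e, he0, he, htr, fun x hx hx1 => ?_⟩
  exact inSpan_of_res inf_le_left htr hπ (fun y hy hy1 => exists_unram_near p F hy hy1) hx hx1

/-! ### The construction -/

/-- In a subfield with uniformizer `τ`, an element of norm `< 1` has norm a positive power of
`‖τ‖`. -/
theorem IsUnif.exists_pow_eq_of_lt_one {E : IntermediateField ℚ_[p] (PadicAlgCl p)}
    {τ x : PadicAlgCl p} (hτ : IsUnif p E τ) (hx : x ∈ E) (hx0 : x ≠ 0) (hx1 : ‖x‖ < 1) :
    ∃ m : ℕ, 0 < m ∧ ‖τ‖ ^ m = ‖x‖ := by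
  obtain ⟨k, hk⟩ := hτ.2.2.2 x hx hx0
  have hkpos : 0 < k := by
    by_contra hk0
    have hk0' : k ≤ 0 := not_lt.mp hk0
    have : (1 : ℝ) ≤ ‖τ‖ ^ k := by
      rw [← zpow_zero ‖τ‖]
      exact (zpow_le_zpow_iff_of_lt_one hτ.2.1 hτ.2.2.1).mpr hk0'
    rw [← hk] at this
    exact not_lt.mpr this hx1
  refine ⟨k.toNat, by omega, ?_⟩
  rw [hk, ← zpow_natCast, Int.toNat_of_nonneg hkpos.le]

section Construct

variable (F LV : IntermediateField ℚ_[p] (PadicAlgCl p)) (ϖ : PadicAlgCl p)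

/-- `L := F ⊔ ℚ_p(ϖ) ⊔ LV`. -/
noncomputable def Lof : IntermediateField ℚ_[p] (PadicAlgCl p) := F ⊔ ℚ_[p]⟮ϖ⟯ ⊔ LV

/-- `K0 := L ⊓ nrField`. -/
noncomputable def K0of : IntermediateField ℚ_[p] (PadicAlgCl p) := Lof F LV ϖ ⊓ nrField p

/-- `F2 := K0(ϖ)`. -/
noncomputable def F2of : IntermediateField ℚ_[p] (PadicAlgCl p) := adj (K0of F LV ϖ) ϖ

theorem F_le_Lof : F ≤ Lof F LV ϖ := le_sup_of_le_left le_sup_left

theorem ϖ_mem_Lof : ϖ ∈ Lof F LV ϖ :=
  (le_sup_of_le_left le_sup_right : ℚ_[p]⟮ϖ⟯ ≤ Lof F LV ϖ)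
    (IntermediateField.mem_adjoin_simple_self ℚ_[p] ϖ)

theorem LV_le_Lof : LV ≤ Lof F LV ϖ := le_sup_right

variable [FiniteDimensional ℚ_[p] F] [FiniteDimensional ℚ_[p] LV]

theorem finiteDimensional_Lof : FiniteDimensional ℚ_[p] ↥(Lof F LV ϖ) := by
  have : FiniteDimensional ℚ_[p] ↥(ℚ_[p]⟮ϖ⟯) :=
    IntermediateField.adjoin.finiteDimensional
      ((PadicAlgCl.isAlgebraic p).isAlgebraic ϖ).isIntegral
  unfold Lof
  infer_instance

theorem finiteDimensional_K0of : FiniteDimensional ℚ_[p] ↥(K0of F LV ϖ) := by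
  have := finiteDimensional_Lof F LV ϖ
  exact finiteDimensional_of_le (inf_le_left : K0of F LV ϖ ≤ Lof F LV ϖ)

theorem finiteDimensional_F2of : FiniteDimensional ℚ_[p] ↥(F2of F LV ϖ) := by
  have := finiteDimensional_K0of F LV ϖ
  exact finiteDimensional_adj (K0of F LV ϖ) ϖ

/-- **The setting of the passage exists.** -/
theorem exists_setting {π : PadicAlgCl p} (hπ : IsUnif p F π) {t : ℕ} (ht : 0 < t)
    (hϖ : ϖ ^ t = π) :
    ∃ (e n : ℕ) (τ : PadicAlgCl p), 0 < e ∧ ‖π‖ ^ e = (p : ℝ)⁻¹ ∧ F ≤ F2of F LV ϖ ∧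
      Lof F LV ϖ ≤ F2of F LV ϖ ⊔ LV ∧ IsUnif p (F2of F LV ϖ) ϖ ∧
      Setting p (K0of F LV ϖ) (F2of F LV ϖ) (Lof F LV ϖ) ϖ τ (t * e) n := by
  have hfdL := finiteDimensional_Lof F LV ϖ
  have hfdK := finiteDimensional_K0of F LV ϖ
  obtain ⟨e, he0, he, htrF, hspanF⟩ := exists_TR_over_unram F hπ
  set L := Lof F LV ϖ with hL
  set K0 := K0of F LV ϖ with hK0
  set F2 := F2of F LV ϖ with hF2
  have hFL : F ≤ L := F_le_Lof F LV ϖ
  have hϖL : ϖ ∈ L := ϖ_mem_Lof F LV ϖ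
  have hKFK0 : F ⊓ nrField p ≤ K0 := inf_le_inf_right _ hFL
  have hK0L : K0 ≤ L := inf_le_left
  have hK0F2 : K0 ≤ F2 := le_adj K0 ϖ
  have hϖF2 : ϖ ∈ F2 := mem_adj K0 ϖ
  -- the relation of `π`
  obtain ⟨b, hb⟩ := TRLift.exists_relation htrF hπ.1 hspanF
  have hK0unif : IsUnif p K0 (p : PadicAlgCl p) := isUnif_p_of_le_nrField K0 inf_le_right
  have hpowϖ : ‖ϖ‖ ^ (t * e) = ‖(p : PadicAlgCl p)‖ := by
    rw [pow_mul, ← norm_pow, hϖ, he, norm_p]
  have hte : 0 < t * e := Nat.mul_pos ht he0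
  have trK : TRData p K0 (p : PadicAlgCl p) ϖ (t * e) := ⟨hK0unif, hte, hpowϖ⟩
  -- all powers of `ϖ` are spanned
  have hpowW : ∀ m, FSpan K0 ϖ (t * e) (ϖ ^ m) := by
    intro m
    induction m using Nat.strong_induction_on with
    | _ m ih =>
      by_cases hm : m < t * e
      · exact FSpan.pow_of_lt hm
      · obtain ⟨r, rfl⟩ := Nat.exists_eq_add_of_le (not_lt.mp hm)
        have h1 : ϖ ^ (t * e + r) = ∑ k ∈ range e, (b k : PadicAlgCl p) * ϖ ^ (r + t * k) := by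
          rw [pow_add, pow_mul, hϖ, hb, Finset.sum_mul]
          refine Finset.sum_congr rfl fun k _ => ?_
          rw [← hϖ, ← pow_mul, pow_add]
          ring
        rw [h1]
        refine FSpan.sum _ _ fun k hk => ?_
        rw [Finset.mem_range] at hk
        refine FSpan.mul_left (hKFK0 (b k).2.1) (ih _ ?_)
        have : t * k + t ≤ t * e := by
          have := Nat.mul_le_mul_left t (Nat.succ_le_of_lt hk)
          rwa [Nat.mul_succ] at this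
        omega
  -- every element of `F2` is spanned
  have hfspanF2 : ∀ x ∈ F2, FSpan K0 ϖ (t * e) x := by
    intro x hx
    have hx' : x ∈ (IntermediateField.adjoin ↥K0 {ϖ}).toSubalgebra := hx
    rw [IntermediateField.adjoin_simple_toSubalgebra_of_isAlgebraic
      (isIntegral_top K0 ϖ).isAlgebraic, Algebra.adjoin_singleton_eq_range_aeval] at hx'
    obtain ⟨f, rfl⟩ := hx'
    show FSpan K0 ϖ (t * e) (Polynomial.aeval ϖ f)
    rw [Polynomial.aeval_eq_sum_range]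
    refine FSpan.sum _ _ fun i _ => ?_
    rw [Algebra.smul_def]
    exact FSpan.mul_left (f.coeff i).2 (hpowW i)
  have hF2unif : IsUnif p F2 ϖ := by
    refine ⟨hϖF2, trK.norm_pos, trK.norm_lt_one, fun x hx hx0 => ?_⟩
    obtain ⟨a, ha, rfl⟩ := hfspanF2 x hx
    exact trK.exists_norm_sum_eq a ha hx0
  have hspanF2 : ∀ x ∈ F2, ‖x‖ ≤ 1 → InSpan K0 ϖ (t * e) x := by
    intro x hx hx1
    obtain ⟨a, ha, rfl⟩ := hfspanF2 x hx
    refine ⟨fun j => if j < t * e then a j else 0, fun j => ?_, ?_⟩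
    · by_cases hj : j < t * e
      · simp only [hj, if_true]
        exact ⟨ha j, trK.coeff_le_of_sum_le a ha hx1 hj⟩
      · simp only [hj, if_false]
        exact ⟨zero_mem K0, by simp⟩
    · refine Finset.sum_congr rfl fun j hj => ?_
      rw [Finset.mem_range] at hj
      simp only [hj, if_true]
  -- `F ≤ F2`
  have hFF2 : F ≤ F2 := by
    intro x hx
    obtain ⟨a, ha, hsum⟩ := fspan_of_inSpan htrF inf_le_left hspanF hx
    rw [hsum]
    exact sum_mem fun j _ => mul_mem (hK0F2 (hKFK0 (ha j))) (by rw [← hϖ]; exact pow_mem (pow_mem hϖF2 t) j)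
  have hF2L : F2 ≤ L := fun x hx => FSpan.mem hK0L hϖL (hfspanF2 x hx)
  have hLsup : L ≤ F2 ⊔ LV := by
    refine sup_le (sup_le (hFF2.trans le_sup_left) ?_) le_sup_right
    rw [IntermediateField.adjoin_simple_le_iff]
    exact (le_sup_left : F2 ≤ F2 ⊔ LV) hϖF2
  -- the second level
  obtain ⟨τ, hτ⟩ := exists_isUnif p L
  obtain ⟨n, hn0, hn⟩ := IsUnif.exists_pow_eq_of_lt_one hτ hϖL trK.ne_zero trK.norm_lt_one
  have trF : TRData p F2 ϖ τ n := ⟨hF2unif, hn0, hn⟩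
  have hspanL : ∀ x ∈ L, ‖x‖ ≤ 1 → InSpan F2 τ n x := by
    intro x hx hx1
    refine inSpan_of_res hF2L trF hτ (fun y hy hy1 => ?_) hx hx1
    obtain ⟨c, hc, hc1, hyc⟩ := exists_unram_near p L hy hy1
    exact ⟨c, hK0F2 hc, hc1, hyc⟩
  exact ⟨e, n, τ, he0, he, hFF2, hLsup, hF2unif,
    ⟨hK0F2, hF2L, trK, hϖF2, hspanF2, trF, hτ.1, hspanL⟩⟩

end Construct

end Fermat.Agent.S56.Flat.Passage.Build
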