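/-
PROJECT T (S56), block (a3) Flat, passage `(P_m) ⇒ Kummer levels` (helper7 #3915), leaf P3:
the Kummer count.

`M / F` a finite Galois extension of fields, `x : ι → F` a family of non-zero elements which all
become `p`-th powers in `M`, pairwise distinct modulo `p`-th powers of `F`.  Then `ι` is finite
and `Nat.card ι ≤ p ^ [M : F]`: the map `i ↦ (σ ↦ σ y_i / y_i)` (`y_i ^ p = x_i`) into functions
`Gal(M/F) → μ_p(M)` is injective.

Mathlib only.
-/
import Mathlib

set_option autoImplicit false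

namespace Fermat.Agent.S56.Flat.Passage.KummerCount

open Polynomial

variable {F M : Type*} [Field F] [Field M] [Algebra F M]

/-- The `p`-th roots of unity of a field, as a subtype, are at most `p` in number. -/
theorem card_rootsOfOne_le (p : ℕ) (hp : 0 < p) :
    Finite {z : M // z ^ p = 1} ∧ Nat.card {z : M // z ^ p = 1} ≤ p := by
  classical
  have hinj : Function.Injective
      (fun z : {z : M // z ^ p = 1} => (⟨z.1, (mem_nthRootsFinset hp 1).mpr z.2⟩ :
        {z : M // z ∈ nthRootsFinset p (1 : M)})) := by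
    intro a b hab
    apply Subtype.ext
    exact congrArg (fun w : {z : M // z ∈ nthRootsFinset p (1 : M)} => (w : M)) hab
  have hfin : Finite {z : M // z ^ p = 1} := Finite.of_injective _ hinj
  refine ⟨hfin, ?_⟩
  calc Nat.card {z : M // z ^ p = 1}
      ≤ Nat.card {z : M // z ∈ nthRootsFinset p (1 : M)} := Nat.card_le_card_of_injective _ hinj
    _ = (nthRootsFinset p (1 : M)).card := by
        rw [Nat.card_eq_fintype_card, Fintype.card_coe]
    _ ≤ p := by
        unfold nthRootsFinset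
        exact le_trans (Multiset.toFinset_card_le _) (card_nthRoots p 1)

namespace Abstract

variable [FiniteDimensional F M] [IsGalois F M]

section

variable {p : ℕ} {ι : Type*} (x : ι → F)

/-- **Kummer count**, injection form. -/
theorem exists_injective (hp : 0 < p) (hx0 : ∀ i, x i ≠ 0)
    (hpow : ∀ i, ∃ y : M, y ^ p = algebraMap F M (x i))
    (hne : ∀ i j, i ≠ j → ¬ ∃ a : F, x i = a ^ p * x j) :
    ∃ f : ι → ((M ≃ₐ[F] M) → {z : M // z ^ p = 1}), Function.Injective f := by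
  choose y hy using hpow
  have hy0 : ∀ i, y i ≠ 0 := by
    intro i h0
    have := hy i
    rw [h0, zero_pow hp.ne'] at this
    exact hx0 i ((map_eq_zero (algebraMap F M)).mp this.symm)
  refine ⟨fun i σ => ⟨σ (y i) / y i, ?_⟩, ?_⟩
  · rw [div_pow, ← map_pow, hy i, AlgEquiv.commutes, div_self]
    rw [← hy i]
    exact pow_ne_zero p (hy0 i)
  · intro i j hij
    by_contra hne'
    apply hne i j hne'
    -- `y i / y j` is fixed by the Galois group
    have hfix : ∀ σ : M ≃ₐ[F] M, σ (y i / y j) = y i / y j := by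
      intro σ
      have h1 := congrArg Subtype.val (congrFun hij σ)
      simp only at h1
      have hσi : σ (y i) ≠ 0 := (map_ne_zero σ).mpr (hy0 i)
      have hσj : σ (y j) ≠ 0 := (map_ne_zero σ).mpr (hy0 j)
      rw [map_div₀]
      rw [div_eq_div_iff (hy0 i) (hy0 j)] at h1
      rw [div_eq_div_iff hσj (hy0 j)]
      linear_combination h1
    obtain ⟨a, ha⟩ := (IsGalois.mem_range_algebraMap_iff_fixed (F := F) (E := M) (y i / y j)).mpr hfix
    refine ⟨a, ?_⟩
    apply (algebraMap F M).injective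
    rw [map_mul, map_pow, ha, ← hy i, ← hy j, div_pow, div_mul_cancel₀]
    exact pow_ne_zero p (hy0 j)

/-- **Kummer count**, finiteness. -/
theorem finite_of_kummer (hp : 0 < p) (hx0 : ∀ i, x i ≠ 0)
    (hpow : ∀ i, ∃ y : M, y ^ p = algebraMap F M (x i))
    (hne : ∀ i j, i ≠ j → ¬ ∃ a : F, x i = a ^ p * x j) : Finite ι := by
  obtain ⟨f, hf⟩ := exists_injective x hp hx0 hpow hne
  have := (card_rootsOfOne_le (M := M) p hp).1
  exact Finite.of_injective f hf

/-- **Kummer count**, cardinality form. -/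
theorem card_le_of_kummer (hp : 0 < p) (hx0 : ∀ i, x i ≠ 0)
    (hpow : ∀ i, ∃ y : M, y ^ p = algebraMap F M (x i))
    (hne : ∀ i j, i ≠ j → ¬ ∃ a : F, x i = a ^ p * x j) :
    Nat.card ι ≤ p ^ Module.finrank F M := by
  obtain ⟨f, hf⟩ := exists_injective x hp hx0 hpow hne
  have := (card_rootsOfOne_le (M := M) p hp).1
  calc Nat.card ι ≤ Nat.card ((M ≃ₐ[F] M) → {z : M // z ^ p = 1}) :=
        Nat.card_le_card_of_injective f hf
    _ = Nat.card {z : M // z ^ p = 1} ^ Nat.card (M ≃ₐ[F] M) := Nat.card_fun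
    _ = Nat.card {z : M // z ^ p = 1} ^ Module.finrank F M := by
        rw [IsGalois.card_aut_eq_finrank]
    _ ≤ p ^ Module.finrank F M := Nat.pow_le_pow_left (card_rootsOfOne_le (M := M) p hp).2 _

/-- **Kummer count**, `Finset` form: every finite subfamily has at most `p ^ [M : F]` members. -/
theorem finset_card_le_of_kummer (hp : 0 < p) (hx0 : ∀ i, x i ≠ 0)
    (hpow : ∀ i, ∃ y : M, y ^ p = algebraMap F M (x i))
    (hne : ∀ i j, i ≠ j → ¬ ∃ a : F, x i = a ^ p * x j) (s : Finset ι) :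
    s.card ≤ p ^ Module.finrank F M := by
  have := finite_of_kummer (M := M) x hp hx0 hpow hne
  calc s.card ≤ Nat.card ι := by
        rw [← Nat.card_eq_finsetCard]
        exact Nat.card_le_card_of_injective (fun a : s => (a : ι)) Subtype.val_injective
    _ ≤ p ^ Module.finrank F M := card_le_of_kummer x hp hx0 hpow hne

end

end Abstract

/-! ### The count in the frame of the passage: subfields of `PadicAlgCl p` -/

section Frame

variable (p : ℕ) [Fact p.Prime]

/-- The intermediate field on which two automorphisms agree. -/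
noncomputable def eqField (σ σ' : PadicAlgCl p ≃ₐ[ℚ_[p]] PadicAlgCl p) :
    IntermediateField ℚ_[p] (PadicAlgCl p) :=
  (RingHom.eqLocusField (σ : PadicAlgCl p →+* PadicAlgCl p)
    (σ' : PadicAlgCl p →+* PadicAlgCl p)).toIntermediateField (fun x => by
      show σ (algebraMap ℚ_[p] (PadicAlgCl p) x) = σ' (algebraMap ℚ_[p] (PadicAlgCl p) x)
      rw [σ.commutes, σ'.commutes])

theorem mem_eqField {σ σ' : PadicAlgCl p ≃ₐ[ℚ_[p]] PadicAlgCl p} {z : PadicAlgCl p} :
    z ∈ eqField p σ σ' ↔ σ z = σ' z := Iff.rfl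

variable (F LV : IntermediateField ℚ_[p] (PadicAlgCl p))

/-- Restriction of an `F`-automorphism of `PadicAlgCl p` to the normal subfield `LV`. -/
noncomputable def res [Normal ℚ_[p] LV] (σ : PadicAlgCl p ≃ₐ[F] PadicAlgCl p) :
    LV ≃ₐ[ℚ_[p]] LV :=
  (σ.restrictScalars ℚ_[p]).restrictNormal LV

/-- An `F`-automorphism is determined on `F ⊔ LV` by its restriction to `LV`. -/
theorem apply_eq_of_res_eq [Normal ℚ_[p] LV] {σ σ' : PadicAlgCl p ≃ₐ[F] PadicAlgCl p}
    (h : res p F LV σ = res p F LV σ') {y : PadicAlgCl p} (hy : y ∈ F ⊔ LV) : σ y = σ' y := by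
  have hF : F ≤ eqField p (σ.restrictScalars ℚ_[p]) (σ'.restrictScalars ℚ_[p]) := by
    intro z hz
    rw [mem_eqField]
    show σ z = σ' z
    have h1 := σ.commutes (⟨z, hz⟩ : F)
    have h2 := σ'.commutes (⟨z, hz⟩ : F)
    exact h1.trans h2.symm
  have hLV : LV ≤ eqField p (σ.restrictScalars ℚ_[p]) (σ'.restrictScalars ℚ_[p]) := by
    intro z hz
    rw [mem_eqField]
    have h1 := AlgEquiv.restrictNormal_commutes (σ.restrictScalars ℚ_[p]) LV (⟨z, hz⟩ : LV)
    have h2 := AlgEquiv.restrictNormal_commutes (σ'.restrictScalars ℚ_[p]) LV (⟨z, hz⟩ : LV)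
    have h3 : (σ.restrictScalars ℚ_[p]).restrictNormal LV =
        (σ'.restrictScalars ℚ_[p]).restrictNormal LV := h
    rw [h3] at h1
    exact h1.symm.trans h2
  exact (sup_le hF hLV) hy

/-- **Kummer count** in the frame of the passage (helper7 #3959): `x i ∈ F` non-zero, all `p`-th
powers in `F ⊔ LV`, pairwise distinct modulo `p`-th powers of `F`; then there are at most
`p ^ [LV : ℚ_p]` of them.  The injection is into functions `Gal(LV/ℚ_p) → μ_p`. -/
theorem exists_injective_frame [FiniteDimensional ℚ_[p] LV] [IsGalois ℚ_[p] LV] {ι : Type*}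
    (x : ι → PadicAlgCl p) (hxF : ∀ i, x i ∈ F) (hx0 : ∀ i, x i ≠ 0)
    (hpow : ∀ i, ∃ y ∈ F ⊔ LV, y ^ p = x i)
    (hne : ∀ i j, i ≠ j → ¬ ∃ a ∈ F, x i = a ^ p * x j) :
    ∃ f : ι → ((LV ≃ₐ[ℚ_[p]] LV) → {z : PadicAlgCl p // z ^ p = 1}), Function.Injective f := by
  classical
  have hp : 0 < p := (Fact.out : p.Prime).pos
  choose y hyM hy using hpow
  have hy0 : ∀ i, y i ≠ 0 := by
    intro i h0
    have := hy i
    rw [h0, zero_pow hp.ne'] at this
    exact hx0 i this.symm
  have hfixx : ∀ (σ : PadicAlgCl p ≃ₐ[F] PadicAlgCl p) (i : ι), σ (x i) = x i := fun σ i =>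
    σ.commutes (⟨x i, hxF i⟩ : F)
  have hroot : ∀ (σ : PadicAlgCl p ≃ₐ[F] PadicAlgCl p) (i : ι), (σ (y i) / y i) ^ p = 1 := by
    intro σ i
    rw [div_pow, ← map_pow, hy i, hfixx σ i, div_self (hx0 i)]
  refine ⟨fun i τ =>
    if h : ∃ σ : PadicAlgCl p ≃ₐ[F] PadicAlgCl p, res p F LV σ = τ then
      ⟨h.choose (y i) / y i, hroot h.choose i⟩
    else ⟨1, one_pow p⟩, ?_⟩
  intro i j hij
  by_contra hne'
  apply hne i j hne'
  -- the two cocycles agree on the whole group
  have hall : ∀ σ : PadicAlgCl p ≃ₐ[F] PadicAlgCl p, σ (y i) / y i = σ (y j) / y j := by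
    intro σ
    have hex : ∃ σ' : PadicAlgCl p ≃ₐ[F] PadicAlgCl p, res p F LV σ' = res p F LV σ := ⟨σ, rfl⟩
    have h1 := congrArg Subtype.val (congrFun hij (res p F LV σ))
    simp only [dif_pos hex] at h1
    rw [apply_eq_of_res_eq p F LV hex.choose_spec (hyM i),
      apply_eq_of_res_eq p F LV hex.choose_spec (hyM j)] at h1
    exact h1
  have hfix : ∀ σ : PadicAlgCl p ≃ₐ[F] PadicAlgCl p, σ (y i / y j) = y i / y j := by
    intro σ
    have h1 := hall σ
    have hσi : σ (y i) ≠ 0 := (map_ne_zero σ).mpr (hy0 i)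
    have hσj : σ (y j) ≠ 0 := (map_ne_zero σ).mpr (hy0 j)
    rw [map_div₀]
    rw [div_eq_div_iff (hy0 i) (hy0 j)] at h1
    rw [div_eq_div_iff hσj (hy0 j)]
    linear_combination h1
  obtain ⟨a, ha⟩ :=
    (InfiniteGalois.mem_range_algebraMap_iff_fixed (k := F) (K := PadicAlgCl p) (y i / y j)).mpr hfix
  refine ⟨(a : PadicAlgCl p), a.2, ?_⟩
  have ha' : (a : PadicAlgCl p) = y i / y j := ha
  rw [ha', ← hy i, ← hy j, div_pow, div_mul_cancel₀]
  exact pow_ne_zero p (hy0 j)

/-- **Kummer count**, the form consumed by `Passage/Main` (helper7 #3959). -/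
theorem card_le_of_kummer [FiniteDimensional ℚ_[p] LV] [IsGalois ℚ_[p] LV] {ι : Type*}
    (x : ι → PadicAlgCl p) (hxF : ∀ i, x i ∈ F) (hx0 : ∀ i, x i ≠ 0)
    (hpow : ∀ i, ∃ y ∈ F ⊔ LV, y ^ p = x i)
    (hne : ∀ i j, i ≠ j → ¬ ∃ a ∈ F, x i = a ^ p * x j) :
    Finite ι ∧ Nat.card ι ≤ p ^ Module.finrank ℚ_[p] LV := by
  have hp : 0 < p := (Fact.out : p.Prime).pos
  obtain ⟨f, hf⟩ := exists_injective_frame p F LV x hxF hx0 hpow hne
  have hfin := (card_rootsOfOne_le (M := PadicAlgCl p) p hp).1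
  refine ⟨Finite.of_injective f hf, ?_⟩
  calc Nat.card ι ≤ Nat.card ((LV ≃ₐ[ℚ_[p]] LV) → {z : PadicAlgCl p // z ^ p = 1}) :=
        Nat.card_le_card_of_injective f hf
    _ = Nat.card {z : PadicAlgCl p // z ^ p = 1} ^ Nat.card (LV ≃ₐ[ℚ_[p]] LV) := Nat.card_fun
    _ = Nat.card {z : PadicAlgCl p // z ^ p = 1} ^ Module.finrank ℚ_[p] LV := by
        rw [IsGalois.card_aut_eq_finrank]
    _ ≤ p ^ Module.finrank ℚ_[p] LV :=
        Nat.pow_le_pow_left (card_rootsOfOne_le (M := PadicAlgCl p) p hp).2 _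

/-- **Kummer count**, `Finset` form. -/
theorem finset_card_le_of_kummer [FiniteDimensional ℚ_[p] LV] [IsGalois ℚ_[p] LV] {ι : Type*}
    (x : ι → PadicAlgCl p) (hxF : ∀ i, x i ∈ F) (hx0 : ∀ i, x i ≠ 0)
    (hpow : ∀ i, ∃ y ∈ F ⊔ LV, y ^ p = x i)
    (hne : ∀ i j, i ≠ j → ¬ ∃ a ∈ F, x i = a ^ p * x j) (s : Finset ι) :
    s.card ≤ p ^ Module.finrank ℚ_[p] LV := by
  obtain ⟨hfin, hcard⟩ := card_le_of_kummer p F LV x hxF hx0 hpow hne
  calc s.card ≤ Nat.card ι := by
        rw [← Nat.card_eq_finsetCard]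
        exact Nat.card_le_card_of_injective (fun a : s => (a : ι)) Subtype.val_injective
    _ ≤ p ^ Module.finrank ℚ_[p] LV := hcard

end Frame

end Fermat.Agent.S56.Flat.Passage.KummerCount
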