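/-
PROJECT T (S56), block Flat/Passage, leaf P8: the level lemma.

In an ultrametric normed field, for a "polynomial" `∑_{k<N} c_k X^k` with a dominant term `k0`
(`‖k0‖ = 1`, i.e. `p ∤ k0`) at `X = ϖ`:
`‖∑ c_k (ϖ(1+z))^k - ∑ c_k (ϖ(1+z'))^k‖ = ‖c_k0 ϖ^k0‖ · ‖z - z'‖` for `‖z‖, ‖z'‖ < 1`.
-/
import Mathlib
import Fermat.Agent.S56.Flat.Passage.Estimates

set_option autoImplicit false

namespace Fermat.Agent.S56.Flat.Passage.Level

open Finset Fermat.Agent.S56.Flat.Passage.Estimates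

variable {K : Type*} [NormedField K] [IsUltrametricDist K]

/-- The divided difference `((1+z)^k - (1+z')^k) / (z - z')`. -/
noncomputable def G (z z' : K) (k : ℕ) : K := ∑ i ∈ range k, (1 + z) ^ i * (1 + z') ^ (k - 1 - i)

omit [IsUltrametricDist K] in
theorem G_mul (z z' : K) (k : ℕ) : G z z' k * (z - z') = (1 + z) ^ k - (1 + z') ^ k := by
  have := Commute.geom_sum₂_mul (Commute.all (1 + z) (1 + z')) k
  rw [G, ← this]
  ring

theorem norm_mul_pow_sub_one_le {z z' : K} (hz : ‖z‖ ≤ 1) (hz' : ‖z'‖ ≤ 1) (i j : ℕ) :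
    ‖(1 + z) ^ i * (1 + z') ^ j - 1‖ ≤ max ‖z‖ ‖z'‖ := by
  have h : (1 + z) ^ i * (1 + z') ^ j - 1 =
      ((1 + z) ^ i - 1) * (1 + z') ^ j + ((1 + z') ^ j - 1) := by ring
  rw [h]
  refine (IsUltrametricDist.norm_add_le_max _ _).trans (max_le_max ?_ ?_)
  · rw [norm_mul, norm_pow]
    calc ‖(1 + z) ^ i - 1‖ * ‖1 + z'‖ ^ j ≤ ‖z‖ * 1 :=
          mul_le_mul (norm_one_add_pow_sub_one_le hz i)
            (pow_le_one₀ (norm_nonneg _) (norm_one_add_le hz')) (by positivity) (norm_nonneg _)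
      _ = ‖z‖ := mul_one _
  · exact norm_one_add_pow_sub_one_le hz' j

theorem norm_G_le_one {z z' : K} (hz : ‖z‖ ≤ 1) (hz' : ‖z'‖ ≤ 1) (k : ℕ) : ‖G z z' k‖ ≤ 1 := by
  refine IsUltrametricDist.norm_sum_le_of_forall_le_of_nonneg zero_le_one fun i _ => ?_
  rw [norm_mul, norm_pow, norm_pow]
  calc ‖1 + z‖ ^ i * ‖1 + z'‖ ^ (k - 1 - i) ≤ 1 * 1 :=
        mul_le_mul (pow_le_one₀ (norm_nonneg _) (norm_one_add_le hz))
          (pow_le_one₀ (norm_nonneg _) (norm_one_add_le hz')) (by positivity) zero_le_one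
    _ = 1 := one_mul 1

theorem norm_G_sub_natCast_le {z z' : K} (hz : ‖z‖ ≤ 1) (hz' : ‖z'‖ ≤ 1) (k : ℕ) :
    ‖G z z' k - (k : K)‖ ≤ max ‖z‖ ‖z'‖ := by
  have h : G z z' k - (k : K) = ∑ i ∈ range k, ((1 + z) ^ i * (1 + z') ^ (k - 1 - i) - 1) := by
    rw [Finset.sum_sub_distrib, G]
    simp
  rw [h]
  exact IsUltrametricDist.norm_sum_le_of_forall_le_of_nonneg
    (le_max_of_le_left (norm_nonneg _)) fun i _ => norm_mul_pow_sub_one_le hz hz' _ _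

theorem norm_G_eq_one {z z' : K} (hz : ‖z‖ < 1) (hz' : ‖z'‖ < 1) {k : ℕ}
    (hk : ‖(k : K)‖ = 1) : ‖G z z' k‖ = 1 := by
  have h1 : ‖G z z' k - (k : K)‖ < ‖(k : K)‖ := by
    rw [hk]
    exact lt_of_le_of_lt (norm_G_sub_natCast_le hz.le hz'.le k) (max_lt hz hz')
  have h2 : G z z' k = (G z z' k - (k : K)) + (k : K) := by ring
  rw [h2, IsUltrametricDist.norm_add_eq_max_of_norm_ne_norm h1.ne, max_eq_right h1.le, hk]

/-- **The level lemma.** -/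
theorem norm_shift_sub {ϖ z z' : K} {c : ℕ → K} {N k0 : ℕ} (hk0 : k0 < N)
    (hk0' : ‖(k0 : K)‖ = 1) (hz : ‖z‖ < 1) (hz' : ‖z'‖ < 1) (hν : c k0 * ϖ ^ k0 ≠ 0)
    (hdom : ∀ k, k < N → k ≠ 0 → k ≠ k0 → ‖c k * ϖ ^ k‖ < ‖c k0 * ϖ ^ k0‖) :
    ‖∑ k ∈ range N, c k * (ϖ * (1 + z)) ^ k - ∑ k ∈ range N, c k * (ϖ * (1 + z')) ^ k‖ =
      ‖c k0 * ϖ ^ k0‖ * ‖z - z'‖ := by
  classical
  by_cases hzz : z = z'
  · subst hzz; simp
  have hd : 0 < ‖z - z'‖ := norm_pos_iff.mpr (sub_ne_zero.mpr hzz)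
  have hνpos : 0 < ‖c k0 * ϖ ^ k0‖ := norm_pos_iff.mpr hν
  have hD : ∑ k ∈ range N, c k * (ϖ * (1 + z)) ^ k - ∑ k ∈ range N, c k * (ϖ * (1 + z')) ^ k =
      ∑ k ∈ range N, c k * ϖ ^ k * G z z' k * (z - z') := by
    rw [← Finset.sum_sub_distrib]
    refine Finset.sum_congr rfl fun k _ => ?_
    rw [mul_assoc (c k * ϖ ^ k), G_mul, mul_pow, mul_pow]
    ring
  have hk0m : k0 ∈ range N := Finset.mem_range.mpr hk0
  rw [hD, ← Finset.add_sum_erase _ _ hk0m]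
  have hT : ‖c k0 * ϖ ^ k0 * G z z' k0 * (z - z')‖ = ‖c k0 * ϖ ^ k0‖ * ‖z - z'‖ := by
    rw [norm_mul, norm_mul (c k0 * ϖ ^ k0), norm_G_eq_one hz hz' hk0', mul_one]
  have hterm : ∀ i ∈ (range N).erase k0,
      ‖c i * ϖ ^ i * G z z' i * (z - z')‖ < ‖c k0 * ϖ ^ k0‖ * ‖z - z'‖ := by
    intro i hi
    rw [Finset.mem_erase, Finset.mem_range] at hi
    by_cases hi0 : i = 0
    · subst hi0
      have : G z z' 0 = 0 := by simp [G]
      rw [this, mul_zero, zero_mul, norm_zero]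
      exact mul_pos hνpos hd
    · have hlt := hdom i hi.2 hi0 hi.1
      rw [norm_mul, norm_mul (c i * ϖ ^ i)]
      calc ‖c i * ϖ ^ i‖ * ‖G z z' i‖ * ‖z - z'‖ ≤ ‖c i * ϖ ^ i‖ * 1 * ‖z - z'‖ := by
            gcongr
            exact norm_G_le_one hz.le hz'.le i
        _ = ‖c i * ϖ ^ i‖ * ‖z - z'‖ := by rw [mul_one]
        _ < ‖c k0 * ϖ ^ k0‖ * ‖z - z'‖ := mul_lt_mul_of_pos_right hlt hd
  have hrest : ‖∑ k ∈ (range N).erase k0, c k * ϖ ^ k * G z z' k * (z - z')‖ <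
      ‖c k0 * ϖ ^ k0 * G z z' k0 * (z - z')‖ := by
    rw [hT]
    by_cases hne : ((range N).erase k0).Nonempty
    · obtain ⟨i, hi, hle⟩ := IsUltrametricDist.exists_norm_finsetSum_le_of_nonempty hne
        (fun k => c k * ϖ ^ k * G z z' k * (z - z'))
      exact lt_of_le_of_lt hle (hterm i hi)
    · rw [Finset.not_nonempty_iff_eq_empty.mp hne, Finset.sum_empty, norm_zero]
      exact mul_pos hνpos hd
  rw [IsUltrametricDist.norm_add_eq_max_of_norm_ne_norm hrest.ne', max_eq_left hrest.le, hT]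

end Fermat.Agent.S56.Flat.Passage.Level
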