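/-
PROJECT T (S56), block (a3) Flat, passage `(P_m) ⇒ Kummer levels` (helper7 #3915/#3959), leaf P1:
elements of a finite extension `E` of `ℚ_p` close enough to `1` are `p`-th powers in `E`.

`‖x - 1‖ < p ^ (-p/(p-1))`, stated without real powers as `‖x - 1‖ ^ (p - 1) < (p⁻¹) ^ p`.
Corollary of `Flat/PthRoot.exists_root` at `C = 𝒪 p E`, `ϖ` the chosen uniformizer,
`e = ramIdx p E`.
-/
import Mathlib
import Fermat.Agent.S56.Flat.PthRoot
import Fermat.Agent.CFT.Local.Model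
import Fermat.Agent.CFT.Local.PadicAlgCl

set_option autoImplicit false

namespace Fermat.Agent.S56.Flat.Passage.PthRootNear

open Fermat.Agent.CFT.Local.Model Fermat.Agent.CFT.Local.PadicAlgClLocal
open Fermat.Agent.S56.Flat.PthRoot

variable (p : ℕ) [Fact p.Prime]

section Model

variable (K : Type*) [Field K] [Algebra ℚ_[p] K] [FiniteDimensional ℚ_[p] K]

/-- `p` is a unit times the `ramIdx`-th power of the uniformizer in the ring of integers. -/
theorem exists_unit_natCast_eq :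
    ∃ υ : (↥(𝒪 p K))ˣ, ((p : ℕ) : ↥(𝒪 p K)) = υ * ϖ p K ^ ramIdx p K := by
  have hϖe : ϖ p K ^ ramIdx p K ≠ 0 := pow_ne_zero _ (ϖ_ne_zero p K)
  have hnrm : nrm p K ((ϖ p K ^ ramIdx p K : ↥(𝒪 p K)) : K) =
      nrm p K (((p : ℕ) : ↥(𝒪 p K)) : K) := by
    rw [SubmonoidClass.coe_pow, nrm_pow, coe_ϖ, nrm_ϖu_pow_ramIdx, coe_natCast_𝒪, nrm_q]
  have h1 : ϖ p K ^ ramIdx p K ∣ ((p : ℕ) : ↥(𝒪 p K)) :=
    (dvd_iff_nrm_le p K hϖe).mpr hnrm.ge
  have h2 : ((p : ℕ) : ↥(𝒪 p K)) ∣ ϖ p K ^ ramIdx p K :=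
    (dvd_iff_nrm_le p K (natCast_𝒪_ne_zero p K)).mpr hnrm.le
  obtain ⟨u, hu⟩ := associated_of_dvd_dvd h1 h2
  exact ⟨u, by rw [← hu, mul_comm]⟩

/-- The ring of integers of a `p`-adic local field satisfies the hypotheses of `Flat/PthRoot`. -/
theorem setting_𝒪 {j : ℕ} (hj : ramIdx p K < j * (p - 1)) :
    Setting ↥(𝒪 p K) (ϖ p K) p (ramIdx p K) j where
  prime := Fact.out
  regular := fun x hx => (mul_eq_zero.mp hx).resolve_left (ϖ_ne_zero p K)
  complete := by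
    rw [← maximalIdeal_eq_span_ϖ]
    infer_instance
  p_eq := exists_unit_natCast_eq p K
  lt := hj

/-- Elements of `K` close to `1` are `p`-th powers (model form). -/
theorem exists_pow_eq_of_nrm_lt {x : K} (h : nrm p K (x - 1) ^ (p - 1) < ((p : ℝ)⁻¹) ^ p) :
    ∃ y : K, y ^ p = x := by
  have hp : p.Prime := Fact.out
  by_cases hx1 : x = 1
  · exact ⟨1, by rw [hx1, one_pow]⟩
  have hd0 : x - 1 ≠ 0 := sub_ne_zero.mpr hx1
  set ρ : ℝ := nrm p K (ϖu p K) with hρ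
  have hρ0 : 0 < ρ := nrm_ϖu_pos p K
  have hρ1 : ρ < 1 := nrm_ϖu_lt_one p K
  set k : ℤ := ordFun p K (Units.mk0 (x - 1) hd0) with hk
  have hnd : nrm p K (x - 1) = ρ ^ k := by
    have := nrm_eq_zpow_ordFun p K (Units.mk0 (x - 1) hd0)
    rwa [Units.val_mk0] at this
  set e : ℕ := ramIdx p K with he
  -- the inequality of exponents
  have hkey : (e : ℤ) * (p : ℤ) < k * ((p : ℤ) - 1) := by
    have h' := h
    rw [hnd, ← nrm_ϖu_pow_ramIdx p K, ← hρ, ← he, ← zpow_natCast (ρ ^ k), ← zpow_mul,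
      ← pow_mul, ← zpow_natCast ρ (e * p)] at h'
    have := (zpow_lt_zpow_iff_right_of_lt_one₀ hρ0 hρ1).mp h'
    have hp1 : ((p - 1 : ℕ) : ℤ) = (p : ℤ) - 1 := by
      have := hp.pos
      omega
    rw [hp1] at this
    push_cast at this
    exact this
  have hp2 : (2 : ℤ) ≤ (p : ℤ) := by exact_mod_cast hp.two_le
  have hke : (e : ℤ) < k := by
    by_contra hcon
    have hle : k ≤ (e : ℤ) := not_lt.mp hcon
    have : k * ((p : ℤ) - 1) ≤ (e : ℤ) * ((p : ℤ) - 1) :=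
      mul_le_mul_of_nonneg_right hle (by linarith)
    have he0 : (0 : ℤ) ≤ (e : ℤ) := Int.natCast_nonneg e
    nlinarith
  obtain ⟨j, hj⟩ : ∃ j : ℕ, (j : ℤ) = k - e := ⟨(k - e).toNat, by omega⟩
  have hjlt : e < j * (p - 1) := by
    have hp1 : ((p - 1 : ℕ) : ℤ) = (p : ℤ) - 1 := by
      have := hp.pos
      omega
    have h3 : ((e : ℕ) : ℤ) < ((j * (p - 1) : ℕ) : ℤ) := by
      push_cast
      rw [hp1, hj]
      have : (k - (e : ℤ)) * ((p : ℤ) - 1) = k * ((p : ℤ) - 1) - (e : ℤ) * (p : ℤ) + e := by ring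
      rw [this]
      linarith
    exact_mod_cast h3
  have hS := setting_𝒪 p K hjlt
  -- `x` is integral
  have hdlt : nrm p K (x - 1) < 1 := by
    have := (nrm_lt_one_iff_ordFun p K (Units.mk0 (x - 1) hd0)).mpr
      (lt_of_le_of_lt (Int.natCast_nonneg e) hke)
    rwa [Units.val_mk0] at this
  have hxO : x ∈ 𝒪 p K := by
    rw [mem_𝒪_iff]
    have : x = (x - 1) + 1 := by ring
    rw [this]
    refine le_trans (nrm_add_le_max p K _ _) (max_le hdlt.le ?_)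
    rw [nrm_one]
  -- `x - 1` lies in the right power of the maximal ideal
  have hmem : (⟨x, hxO⟩ : ↥(𝒪 p K)) - 1 ∈ Ideal.span {ϖ p K ^ (e + j)} := by
    rw [Ideal.mem_span_singleton, dvd_iff_nrm_le p K (pow_ne_zero _ (ϖ_ne_zero p K))]
    have h1 : (((⟨x, hxO⟩ : ↥(𝒪 p K)) - 1 : ↥(𝒪 p K)) : K) = x - 1 := rfl
    rw [h1, SubmonoidClass.coe_pow, nrm_pow, coe_ϖ, hnd, ← hρ, ← zpow_natCast]
    have : ((e + j : ℕ) : ℤ) = k := by push_cast; omega
    rw [this]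
  obtain ⟨r, -, hr⟩ := hS.exists_root hmem
  refine ⟨(r : K), ?_⟩
  have := congrArg (fun z : ↥(𝒪 p K) => (z : K)) hr
  simpa using this

end Model

/-- **P1** (helper7 #3959 (3)): elements of a finite subextension `E` of `PadicAlgCl p` close
enough to `1` are `p`-th powers in `E`. -/
theorem exists_pth_root_near_one (E : IntermediateField ℚ_[p] (PadicAlgCl p))
    [FiniteDimensional ℚ_[p] E] {x : PadicAlgCl p} (hx : x ∈ E)
    (h : ‖x - 1‖ ^ (p - 1) < ((p : ℝ)⁻¹) ^ p) : ∃ y ∈ E, y ^ p = x := by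
  have h' : nrm p E ((⟨x, hx⟩ : E) - 1) ^ (p - 1) < ((p : ℝ)⁻¹) ^ p := by
    rw [nrm_eq_norm]
    exact h
  obtain ⟨y, hy⟩ := exists_pow_eq_of_nrm_lt p E h'
  refine ⟨(y : PadicAlgCl p), y.2, ?_⟩
  have := congrArg (fun z : E => (z : PadicAlgCl p)) hy
  simpa using this

end Fermat.Agent.S56.Flat.Passage.PthRootNear
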