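/-
PROJECT T (S56), block Flat/Passage: the counting contradiction.

In a `Setting` `K0 ≤ F ≤ L ≤ F ⊔ LV` (`ϖ` uniformizer of `F`, `‖ϖ‖ ^ E = p⁻¹`), let
`U(X) = ∑_{k<N} c_k X^k` (`c_k ∈ K0` integral) have a dominant term `k0` prime to `p` at `X = ϖ`
and a `p`-th root of `U(ϖ)` in `L`.  Under `(P_m)` for `LV`, all `U(ϖ(1+z))`, `z = ϖ^(ν+d)` in a
window of `d`'s, are `p`-th powers in `F ⊔ LV`, but pairwise independent modulo `p`-th powers of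
`F`: this contradicts the Kummer count as soon as the window has more than `p ^ [LV : ℚ_p]`
admissible members.
-/
import Mathlib
import Fermat.Agent.S56.Flat.Passage.ApproxAut
import Fermat.Agent.S56.Flat.Passage.Level
import Fermat.Agent.S56.Flat.Passage.KummerCount
import Fermat.Agent.S56.Flat.Passage.PthRootNear
import Fermat.Agent.S56.Flat.Passage.UnitFiltration

set_option autoImplicit false

namespace Fermat.Agent.S56.Flat.Passage.Core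

open Fermat.Agent.CFT.Local.Model Fermat.Agent.CFT.Local.PadicAlgClLocal
  Fermat.Agent.S56.Flat.Passage.NormFrame Fermat.Agent.S56.Flat.Passage.TotRam
  Fermat.Agent.S56.Flat.Passage.ApproxAut Fermat.Agent.S56.Flat.Passage.Level
  Fermat.Agent.S56.Flat.Passage.UnitFiltration Finset Module

variable {p : ℕ} [Fact p.Prime]

/-! ### Ultrametric helpers -/

theorem norm_eq_of_norm_sub_lt {a b : PadicAlgCl p} (h : ‖a - b‖ < ‖b‖) : ‖a‖ = ‖b‖ := by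
  have h1 : a = (a - b) + b := by ring
  rw [h1, IsUltrametricDist.norm_add_eq_max_of_norm_ne_norm h.ne]
  exact max_eq_right h.le

theorem norm_sub_of_norm_lt {a b : PadicAlgCl p} (h : ‖b‖ < ‖a‖) : ‖a - b‖ = ‖a‖ := by
  rw [sub_eq_add_neg, IsUltrametricDist.norm_add_eq_max_of_norm_ne_norm (by rw [norm_neg]; exact h.ne'),
    norm_neg]
  exact max_eq_left h.le

theorem pow_lt_pow_of_lt_one' {r : ℝ} (h0 : 0 < r) (h1 : r < 1) {m n : ℕ} (h : m < n) :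
    r ^ n < r ^ m := pow_lt_pow_right_of_lt_one₀ h0 h1 h

/-! ### Lemma C: quotients at a level prime to `p` are not `p`-th powers -/

theorem not_pth_power {F : IntermediateField ℚ_[p] (PadicAlgCl p)} {ϖ : PadicAlgCl p}
    (hϖ : IsUnif p F ϖ) {E : ℕ} (hE : ‖ϖ‖ ^ E = (p : ℝ)⁻¹) {x1 x2 a : PadicAlgCl p} {ν D : ℕ}
    (ha : a ∈ F) (hx : x1 = a ^ p * x2) (hx2 : ‖x2‖ = ‖ϖ‖ ^ ν)
    (hd : ‖x1 - x2‖ = ‖ϖ‖ ^ (ν + D)) (hD0 : 0 < D) (hD : D * (p - 1) < p * E)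
    (hpD : ¬ p ∣ D) : False := by
  have hp : p.Prime := Fact.out
  obtain ⟨-, h0, h1, hv⟩ := hϖ
  have hx20 : x2 ≠ 0 := by
    rw [← norm_pos_iff, hx2]; exact pow_pos h0 ν
  have hq : a ^ p = x1 / x2 := by rw [hx]; field_simp
  have hq1 : ‖x1 / x2 - 1‖ = ‖ϖ‖ ^ D := by
    have : x1 / x2 - 1 = (x1 - x2) / x2 := by field_simp
    rw [this, norm_div, hd, hx2, pow_add]
    field_simp
  have hlt : ‖x1 / x2 - 1‖ < 1 := by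
    rw [hq1]; exact pow_lt_one₀ h0.le h1 hD0.ne'
  have h2 : ((p : ℝ)⁻¹) ^ p < ‖x1 / x2 - 1‖ ^ (p - 1) := by
    rw [hq1, ← hE, ← pow_mul, ← pow_mul, mul_comm E p]
    exact pow_lt_pow_of_lt_one' h0 h1 hD
  have hkey := norm_sub_one_eq_pow hp (norm_p p) hq hlt h2
  rw [hq1] at hkey
  have ha1 : a - 1 ≠ 0 := by
    intro h
    rw [h, norm_zero, zero_pow hp.ne_zero] at hkey
    exact (pow_pos h0 D).ne' hkey
  obtain ⟨m, hm⟩ := hv (a - 1) (sub_mem ha (one_mem F)) ha1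
  rw [hm, ← zpow_natCast, ← zpow_natCast, ← zpow_mul] at hkey
  have := zpow_inj_of_lt_one h0 h1 hkey
  apply hpD
  have h3 : (p : ℤ) ∣ (D : ℤ) := ⟨m, by rw [this]; ring⟩
  exact_mod_cast h3

/-! ### The shifted values `U(ϖ(1+z))` -/

/-- The shifted value `U(ϖ(1+z))` of `U(X) = ∑_{k<N} c_k X^k`. -/
noncomputable def Uz (c : ℕ → PadicAlgCl p) (N : ℕ) (ϖ z : PadicAlgCl p) : PadicAlgCl p :=
  ∑ k ∈ range N, c k * (ϖ * (1 + z)) ^ k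

theorem Uz_zero (c : ℕ → PadicAlgCl p) (N : ℕ) (ϖ : PadicAlgCl p) :
    Uz c N ϖ 0 = ∑ k ∈ range N, c k * ϖ ^ k := by
  simp [Uz]

theorem Uz_mem {F K0 : IntermediateField ℚ_[p] (PadicAlgCl p)} (hKF : K0 ≤ F)
    {c : ℕ → PadicAlgCl p} (hc : ∀ k, c k ∈ K0) (N : ℕ) {ϖ z : PadicAlgCl p} (hϖ : ϖ ∈ F)
    (hz : z ∈ F) : Uz c N ϖ z ∈ F :=
  sum_mem fun k _ => mul_mem (hKF (hc k)) (pow_mem (mul_mem hϖ (add_mem (one_mem F) hz)) k)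

section Shift

variable {c : ℕ → PadicAlgCl p} {N k0 ν : ℕ} {ϖ : PadicAlgCl p}

theorem diff_Uz (hϖ0 : 0 < ‖ϖ‖) (hk0N : k0 < N) (hk0' : ‖(k0 : PadicAlgCl p)‖ = 1)
    (hck0 : ‖c k0‖ = 1)
    (hdom : ∀ k, k < N → k ≠ 0 → k ≠ k0 → ‖c k * ϖ ^ k‖ < ‖ϖ‖ ^ k0) {z z' : PadicAlgCl p}
    (hz : ‖z‖ < 1) (hz' : ‖z'‖ < 1) : ‖Uz c N ϖ z - Uz c N ϖ z'‖ = ‖ϖ‖ ^ k0 * ‖z - z'‖ := by
  have hterm : ‖c k0 * ϖ ^ k0‖ = ‖ϖ‖ ^ k0 := by rw [norm_mul, hck0, one_mul, norm_pow]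
  have hν : c k0 * ϖ ^ k0 ≠ 0 := by
    rw [← norm_pos_iff, hterm]; exact pow_pos hϖ0 k0
  have := norm_shift_sub (ϖ := ϖ) (c := c) hk0N hk0' hz hz' hν
    (fun k hk h0 hne => by rw [hterm]; exact hdom k hk h0 hne)
  rw [hterm] at this
  exact this

variable (hϖ0 : 0 < ‖ϖ‖) (hϖ1 : ‖ϖ‖ < 1) (hk0N : k0 < N)
  (hk0' : ‖(k0 : PadicAlgCl p)‖ = 1) (hck0 : ‖c k0‖ = 1)
  (hdom : ∀ k, k < N → k ≠ 0 → k ≠ k0 → ‖c k * ϖ ^ k‖ < ‖ϖ‖ ^ k0)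
  (hν : ‖∑ k ∈ range N, c k * ϖ ^ k‖ = ‖ϖ‖ ^ ν)

include hϖ0 hϖ1 hk0N hk0' hck0 hdom hν

theorem norm_Uz_pow {d : ℕ} (hd : 0 < d) : ‖Uz c N ϖ (ϖ ^ (ν + d))‖ = ‖ϖ‖ ^ ν := by
  have hz : ‖ϖ ^ (ν + d)‖ < 1 := by
    rw [norm_pow]; exact pow_lt_one₀ hϖ0.le hϖ1 (by omega)
  have h := diff_Uz hϖ0 hk0N hk0' hck0 hdom hz (by rw [norm_zero]; exact zero_lt_one)
  rw [sub_zero, Uz_zero, norm_pow] at h
  rw [← hν]
  apply norm_eq_of_norm_sub_lt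
  rw [h, hν, ← pow_add]
  exact pow_lt_pow_of_lt_one' hϖ0 hϖ1 (by omega)

omit hν in
theorem diff_Uz_pow {d1 d2 : ℕ} (hd1 : 0 < d1) (hd : d1 < d2) :
    ‖Uz c N ϖ (ϖ ^ (ν + d1)) - Uz c N ϖ (ϖ ^ (ν + d2))‖ = ‖ϖ‖ ^ (ν + (k0 + d1)) := by
  have hz1 : ‖ϖ ^ (ν + d1)‖ < 1 := by
    rw [norm_pow]; exact pow_lt_one₀ hϖ0.le hϖ1 (by omega)
  have hz2 : ‖ϖ ^ (ν + d2)‖ < 1 := by
    rw [norm_pow]; exact pow_lt_one₀ hϖ0.le hϖ1 (by omega)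
  rw [diff_Uz hϖ0 hk0N hk0' hck0 hdom hz1 hz2, norm_sub_of_norm_lt, norm_pow, ← pow_add]
  · congr 1; omega
  · rw [norm_pow, norm_pow]
    exact pow_lt_pow_of_lt_one' hϖ0 hϖ1 (by omega)

end Shift

/-! ### Lemma A: the shifted values are `p`-th powers in `L` -/

theorem pth_power_shift {K0 F L LV : IntermediateField ℚ_[p] (PadicAlgCl p)}
    {ϖ τ : PadicAlgCl p} {E n : ℕ} [FiniteDimensional ℚ_[p] F] [FiniteDimensional ℚ_[p] L]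
    (S : Setting p K0 F L ϖ τ E n) (hPm : FontaineP p LV) (hLV : LV ≤ L) (hLsup : L ≤ F ⊔ LV)
    {c : ℕ → PadicAlgCl p} (hc : ∀ k, c k ∈ K0 ∧ ‖c k‖ ≤ 1) {N k0 ν : ℕ}
    {α : PadicAlgCl p} (hαL : α ∈ L) (hα : α ^ p = ∑ k ∈ range N, c k * ϖ ^ k)
    (hk0N : k0 < N) (hk0' : ‖(k0 : PadicAlgCl p)‖ = 1) (hck0 : ‖c k0‖ = 1)
    (hdom : ∀ k, k < N → k ≠ 0 → k ≠ k0 → ‖c k * ϖ ^ k‖ < ‖ϖ‖ ^ k0)
    (hν : ‖∑ k ∈ range N, c k * ϖ ^ k‖ = ‖ϖ‖ ^ ν) {d : ℕ} (hd : E < d * (p - 1)) :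
    ∃ y ∈ L, y ^ p = Uz c N ϖ (ϖ ^ (ν + d)) := by
  have hp : p.Prime := Fact.out
  have hϖ0 : 0 < ‖ϖ‖ := S.trK.norm_pos
  have hϖ1 : ‖ϖ‖ < 1 := S.trK.norm_lt_one
  have hE : ‖ϖ‖ ^ E = (p : ℝ)⁻¹ := by rw [S.trK.pow, norm_p]
  have hpR : (0 : ℝ) < p := by exact_mod_cast hp.pos
  have hd0 : 0 < d := by
    rcases Nat.eq_zero_or_pos d with h | h
    · rw [h, zero_mul] at hd; exact absurd hd (Nat.not_lt_zero _)
    · exact h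
  set z := ϖ ^ (ν + d) with hz
  have hzF : z ∈ F := pow_mem S.ϖF _
  have hz0 : z ≠ 0 := pow_ne_zero _ S.trK.ne_zero
  have hznorm : ‖z‖ = ‖ϖ‖ ^ ν * ‖ϖ‖ ^ d := by rw [hz, norm_pow, pow_add]
  have hz1 : ‖z‖ ≤ 1 := by
    rw [hz, norm_pow]; exact pow_le_one₀ hϖ0.le hϖ1.le
  have hdE : ‖ϖ‖ ^ (d * (p - 1)) < (p : ℝ)⁻¹ := by
    rw [← hE]; exact pow_lt_pow_of_lt_one' hϖ0 hϖ1 hd
  have hzp : ‖z‖ ^ (p - 1) < (p : ℝ)⁻¹ := by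
    rw [hz, norm_pow, ← pow_mul]
    refine lt_of_le_of_lt ?_ hdE
    exact pow_le_pow_of_le_one hϖ0.le hϖ1.le (Nat.mul_le_mul_right _ (Nat.le_add_left d ν))
  obtain ⟨y, hyL, -, hy⟩ := transport S hPm hLV hLsup hzF hz0 hz1 hzp c hc N hαL hα
  have hu : ‖Uz c N ϖ z‖ = ‖ϖ‖ ^ ν := norm_Uz_pow hϖ0 hϖ1 hk0N hk0' hck0 hdom hν hd0
  have hu0 : Uz c N ϖ z ≠ 0 := by
    rw [← norm_pos_iff, hu]; exact pow_pos hϖ0 ν
  have huL : Uz c N ϖ z ∈ L := S.hFL (Uz_mem S.hKF (fun k => (hc k).1) N S.ϖF hzF)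
  set x := y ^ p / Uz c N ϖ z with hx
  have hxL : x ∈ L := div_mem (pow_mem hyL p) huL
  have hx1 : ‖x - 1‖ ≤ ‖ϖ‖ ^ d / p := by
    have : x - 1 = (y ^ p - Uz c N ϖ z) / Uz c N ϖ z := by rw [hx]; field_simp
    rw [this, norm_div, hu]
    have hy' : ‖y ^ p - Uz c N ϖ z‖ ≤ ‖ϖ‖ ^ ν * ‖ϖ‖ ^ d / p := by rw [← hznorm]; exact hy
    rw [div_le_iff₀ (pow_pos hϖ0 ν)]
    calc ‖y ^ p - Uz c N ϖ z‖ ≤ ‖ϖ‖ ^ ν * ‖ϖ‖ ^ d / p := hy'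
      _ = ‖ϖ‖ ^ d / p * ‖ϖ‖ ^ ν := by ring
  have hx2 : ‖x - 1‖ ^ (p - 1) < ((p : ℝ)⁻¹) ^ p := by
    have h1 : ‖x - 1‖ ^ (p - 1) ≤ (‖ϖ‖ ^ d / p) ^ (p - 1) :=
      pow_le_pow_left₀ (norm_nonneg _) hx1 _
    refine lt_of_le_of_lt h1 ?_
    rw [div_pow, ← pow_mul, div_eq_mul_inv, ← inv_pow]
    have hpp : ((p : ℝ)⁻¹) ^ p = (p : ℝ)⁻¹ * ((p : ℝ)⁻¹) ^ (p - 1) := by
      rw [← pow_succ', Nat.sub_add_cancel hp.pos]
    rw [hpp]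
    exact mul_lt_mul_of_pos_right hdE (pow_pos (inv_pos.mpr hpR) _)
  obtain ⟨y', hy'L, hy'⟩ := PthRootNear.exists_pth_root_near_one p L hxL hx2
  have hx0 : x ≠ 0 := by
    intro h0
    have hlt : ‖x - 1‖ < 1 := by
      by_contra hge
      have hge' : 1 ≤ ‖x - 1‖ := not_lt.mp hge
      have h1 : (1 : ℝ) ≤ ‖x - 1‖ ^ (p - 1) := one_le_pow₀ hge'
      have h2 : ((p : ℝ)⁻¹) ^ p ≤ 1 :=
        pow_le_one₀ (inv_nonneg.mpr hpR.le) (inv_le_one_of_one_le₀ (by exact_mod_cast hp.one_lt.le))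
      linarith
    rw [h0, zero_sub, norm_neg, norm_one] at hlt
    exact lt_irrefl _ hlt
  have hy'0 : y' ≠ 0 := by
    intro h0
    rw [h0, zero_pow hp.ne_zero] at hy'
    exact hx0 hy'.symm
  refine ⟨y / y', div_mem hyL hy'L, ?_⟩
  rw [div_pow, hy', hx]
  have hyp0 : y ^ p ≠ 0 := by
    intro h0
    apply hx0
    rw [hx, h0, zero_div]
  field_simp

/-! ### The contradiction -/

theorem norm_natCast_of_not_dvd {k : ℕ} (hk : ¬ p ∣ k) : ‖(k : PadicAlgCl p)‖ = 1 := by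
  have hp : p.Prime := Fact.out
  rw [← map_natCast (algebraMap ℚ_[p] (PadicAlgCl p)), PadicAlgCl.norm_extends]
  exact Padic.norm_natCast_eq_one_iff.mpr ((Nat.Prime.coprime_iff_not_dvd hp).mpr hk)

/-- **The counting contradiction.** -/
theorem core {K0 F L LV : IntermediateField ℚ_[p] (PadicAlgCl p)}
    {ϖ τ : PadicAlgCl p} {E n : ℕ} [FiniteDimensional ℚ_[p] F] [FiniteDimensional ℚ_[p] L]
    [FiniteDimensional ℚ_[p] LV] [IsGalois ℚ_[p] LV]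
    (S : Setting p K0 F L ϖ τ E n) (hPm : FontaineP p LV) (hLV : LV ≤ L) (hLsup : L ≤ F ⊔ LV)
    {c : ℕ → PadicAlgCl p} (hc : ∀ k, c k ∈ K0 ∧ ‖c k‖ ≤ 1) {N k0 ν t : ℕ}
    {α : PadicAlgCl p} (hαL : α ∈ L) (hα : α ^ p = ∑ k ∈ range N, c k * ϖ ^ k)
    (hk0N : k0 < N) (hpk0 : ¬ p ∣ k0) (hck0 : ‖c k0‖ = 1)
    (hdom : ∀ k, k < N → k ≠ 0 → k ≠ k0 → ‖c k * ϖ ^ k‖ < ‖ϖ‖ ^ k0)
    (hν : ‖∑ k ∈ range N, c k * ϖ ^ k‖ = ‖ϖ‖ ^ ν)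
    (ht : p * p ^ (finrank ℚ_[p] LV) + 3 ≤ t) (hk0t : k0 + t ≤ E) : False := by
  have hp : p.Prime := Fact.out
  have hϖ0 : 0 < ‖ϖ‖ := S.trK.norm_pos
  have hϖ1 : ‖ϖ‖ < 1 := S.trK.norm_lt_one
  have hE : ‖ϖ‖ ^ E = (p : ℝ)⁻¹ := by rw [S.trK.pow, norm_p]
  have hk0' : ‖(k0 : PadicAlgCl p)‖ = 1 := norm_natCast_of_not_dvd hpk0
  obtain ⟨q, hq⟩ : ∃ q, p = q + 1 := ⟨p - 1, (Nat.sub_add_cancel hp.pos).symm⟩
  have hq1 : 1 ≤ q := by have := hp.two_le; omega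
  have hpq : p - 1 = q := by omega
  set f := finrank ℚ_[p] LV with hf
  set A := E / q with hA
  have hA1 : A * q ≤ E := Nat.div_mul_le_self E q
  have hA2 : E < (A + 1) * q := by
    have := Nat.lt_mul_div_succ E (show 0 < q by omega)
    rw [mul_comm]; exact this
  -- the base point of the progression
  obtain ⟨d0, hd0a, hd0b, hd0p⟩ : ∃ d0, A + 1 ≤ d0 ∧ d0 ≤ A + 2 ∧ ¬ p ∣ (k0 + d0) := by
    by_cases h : p ∣ (k0 + (A + 1))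
    · refine ⟨A + 2, by omega, le_refl _, fun h2 => ?_⟩
      have h3 : p ∣ (k0 + (A + 2)) - (k0 + (A + 1)) := Nat.dvd_sub h2 h
      have h4 : (k0 + (A + 2)) - (k0 + (A + 1)) = 1 := by omega
      rw [h4] at h3
      exact hp.one_lt.ne' (Nat.dvd_one.mp h3)
    · exact ⟨A + 1, le_refl _, by omega, h⟩
  -- the family
  let dd : Fin (p ^ f + 1) → ℕ := fun s => d0 + p * (s : ℕ)
  have hdd_inj : ∀ i j : Fin (p ^ f + 1), i ≠ j → dd i ≠ dd j := by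
    intro i j hij h
    apply hij
    have h1 : p * (i : ℕ) = p * (j : ℕ) := Nat.add_left_cancel h
    exact Fin.ext (Nat.eq_of_mul_eq_mul_left hp.pos h1)
  have hdd_lo : ∀ s, A + 1 ≤ dd s := fun s => hd0a.trans (Nat.le_add_right _ _)
  have hdd_hi : ∀ s, dd s + 1 ≤ A + t := by
    intro s
    have h1 : (s : ℕ) ≤ p ^ f := Nat.lt_succ_iff.mp s.2
    have h2 : p * (s : ℕ) ≤ p * p ^ f := Nat.mul_le_mul_left p h1
    show d0 + p * (s : ℕ) + 1 ≤ A + t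
    omega
  have hdd_p : ∀ s, ¬ p ∣ (k0 + dd s) := by
    intro s h
    apply hd0p
    have h1 : k0 + dd s = (k0 + d0) + p * (s : ℕ) := by show k0 + (d0 + p * (s : ℕ)) = _; ring
    rw [h1] at h
    exact (Nat.dvd_add_left (Dvd.intro _ rfl)).mp h
  have hdd_E : ∀ s, E < dd s * (p - 1) := by
    intro s
    rw [hpq]
    exact lt_of_lt_of_le hA2 (Nat.mul_le_mul_right q (hdd_lo s))
  have hdd_D : ∀ s, (k0 + dd s) * (p - 1) < p * E := by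
    intro s
    rw [hpq, hq]
    have h1 : k0 + dd s + 1 ≤ E + A := by have := hdd_hi s; omega
    have h2 : (k0 + dd s + 1) * q ≤ (E + A) * q := Nat.mul_le_mul_right q h1
    have h3 : (k0 + dd s + 1) * q = (k0 + dd s) * q + q := by ring
    have h4 : (E + A) * q = E * q + A * q := by ring
    have h5 : (q + 1) * E = E * q + E := by ring
    omega
  -- the Kummer family
  let x : Fin (p ^ f + 1) → PadicAlgCl p := fun s => Uz c N ϖ (ϖ ^ (ν + dd s))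
  have hdd_pos : ∀ s, 0 < dd s := fun s => lt_of_lt_of_le (Nat.succ_pos A) (hdd_lo s)
  have hxnorm : ∀ s, ‖x s‖ = ‖ϖ‖ ^ ν := fun s =>
    norm_Uz_pow hϖ0 hϖ1 hk0N hk0' hck0 hdom hν (hdd_pos s)
  have hxF : ∀ s, x s ∈ F := fun s =>
    Uz_mem S.hKF (fun k => (hc k).1) N S.ϖF (pow_mem S.ϖF _)
  have hx0 : ∀ s, x s ≠ 0 := fun s => by
    rw [← norm_pos_iff, hxnorm]; exact pow_pos hϖ0 ν
  have hpow : ∀ s, ∃ y ∈ F ⊔ LV, y ^ p = x s := fun s => by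
    obtain ⟨y, hyL, hy⟩ := pth_power_shift S hPm hLV hLsup hc hαL hα hk0N hk0' hck0 hdom hν
      (hdd_E s)
    exact ⟨y, hLsup hyL, hy⟩
  have hne : ∀ i j, i ≠ j → ¬ ∃ a ∈ F, x i = a ^ p * x j := by
    intro i j hij ⟨a, haF, hxa⟩
    rcases lt_or_gt_of_ne (hdd_inj i j hij) with hlt | hlt
    · have hd := diff_Uz_pow (c := c) (N := N) (ν := ν) hϖ0 hϖ1 hk0N hk0' hck0 hdom
        (hdd_pos i) hlt
      exact not_pth_power S.trF.unif hE haF hxa (hxnorm j) hd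
        (lt_of_lt_of_le (hdd_pos i) (Nat.le_add_left _ _)) (hdd_D i) (hdd_p i)
    · have hd := diff_Uz_pow (c := c) (N := N) (ν := ν) hϖ0 hϖ1 hk0N hk0' hck0 hdom
        (hdd_pos j) hlt
      rw [norm_sub_rev] at hd
      exact not_pth_power S.trF.unif hE haF hxa (hxnorm j) hd
        (lt_of_lt_of_le (hdd_pos j) (Nat.le_add_left _ _)) (hdd_D j) (hdd_p j)
  obtain ⟨-, hcard⟩ := KummerCount.card_le_of_kummer p F LV x hxF hx0 hpow hne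
  rw [Nat.card_eq_fintype_card, Fintype.card_fin] at hcard
  exact absurd hcard (Nat.not_succ_le_self _)

end Fermat.Agent.S56.Flat.Passage.Core
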