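/-
PROJECT T (S56), block Flat/Passage: the unique dominant term of a `ϖ`-adic expansion over a
totally ramified pair.  If `‖∑_{i<n} a_i ϖ^i‖ = ‖ϖ‖^k0` with `k0 < n` and integral `a_i ∈ F`
(`‖ϖ‖^n = ‖π‖`, `π` a uniformizer of `F`), then `‖a_k0‖ = 1` and every other term is strictly
smaller.
-/
import Mathlib
import Fermat.Agent.S56.Flat.Passage.TotRam

set_option autoImplicit false

namespace Fermat.Agent.S56.Flat.Passage.Dominant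

open Fermat.Agent.CFT.Local.Model Fermat.Agent.CFT.Local.PadicAlgClLocal
  Fermat.Agent.S56.Flat.Passage.NormFrame Fermat.Agent.S56.Flat.Passage.TotRam Finset

variable {p : ℕ} [Fact p.Prime]
variable {F : IntermediateField ℚ_[p] (PadicAlgCl p)} {π ϖ : PadicAlgCl p} {n : ℕ}

/-- A term of an expansion with integral coefficient is `≤ ‖ϖ‖ ^ k0`, with equality only for
the index `k0` and a unit coefficient. -/
theorem term_lt_of_ne (h : TRData p F π ϖ n) {a : PadicAlgCl p} (ha : a ∈ F) (ha1 : ‖a‖ ≤ 1)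
    {k k0 : ℕ} (hk : k < n) (hk0 : k0 < n) (hle : ‖a * ϖ ^ k‖ ≤ ‖ϖ‖ ^ k0)
    (hne : k ≠ k0 ∨ ‖a‖ < 1) : ‖a * ϖ ^ k‖ < ‖ϖ‖ ^ k0 := by
  have hpos := h.norm_pos
  have hlt1 := h.norm_lt_one
  by_cases ha0 : a = 0
  · rw [ha0, zero_mul, norm_zero]; exact pow_pos hpos k0
  obtain ⟨m, hm⟩ := h.unif.2.2.2 a ha ha0
  have hm2 : ‖a * ϖ ^ k‖ = ‖ϖ‖ ^ ((n : ℤ) * m + k) := by
    rw [norm_mul, norm_pow, hm, ← h.pow, zpow_add₀ hpos.ne', zpow_mul, zpow_natCast,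
      zpow_natCast]
  have hπ1 : ‖π‖ < 1 := h.unif.2.2.1
  have hπ0 : 0 < ‖π‖ := h.unif.2.1
  -- `m ≥ 0`, and `m ≥ 1` if `‖a‖ < 1`
  have hm0 : 0 ≤ m := by
    rw [hm, ← zpow_zero ‖π‖, zpow_le_zpow_iff_of_lt_one hπ0 hπ1] at ha1
    exact ha1
  have hn : (0 : ℤ) < n := by exact_mod_cast h.npos
  have hkn : (k : ℤ) < n := by exact_mod_cast hk
  have hk0n : (k0 : ℤ) < n := by exact_mod_cast hk0
  rw [hm2, ← zpow_natCast ‖ϖ‖ k0] at hle ⊢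
  rw [zpow_le_zpow_iff_of_lt_one hpos hlt1] at hle
  refine zpow_lt_zpow_right_of_lt_one₀ hpos hlt1 ?_
  rcases hne with hne | hne
  · rcases hm0.lt_or_eq with hm1 | hm1
    · have : (n : ℤ) * 1 ≤ (n : ℤ) * m := by nlinarith
      omega
    · rw [← hm1, mul_zero, zero_add] at hle ⊢
      have : (k0 : ℤ) ≠ k := by exact_mod_cast hne.symm
      omega
  · have hm1 : 1 ≤ m := by
      by_contra hlt
      have hm00 : m = 0 := by omega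
      rw [hm, hm00, zpow_zero] at hne
      exact lt_irrefl _ hne
    have : (n : ℤ) * 1 ≤ (n : ℤ) * m := by nlinarith
    omega

/-- **Unique dominant term.** -/
theorem dominant (h : TRData p F π ϖ n) (a : ℕ → PadicAlgCl p)
    (ha : ∀ j, a j ∈ F ∧ ‖a j‖ ≤ 1) {k0 : ℕ} (hk0 : k0 < n)
    (hs : ‖∑ i ∈ range n, a i * ϖ ^ i‖ = ‖ϖ‖ ^ k0) :
    ‖a k0‖ = 1 ∧ ∀ k, k < n → k ≠ k0 → ‖a k * ϖ ^ k‖ < ‖ϖ‖ ^ k0 := by
  have hle : ∀ k, k < n → ‖a k * ϖ ^ k‖ ≤ ‖ϖ‖ ^ k0 := fun k hk => by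
    rw [← hs]; exact h.term_le_norm_sum a (fun j => (ha j).1) hk
  have hsmall : ∀ k, k < n → k ≠ k0 → ‖a k * ϖ ^ k‖ < ‖ϖ‖ ^ k0 := fun k hk hne =>
    term_lt_of_ne h (ha k).1 (ha k).2 hk hk0 (hle k hk) (Or.inl hne)
  refine ⟨?_, hsmall⟩
  by_contra hne1
  have hlt1 : ‖a k0‖ < 1 := lt_of_le_of_ne (ha k0).2 hne1
  have hk0lt : ‖a k0 * ϖ ^ k0‖ < ‖ϖ‖ ^ k0 :=
    term_lt_of_ne h (ha k0).1 (ha k0).2 hk0 hk0 (hle k0 hk0) (Or.inr hlt1)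
  obtain ⟨j, hjm, hj⟩ := IsUltrametricDist.exists_norm_finsetSum_le_of_nonempty
    (Finset.nonempty_range_iff.mpr h.npos.ne') (fun i => a i * ϖ ^ i)
  rw [Finset.mem_range] at hjm
  have : ‖a j * ϖ ^ j‖ < ‖ϖ‖ ^ k0 := by
    by_cases hjk : j = k0
    · rw [hjk]; exact hk0lt
    · exact hsmall j hjm hjk
  rw [hs] at hj
  exact not_lt.mpr hj this

end Fermat.Agent.S56.Flat.Passage.Dominant
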