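/-
PROJECT T (S56), block (a3) Flat, passage `(P_m) ⇒ Kummer levels` (helper7 #3915 (R6), #3959 (4)),
leaf P9: normal form of an element of a discretely valued subfield modulo `p`-th powers.

`K` an ultrametric normed field, `F` a subfield whose non-zero elements have norms in `‖π‖ ^ ℤ`
(`π ∈ F`, `0 < ‖π‖ < 1`), `‖p‖ = ‖π‖ ^ e`, and whose residue field is perfect in the form
`∀ c ∈ F, ‖c‖ ≤ 1 → ∃ b ∈ F, ‖c - b ^ p‖ < 1`.  Then every `u ∈ F`, `u ≠ 0`, is, modulo `p`-th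
powers of `F` (and prime-to-`p` powers in the third case), of one of three shapes:

* `‖u * a ^ p - 1‖ ≤ ‖π‖ ^ e` (level `≥ e`);
* `‖u * a ^ p - 1‖ = ‖π‖ ^ i` with `0 < i < e`, `p ∤ i` (a unit of level prime to `p` below `e`);
* `‖u ^ j * a ^ p‖ = ‖π‖` with `p ∤ j` (a uniformizer).

Mathlib only.
-/
import Mathlib

set_option autoImplicit false

namespace Fermat.Agent.S56.Flat.Passage.Normalize

variable {K : Type*} [NormedField K] [IsUltrametricDist K]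

/-- Binomial expansion of `(1 + a) ^ p` for a prime `p` in an ultrametric normed field, with a
norm bound on the remainder. -/
theorem one_add_pow_prime {p : ℕ} (hp : p.Prime) {a : K} (ha : ‖a‖ ≤ 1) :
    ∃ s : K, ‖s‖ ≤ 1 ∧ (1 + a) ^ p = 1 + (p : K) * a + (p : K) * a ^ 2 * s + a ^ p := by
  obtain ⟨q, rfl⟩ : ∃ q, p = q + 2 := ⟨p - 2, by have := hp.two_le; omega⟩
  refine ⟨∑ m ∈ Finset.range q, a ^ m * (((q + 2).choose (m + 2) / (q + 2) : ℕ) : K), ?_, ?_⟩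
  · refine IsUltrametricDist.norm_sum_le_of_forall_le_of_nonneg zero_le_one fun m _ => ?_
    rw [norm_mul, norm_pow]
    have h1 : ‖a‖ ^ m ≤ 1 := pow_le_one₀ (norm_nonneg a) ha
    have h2 := IsUltrametricDist.norm_natCast_le_one K ((q + 2).choose (m + 2) / (q + 2))
    calc ‖a‖ ^ m * ‖(((q + 2).choose (m + 2) / (q + 2) : ℕ) : K)‖ ≤ 1 * 1 :=
          mul_le_mul h1 h2 (norm_nonneg _) zero_le_one
      _ = 1 := one_mul 1
  · have hterm : ∀ m ∈ Finset.range q,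
        a ^ (m + 2) * (1 : K) ^ (q + 2 - (m + 2)) * (((q + 2).choose (m + 2) : ℕ) : K) =
          ((q + 2 : ℕ) : K) * a ^ 2 * (a ^ m * (((q + 2).choose (m + 2) / (q + 2) : ℕ) : K)) := by
      intro m hm
      have hm' : m < q := Finset.mem_range.mp hm
      have hdvd : (q + 2) ∣ (q + 2).choose (m + 2) :=
        hp.dvd_choose_self (by omega) (by omega)
      obtain ⟨k, hk⟩ := hdvd
      rw [hk, Nat.mul_div_cancel_left k (by omega : 0 < q + 2)]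
      push_cast
      ring
    rw [add_comm (1 : K) a, add_pow, Finset.sum_range_succ, Finset.sum_range_succ',
      Finset.sum_range_succ', Finset.sum_congr rfl hterm, ← Finset.mul_sum]
    simp only [Nat.choose_self, Nat.choose_zero_right, Nat.choose_one_right, Nat.sub_self,
      pow_zero, Nat.cast_one, mul_one, zero_add, pow_one, one_pow]
    push_cast
    ring

/-- Ultrametric: a perturbation strictly smaller than an element does not change its norm. -/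
theorem norm_eq_of_norm_sub_lt {x y : K} (h : ‖x - y‖ < ‖y‖) : ‖x‖ = ‖y‖ := by
  have : x = (x - y) + y := by ring
  rw [this, IsUltrametricDist.norm_add_eq_max_of_norm_ne_norm h.ne, max_eq_right h.le]

section Discrete

variable (F : Subfield K) {π : K} (hπ0 : 0 < ‖π‖) (hπ1 : ‖π‖ < 1)
  (hval : ∀ x ∈ F, x ≠ 0 → ∃ k : ℤ, ‖x‖ = ‖π‖ ^ k)

include hπ0 hπ1 hval

omit [IsUltrametricDist K] in
/-- Discreteness: a norm strictly below `‖π‖ ^ i` is at most `‖π‖ ^ (i + 1)`. -/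
theorem norm_le_pow_succ_of_lt {z : K} (hz : z ∈ F) {i : ℕ} (h : ‖z‖ < ‖π‖ ^ i) :
    ‖z‖ ≤ ‖π‖ ^ (i + 1) := by
  by_cases hz0 : z = 0
  · rw [hz0, norm_zero]
    exact pow_nonneg hπ0.le _
  obtain ⟨k, hk⟩ := hval z hz hz0
  rw [hk, ← zpow_natCast, zpow_lt_zpow_iff_right_of_lt_one₀ hπ0 hπ1] at h
  rw [hk, ← zpow_natCast, zpow_le_zpow_iff_right_of_lt_one₀ hπ0 hπ1]
  push_cast
  omega

omit [IsUltrametricDist K] in
/-- Discreteness: a norm at most `‖π‖ ^ i` but not at most `‖π‖ ^ (i + 1)` equals `‖π‖ ^ i`. -/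
theorem norm_eq_pow_of_le_of_not_le {z : K} (hz : z ∈ F) {i : ℕ} (h : ‖z‖ ≤ ‖π‖ ^ i)
    (h' : ¬ ‖z‖ ≤ ‖π‖ ^ (i + 1)) : ‖z‖ = ‖π‖ ^ i := by
  have hz0 : z ≠ 0 := by
    intro hz0
    apply h'
    rw [hz0, norm_zero]
    exact pow_nonneg hπ0.le _
  obtain ⟨k, hk⟩ := hval z hz hz0
  rw [hk, ← zpow_natCast, zpow_le_zpow_iff_right_of_lt_one₀ hπ0 hπ1] at h h'
  rw [hk, ← zpow_natCast]
  push_cast at h'
  have : k = (i : ℤ) := by omega
  rw [this]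

end Discrete

section Raise

variable (p : ℕ) [Fact p.Prime] (F : Subfield K) {π : K} (hπF : π ∈ F) (hπ0 : 0 < ‖π‖)
  (hπ1 : ‖π‖ < 1) {e : ℕ} (he : ‖(p : K)‖ = ‖π‖ ^ e)
  (hperf : ∀ c ∈ F, ‖c‖ ≤ 1 → ∃ b ∈ F, ‖c - b ^ p‖ < 1)

include hπF hπ0 hπ1 he hperf

/-- Level raising: a unit of level `i = p j' < e` can be multiplied by a `p`-th power of a unit of
`F` so that its level increases. -/
theorem exists_raise {x : K} (hx : x ∈ F) {i j' : ℕ} (hij : i = p * j') (hi0 : 0 < i)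
    (hie : i < e) (hxi : ‖x - 1‖ = ‖π‖ ^ i) :
    ∃ t ∈ F, ‖t‖ = 1 ∧ ‖x * t ^ p - 1‖ < ‖π‖ ^ i := by
  have hp : p.Prime := Fact.out
  have hπne : π ≠ 0 := norm_pos_iff.mp hπ0
  have hj'0 : 0 < j' := by
    rcases Nat.eq_zero_or_pos j' with h | h
    · rw [h, mul_zero] at hij; omega
    · exact h
  have hπi1 : ‖π‖ ^ i < 1 := pow_lt_one₀ hπ0.le hπ1 hi0.ne'
  -- `x` is a unit
  have hx1 : ‖x‖ = 1 := by
    have := norm_eq_of_norm_sub_lt (x := x) (y := 1) (by rw [norm_one, hxi]; exact hπi1)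
    rw [this, norm_one]
  -- the leading coefficient
  set c : K := (x - 1) / π ^ i with hc
  have hcF : c ∈ F := F.div_mem (F.sub_mem hx F.one_mem) (F.pow_mem hπF i)
  have hc1 : ‖c‖ = 1 := by
    rw [hc, norm_div, hxi, norm_pow, div_self (pow_pos hπ0 i).ne']
  have hxc : x - 1 = c * π ^ i := by
    rw [hc, div_mul_cancel₀ _ (pow_ne_zero i hπne)]
  obtain ⟨b, hbF, hb⟩ := hperf (-c) (F.neg_mem hcF) (by rw [norm_neg, hc1])
  have hcb : ‖c + b ^ p‖ < 1 := by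
    have : c + b ^ p = -(-c - b ^ p) := by ring
    rw [this, norm_neg]
    exact hb
  have hbp1 : ‖b ^ p‖ ≤ 1 := by
    have : b ^ p = (c + b ^ p) + -c := by ring
    rw [this]
    refine le_trans (IsUltrametricDist.norm_add_le_max _ _) ?_
    rw [norm_neg]
    exact max_le hcb.le hc1.le
  have hb1 : ‖b‖ ≤ 1 := by
    rw [norm_pow] at hbp1
    exact (pow_le_one_iff_of_nonneg (norm_nonneg b) hp.ne_zero).mp hbp1
  -- the correction
  set y : K := b * π ^ j' with hy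
  have hyF : y ∈ F := F.mul_mem hbF (F.pow_mem hπF j')
  have hyn : ‖y‖ ≤ ‖π‖ ^ j' := by
    rw [hy, norm_mul, norm_pow]
    calc ‖b‖ * ‖π‖ ^ j' ≤ 1 * ‖π‖ ^ j' :=
          mul_le_mul_of_nonneg_right hb1 (pow_nonneg hπ0.le _)
      _ = ‖π‖ ^ j' := one_mul _
  have hπj1 : ‖π‖ ^ j' < 1 := pow_lt_one₀ hπ0.le hπ1 hj'0.ne'
  have hy1 : ‖y‖ < 1 := lt_of_le_of_lt hyn hπj1
  obtain ⟨s, hs1, hs⟩ := one_add_pow_prime hp hy1.le
  refine ⟨1 + y, F.add_mem F.one_mem hyF, ?_, ?_⟩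
  · rw [add_comm]
    have := norm_eq_of_norm_sub_lt (x := y + 1) (y := 1) (by rw [add_sub_cancel_right, norm_one]; exact hy1)
    rw [this, norm_one]
  · have hyp : y ^ p = b ^ p * π ^ i := by
      rw [hy, mul_pow, ← pow_mul, hij, mul_comm j' p]
    have hdecomp : x * (1 + y) ^ p - 1 =
        (c + b ^ p) * π ^ i + (x - 1) * (b ^ p * π ^ i) + x * ((p : K) * (y * (1 + y * s))) := by
      rw [hs, hyp]
      linear_combination (1 : K) * hxc
    rw [hdecomp]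
    have hT1 : ‖(c + b ^ p) * π ^ i‖ < ‖π‖ ^ i := by
      rw [norm_mul, norm_pow]
      calc ‖c + b ^ p‖ * ‖π‖ ^ i < 1 * ‖π‖ ^ i := mul_lt_mul_of_pos_right hcb (pow_pos hπ0 i)
        _ = ‖π‖ ^ i := one_mul _
    have hT2 : ‖(x - 1) * (b ^ p * π ^ i)‖ < ‖π‖ ^ i := by
      rw [norm_mul, hxi, norm_mul, norm_pow π]
      calc ‖π‖ ^ i * (‖b ^ p‖ * ‖π‖ ^ i) ≤ ‖π‖ ^ i * (1 * ‖π‖ ^ i) :=
            mul_le_mul_of_nonneg_left
              (mul_le_mul_of_nonneg_right hbp1 (pow_nonneg hπ0.le _)) (pow_nonneg hπ0.le _)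
        _ = ‖π‖ ^ i * ‖π‖ ^ i := by rw [one_mul]
        _ < ‖π‖ ^ i * 1 := mul_lt_mul_of_pos_left hπi1 (pow_pos hπ0 i)
        _ = ‖π‖ ^ i := mul_one _
    have hT3 : ‖x * ((p : K) * (y * (1 + y * s)))‖ < ‖π‖ ^ i := by
      have h1 : ‖1 + y * s‖ ≤ 1 := by
        refine le_trans (IsUltrametricDist.norm_add_le_max _ _) ?_
        rw [norm_one, norm_mul]
        exact max_le le_rfl (mul_le_one₀ hy1.le (norm_nonneg s) hs1)
      have h2 : ‖y * (1 + y * s)‖ ≤ ‖π‖ ^ j' := by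
        rw [norm_mul]
        calc ‖y‖ * ‖1 + y * s‖ ≤ ‖π‖ ^ j' * 1 :=
              mul_le_mul hyn h1 (norm_nonneg _) (pow_nonneg hπ0.le _)
          _ = ‖π‖ ^ j' := mul_one _
      rw [norm_mul, hx1, one_mul, norm_mul, he]
      have h3 : ‖π‖ ^ e * ‖y * (1 + y * s)‖ ≤ ‖π‖ ^ (e + j') := by
        rw [pow_add]
        exact mul_le_mul_of_nonneg_left h2 (pow_nonneg hπ0.le _)
      refine lt_of_le_of_lt h3 ?_
      apply (pow_lt_pow_iff_right_of_lt_one₀ hπ0 hπ1).mpr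
      -- `i = p j' < e + j'`
      have hp2 := hp.two_le
      have h4 : p * j' = (p - 1) * j' + j' := by
        have : p = (p - 1) + 1 := by omega
        conv_lhs => rw [this]
        ring
      have h5 : (p - 1) * j' ≤ p * j' := Nat.mul_le_mul_right _ (Nat.sub_le p 1)
      omega
    refine lt_of_le_of_lt (IsUltrametricDist.norm_add_le_max _ _) (max_lt ?_ hT3)
    exact lt_of_le_of_lt (IsUltrametricDist.norm_add_le_max _ _) (max_lt hT1 hT2)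

end Raise

section Main

variable (p : ℕ) [Fact p.Prime] (F : Subfield K) {π : K} (hπF : π ∈ F) (hπ0 : 0 < ‖π‖)
  (hπ1 : ‖π‖ < 1) (hval : ∀ x ∈ F, x ≠ 0 → ∃ k : ℤ, ‖x‖ = ‖π‖ ^ k) {e : ℕ}
  (he : ‖(p : K)‖ = ‖π‖ ^ e) (hperf : ∀ c ∈ F, ‖c‖ ≤ 1 → ∃ b ∈ F, ‖c - b ^ p‖ < 1)

include hπF hπ0 hπ1 hval he hperf

/-- The unit case, by induction on the distance of the level to `e`. -/
theorem unit_case {u : K} (hu : u ∈ F) (n : ℕ) :
    ∀ i : ℕ, 0 < i → e ≤ i + n → ∀ a ∈ F, a ≠ 0 → ‖u * a ^ p - 1‖ ≤ ‖π‖ ^ i →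
      (∃ a ∈ F, a ≠ 0 ∧ ‖u * a ^ p - 1‖ ≤ ‖π‖ ^ e) ∨
      (∃ a ∈ F, a ≠ 0 ∧ ∃ i : ℕ, 0 < i ∧ i < e ∧ ¬ p ∣ i ∧ ‖u * a ^ p - 1‖ = ‖π‖ ^ i) := by
  induction n with
  | zero =>
    intro i _ hei a haF ha0 hle
    left
    refine ⟨a, haF, ha0, hle.trans ?_⟩
    exact pow_le_pow_of_le_one hπ0.le hπ1.le (by omega)
  | succ n ih =>
    intro i hi0 hei a haF ha0 hle
    by_cases hie : e ≤ i
    · left
      refine ⟨a, haF, ha0, hle.trans ?_⟩
      exact pow_le_pow_of_le_one hπ0.le hπ1.le hie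
    have hie' : i < e := not_le.mp hie
    have hxF : u * a ^ p ∈ F := F.mul_mem hu (F.pow_mem haF p)
    have hzF : u * a ^ p - 1 ∈ F := F.sub_mem hxF F.one_mem
    by_cases hle' : ‖u * a ^ p - 1‖ ≤ ‖π‖ ^ (i + 1)
    · exact ih (i + 1) (Nat.succ_pos i) (by omega) a haF ha0 hle'
    have heq : ‖u * a ^ p - 1‖ = ‖π‖ ^ i :=
      norm_eq_pow_of_le_of_not_le F hπ0 hπ1 hval hzF hle hle'
    by_cases hpi : p ∣ i
    · obtain ⟨j', hj'⟩ := hpi
      obtain ⟨t, htF, ht1, htlt⟩ :=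
        exists_raise p F hπF hπ0 hπ1 he hperf hxF hj' hi0 hie' heq
      have ht0 : t ≠ 0 := by
        intro h0
        rw [h0, norm_zero] at ht1
        exact zero_ne_one ht1
      have hrew : u * (a * t) ^ p - 1 = u * a ^ p * t ^ p - 1 := by ring
      refine ih (i + 1) (Nat.succ_pos i) (by omega) (a * t) (F.mul_mem haF htF)
        (mul_ne_zero ha0 ht0) ?_
      rw [hrew]
      exact norm_le_pow_succ_of_lt F hπ0 hπ1 hval
        (F.sub_mem (F.mul_mem hxF (F.pow_mem htF p)) F.one_mem) htlt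
    · right
      exact ⟨a, haF, ha0, i, hi0, hie', hpi, heq⟩

/-- **P9 = (R6)**: the normal form modulo `p`-th powers. -/
theorem normalize {u : K} (hu : u ∈ F) (hu0 : u ≠ 0) :
    (∃ a ∈ F, a ≠ 0 ∧ ‖u * a ^ p - 1‖ ≤ ‖π‖ ^ e) ∨
    (∃ a ∈ F, a ≠ 0 ∧ ∃ i : ℕ, 0 < i ∧ i < e ∧ ¬ p ∣ i ∧ ‖u * a ^ p - 1‖ = ‖π‖ ^ i) ∨
    (∃ a ∈ F, a ≠ 0 ∧ ∃ j : ℕ, ¬ p ∣ j ∧ ‖u ^ j * a ^ p‖ = ‖π‖) := by
  have hp : p.Prime := Fact.out
  have hπne : π ≠ 0 := norm_pos_iff.mp hπ0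
  obtain ⟨k, hk⟩ := hval u hu hu0
  by_cases hpk : (p : ℤ) ∣ k
  · -- reduce to a unit, then raise the level
    obtain ⟨m, hm⟩ := hpk
    set a₁ : K := π ^ (-m) with ha₁
    have ha₁F : a₁ ∈ F := F.zpow_mem hπF (-m)
    have ha₁0 : a₁ ≠ 0 := zpow_ne_zero _ hπne
    have hu₁ : ‖u * a₁ ^ p‖ = 1 := by
      rw [norm_mul, norm_pow, ha₁, norm_zpow, hk, ← zpow_natCast, ← zpow_mul, ← zpow_add₀ hπ0.ne',
        hm]
      have : (p : ℤ) * m + -m * (p : ℤ) = 0 := by ring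
      rw [this, zpow_zero]
    have hu₁F : u * a₁ ^ p ∈ F := F.mul_mem hu (F.pow_mem ha₁F p)
    obtain ⟨b, hbF, hb⟩ := hperf (u * a₁ ^ p) hu₁F hu₁.le
    have hbp : ‖b ^ p‖ = 1 := by
      have h1 : ‖b ^ p - u * a₁ ^ p‖ < ‖u * a₁ ^ p‖ := by
        rw [hu₁, ← norm_neg]
        have : -(b ^ p - u * a₁ ^ p) = u * a₁ ^ p - b ^ p := by ring
        rw [this]
        exact hb
      rw [norm_eq_of_norm_sub_lt h1, hu₁]
    have hb0 : b ≠ 0 := by
      intro h0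
      rw [h0, zero_pow hp.ne_zero, norm_zero] at hbp
      exact zero_ne_one hbp
    have hlt : ‖u * (a₁ * b⁻¹) ^ p - 1‖ < ‖π‖ ^ 0 := by
      have hbp0 : b ^ p ≠ 0 := pow_ne_zero p hb0
      have : u * (a₁ * b⁻¹) ^ p - 1 = (u * a₁ ^ p - b ^ p) * (b ^ p)⁻¹ := by
        rw [mul_pow, inv_pow, sub_mul, mul_inv_cancel₀ hbp0, mul_assoc]
      rw [this, norm_mul, norm_inv, hbp, inv_one, mul_one, pow_zero]
      exact hb
    have haF : a₁ * b⁻¹ ∈ F := F.mul_mem ha₁F (F.inv_mem hbF)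
    have ha0 : a₁ * b⁻¹ ≠ 0 := mul_ne_zero ha₁0 (inv_ne_zero hb0)
    have hle : ‖u * (a₁ * b⁻¹) ^ p - 1‖ ≤ ‖π‖ ^ (0 + 1) :=
      norm_le_pow_succ_of_lt F hπ0 hπ1 hval
        (F.sub_mem (F.mul_mem hu (F.pow_mem haF p)) F.one_mem) hlt
    rcases unit_case p F hπF hπ0 hπ1 hval he hperf hu e 1 Nat.one_pos (by omega) _ haF ha0 hle
      with h | h
    · exact Or.inl h
    · exact Or.inr (Or.inl h)
  · -- a uniformizer up to a prime-to-`p` power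
    right; right
    have hk0 : ((k : ℤ) : ZMod p) ≠ 0 := by
      rw [Ne, ZMod.intCast_zmod_eq_zero_iff_dvd]
      exact hpk
    set j : ℕ := (((k : ℤ) : ZMod p)⁻¹).val with hj
    have hjk : (((j : ℤ) * k - 1 : ℤ) : ZMod p) = 0 := by
      push_cast
      rw [hj, ZMod.natCast_zmod_val, inv_mul_cancel₀ hk0, sub_self]
    obtain ⟨m, hm⟩ := (ZMod.intCast_zmod_eq_zero_iff_dvd _ p).mp hjk
    have hpj : ¬ p ∣ j := by
      intro hdvd
      have h1 : ((j : ℕ) : ZMod p) = 0 := (ZMod.natCast_eq_zero_iff j p).mpr hdvd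
      rw [hj, ZMod.natCast_zmod_val] at h1
      exact inv_ne_zero hk0 h1
    refine ⟨π ^ (-m), F.zpow_mem hπF (-m), zpow_ne_zero _ hπne, j, hpj, ?_⟩
    rw [norm_mul, norm_pow, norm_pow, norm_zpow, hk, ← zpow_natCast, ← zpow_mul, ← zpow_natCast,
      ← zpow_mul, ← zpow_add₀ hπ0.ne']
    have : k * (j : ℤ) + -m * (p : ℤ) = 1 := by linarith
    rw [this, zpow_one]

end Main

end Fermat.Agent.S56.Flat.Passage.Normalize
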