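/-
PROJECT T (S56), block Flat/Passage: residue fields of subfields of `Ω = PadicAlgCl p` are perfect,
in norm form: a unit of `E` is congruent to a `p`-th power of `E` modulo the maximal ideal.
-/
import Mathlib
import Fermat.Agent.S56.Flat.Passage.NormFrame

set_option autoImplicit false

namespace Fermat.Agent.S56.Flat.Passage.Perfect

open Fermat.Agent.CFT.Local.Model Fermat.Agent.CFT.Local.PadicAlgClLocal
  Fermat.Agent.S56.Flat.Passage.NormFrame

variable {p : ℕ} [Fact p.Prime]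

/-- A unit of `E` is congruent to a root of unity of `E` of order prime to `p`. -/
theorem exists_rootOfUnity_near_mem (E : IntermediateField ℚ_[p] (PadicAlgCl p))
    {x : PadicAlgCl p} (hx : x ∈ E) (hx1 : ‖x‖ = 1) :
    ∃ (m : ℕ) (ζ : PadicAlgCl p), ¬ p ∣ m ∧ ζ ^ m = 1 ∧ ζ ∈ E ∧ ‖x - ζ‖ < 1 := by
  obtain ⟨m, ζ, hm, hζ, hnear⟩ := exists_rootOfUnity_near p hx1
  refine ⟨m, ζ, hm, hζ, ?_, hnear⟩
  apply mem_of_forall_fixed
  intro σ hσ
  by_contra hne
  have hσζ : (σ ζ) ^ m = 1 := by rw [← map_pow, hζ, map_one]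
  have h1 := norm_sub_eq_one_of_pow_eq_one p hm hσζ hζ hne
  have h2 : σ ζ - ζ = σ (ζ - x) - (ζ - x) := by
    rw [map_sub, hσ x hx]; ring
  have h3 : ‖σ ζ - ζ‖ < 1 := by
    rw [h2]
    refine lt_of_le_of_lt (norm_sub_le_max p _ _) (max_lt ?_ ?_)
    · rw [norm_algEquiv, norm_sub_rev]; exact hnear
    · rw [norm_sub_rev]; exact hnear
  rw [h1] at h3
  exact lt_irrefl _ h3

/-- **Perfectness of the residue field**, in norm form. -/
theorem exists_pth_root_mod (E : IntermediateField ℚ_[p] (PadicAlgCl p))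
    {x : PadicAlgCl p} (hx : x ∈ E) (hx1 : ‖x‖ = 1) : ∃ b ∈ E, ‖x - b ^ p‖ < 1 := by
  obtain ⟨m, ζ, hm, hζ, hζE, hnear⟩ := exists_rootOfUnity_near_mem E hx hx1
  have hp : p.Prime := Fact.out
  have hm0 : m ≠ 0 := fun h0 => hm (h0 ▸ dvd_zero p)
  by_cases hm1 : m = 1
  · refine ⟨1, one_mem E, ?_⟩
    rw [hm1, pow_one] at hζ
    rw [one_pow, ← hζ]; exact hnear
  have hm2 : 1 < m := by omega
  have hcop : Nat.Coprime p m := (Nat.Prime.coprime_iff_not_dvd hp).mpr hm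
  obtain ⟨r, -, hr⟩ := Nat.exists_mul_mod_eq_one_of_coprime hcop hm2
  refine ⟨ζ ^ r, pow_mem hζE r, ?_⟩
  have hpow : (ζ ^ r) ^ p = ζ := by
    rw [← pow_mul, mul_comm r p, ← Nat.div_add_mod (p * r) m, hr, pow_add, pow_mul, hζ, one_pow,
      one_mul, pow_one]
  rw [hpow]; exact hnear

end Fermat.Agent.S56.Flat.Passage.Perfect
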