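/-
PROJECT T (S56), block Flat/Passage: **the passage `(P_m) ⇒ Kummer levels`**.

`LV` finite Galois over `ℚ_p` with Fontaine's property `(P_m)` (`FontaineP`), `F` finite over `ℚ_p`
containing a primitive `p`-th root of unity, `p` odd.  If `u ∈ Fˣ` has a `p`-th root in `F ⊔ LV`,
then `u = a ^ p * (1 + p * x)` with `a ∈ Fˣ` and `x ∈ 𝒪_F`.

Proof: normal form of `u` modulo `p`-th powers (`Normalize`): either the conclusion, or a unit of
level `i0 < e`, `p ∤ i0`, or a uniformizer; the last two contradict the counting argument `Core`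
in the `Setting` built by `Build.exists_setting` for a `t`-th root `ϖ` of the uniformizer.
-/
import Mathlib
import Fermat.Agent.S56.Flat.Passage.Core
import Fermat.Agent.S56.Flat.Passage.Build
import Fermat.Agent.S56.Flat.Passage.Normalize
import Fermat.Agent.S56.Flat.Passage.Perfect
import Fermat.Agent.S56.Flat.Passage.Zeta
import Fermat.Agent.S56.Flat.Passage.Dominant

set_option autoImplicit false

namespace Fermat.Agent.S56.Flat.Passage.Main

open Fermat.Agent.CFT.Local.Model Fermat.Agent.CFT.Local.PadicAlgClLocal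
  Fermat.Agent.S56.Flat.Passage.NormFrame Fermat.Agent.S56.Flat.Passage.TotRam
  Fermat.Agent.S56.Flat.Passage.ApproxAut Fermat.Agent.S56.Flat.Passage.Build Finset Module
open scoped IntermediateField

variable {p : ℕ} [Fact p.Prime]

/-- The frame of the counting argument for a `t`-th root of a uniformizer of `F`. -/
theorem exists_frame (F LV : IntermediateField ℚ_[p] (PadicAlgCl p))
    [FiniteDimensional ℚ_[p] F] [FiniteDimensional ℚ_[p] LV] {π : PadicAlgCl p}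
    (hπ : IsUnif p F π) {t : ℕ} (ht : 0 < t) :
    ∃ (ϖ τ : PadicAlgCl p) (K0 F2 L : IntermediateField ℚ_[p] (PadicAlgCl p)) (e n : ℕ),
      FiniteDimensional ℚ_[p] F2 ∧ FiniteDimensional ℚ_[p] L ∧ ϖ ^ t = π ∧ 0 < e ∧
      ‖π‖ ^ e = (p : ℝ)⁻¹ ∧ F ≤ F2 ∧ LV ≤ L ∧ F ⊔ LV ≤ L ∧ L ≤ F2 ⊔ LV ∧
      Setting p K0 F2 L ϖ τ (t * e) n := by
  obtain ⟨ϖ, hϖ⟩ := IsAlgClosed.exists_pow_nat_eq π ht
  obtain ⟨e, n, τ, he0, he, hFF2, hLsup, -, S⟩ := exists_setting F LV ϖ hπ ht hϖ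
  exact ⟨ϖ, τ, K0of F LV ϖ, F2of F LV ϖ, Lof F LV ϖ, e, n, finiteDimensional_F2of F LV ϖ,
    finiteDimensional_Lof F LV ϖ, hϖ, he0, he, hFF2, LV_le_Lof F LV ϖ,
    sup_le (F_le_Lof F LV ϖ) (LV_le_Lof F LV ϖ), hLsup, S⟩

theorem pow_inj_of_lt_one {r : ℝ} (h0 : 0 < r) (h1 : r < 1) {a b : ℕ} (h : r ^ a = r ^ b) :
    a = b := by
  have := zpow_inj_of_lt_one h0 h1 (a := (a : ℤ)) (b := (b : ℤ))
    (by rw [zpow_natCast, zpow_natCast]; exact h)
  exact_mod_cast this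

/-- The number `t` of the construction: prime to `p` and large. -/
theorem t_spec (f : ℕ) : 0 < p * (p ^ f + 1) + 1 ∧ ¬ p ∣ (p * (p ^ f + 1) + 1) ∧
    p * p ^ f + 3 ≤ p * (p ^ f + 1) + 1 := by
  have hp : p.Prime := Fact.out
  refine ⟨Nat.succ_pos _, fun h => ?_, ?_⟩
  · have h1 : p ∣ 1 := (Nat.dvd_add_right (Dvd.intro _ rfl)).mp h
    exact hp.one_lt.ne' (Nat.dvd_one.mp h1)
  · have := hp.two_le
    have h2 : p * (p ^ f + 1) = p * p ^ f + p := by ring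
    omega

/-! ### The bad unit case -/

theorem no_bad_unit {F LV : IntermediateField ℚ_[p] (PadicAlgCl p)}
    [FiniteDimensional ℚ_[p] F] [FiniteDimensional ℚ_[p] LV] [IsGalois ℚ_[p] LV]
    (hPm : FontaineP p LV) {π : PadicAlgCl p} (hπ : IsUnif p F π) {e0 : ℕ}
    (he0 : ‖π‖ ^ e0 = (p : ℝ)⁻¹) {u1 y1 : PadicAlgCl p} (hu1 : u1 ∈ F) (hy1 : y1 ∈ F ⊔ LV)
    (hyu : y1 ^ p = u1) {i0 : ℕ} (hi0 : 0 < i0) (hi0e : i0 < e0) (hpi0 : ¬ p ∣ i0)
    (hlev : ‖u1 - 1‖ = ‖π‖ ^ i0) : False := by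
  classical
  have hp : p.Prime := Fact.out
  obtain ⟨ht0, hpt, htbig⟩ := t_spec (p := p) (finrank ℚ_[p] LV)
  set t := p * (p ^ finrank ℚ_[p] LV + 1) + 1 with ht
  obtain ⟨ϖ, τ, K0, F2, L, e, n, hfdF2, hfdL, hϖ, he0', he, hFF2, hLVL, hsupL, hLsup, S⟩ :=
    exists_frame F LV hπ ht0
  have hee : e = e0 := pow_inj_of_lt_one hπ.2.1 hπ.2.2.1 (he.trans he0.symm)
  subst hee
  have hϖ0 : 0 < ‖ϖ‖ := S.trK.norm_pos
  have hϖ1 : ‖ϖ‖ < 1 := S.trK.norm_lt_one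
  have hπϖ : ‖π‖ = ‖ϖ‖ ^ t := by rw [← hϖ, norm_pow]
  have hte : 0 < t * e := Nat.mul_pos ht0 he0'
  -- expansion of `w = u1 - 1`
  have hwF2 : u1 - 1 ∈ F2 := hFF2 (sub_mem hu1 (one_mem F))
  have hwlev : ‖u1 - 1‖ = ‖ϖ‖ ^ (t * i0) := by rw [hlev, hπϖ, ← pow_mul]
  have hw1 : ‖u1 - 1‖ ≤ 1 := by rw [hwlev]; exact pow_le_one₀ hϖ0.le hϖ1.le
  obtain ⟨a, ha, hsum⟩ := S.spanF _ hwF2 hw1
  have hk0 : t * i0 < t * e := Nat.mul_lt_mul_of_pos_left hi0e ht0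
  obtain ⟨hak0, hadom⟩ := Dominant.dominant S.trK a ha hk0 (by rw [← hsum]; exact hwlev)
  have hk00 : t * i0 ≠ 0 := (Nat.mul_pos ht0 hi0).ne'
  -- the coefficients of `u1`
  set c : ℕ → PadicAlgCl p := fun k => a k + if k = 0 then 1 else 0 with hc
  have hck : ∀ k, k ≠ 0 → c k = a k := fun k hk => by simp [hc, hk]
  have hcmem : ∀ k, c k ∈ K0 ∧ ‖c k‖ ≤ 1 := by
    intro k
    have h1 : (if k = 0 then (1 : PadicAlgCl p) else 0) ∈ K0 := by
      split_ifs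
      · exact one_mem K0
      · exact zero_mem K0
    have h2 : ‖(if k = 0 then (1 : PadicAlgCl p) else 0)‖ ≤ 1 := by
      split_ifs
      · rw [norm_one]
      · rw [norm_zero]; exact zero_le_one
    exact ⟨add_mem (ha k).1 h1,
      (IsUltrametricDist.norm_add_le_max _ _).trans (max_le (ha k).2 h2)⟩
  have hcsum : ∑ k ∈ range (t * e), c k * ϖ ^ k = u1 := by
    have h1 : ∑ k ∈ range (t * e), c k * ϖ ^ k =
        ∑ k ∈ range (t * e), a k * ϖ ^ k +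
          ∑ k ∈ range (t * e), (if k = 0 then (1 : PadicAlgCl p) else 0) * ϖ ^ k := by
      rw [← Finset.sum_add_distrib]
      exact Finset.sum_congr rfl fun k _ => by rw [hc]; ring
    have h2 : ∑ k ∈ range (t * e), (if k = 0 then (1 : PadicAlgCl p) else 0) * ϖ ^ k = 1 := by
      rw [Finset.sum_eq_single 0]
      · simp
      · intro k _ hk; simp [hk]
      · intro h; exact absurd (Finset.mem_range.mpr hte) h
    rw [h1, h2, ← hsum]; ring
  have hu1norm : ‖u1‖ = 1 := by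
    have h1 : ‖u1 - 1‖ < ‖(1 : PadicAlgCl p)‖ := by
      rw [norm_one, hwlev]; exact pow_lt_one₀ hϖ0.le hϖ1 hk00
    rw [Core.norm_eq_of_norm_sub_lt h1, norm_one]
  refine Core.core S hPm hLVL hLsup hcmem (hsupL hy1) (by rw [hcsum]; exact hyu)
    (k0 := t * i0) (ν := 0) (t := t) hk0 ?_ ?_ ?_ ?_ htbig ?_
  · intro h
    rcases (Nat.Prime.dvd_mul hp).mp h with h | h
    · exact hpt h
    · exact hpi0 h
  · rw [hck _ hk00]; exact hak0
  · intro k hk hk0' hkne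
    rw [hck k hk0']
    exact hadom k hk hkne
  · rw [hcsum, hu1norm, pow_zero]
  · have : t * i0 + t = t * (i0 + 1) := by ring
    rw [this]
    exact Nat.mul_le_mul_left t hi0e

/-! ### The uniformizer case -/

/-- The ramification index of a field containing `ζ_p` is at least `p - 1`. -/
theorem le_of_zeta_mem {F : IntermediateField ℚ_[p] (PadicAlgCl p)} {π ζ : PadicAlgCl p}
    (hπ : IsUnif p F π) {e : ℕ} (he : ‖π‖ ^ e = (p : ℝ)⁻¹) (hζF : ζ ∈ F)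
    (hζ : IsPrimitiveRoot ζ p) : p - 1 ≤ e := by
  have hp : p.Prime := Fact.out
  have hζ1 : ζ ≠ 1 := hζ.ne_one hp.one_lt
  have hnorm := Zeta.norm_sub_one_pow hp (norm_p p) hζ.pow_eq_one hζ1
  obtain ⟨m, hm⟩ := hπ.2.2.2 (ζ - 1) (sub_mem hζF (one_mem F)) (sub_ne_zero.mpr hζ1)
  rw [hm, ← he, ← zpow_natCast, ← zpow_natCast, ← zpow_mul] at hnorm
  have h1 := zpow_inj_of_lt_one hπ.2.1 hπ.2.2.1 hnorm
  have hp1 : (1 : ℤ) ≤ ((p - 1 : ℕ) : ℤ) := by
    have := hp.two_le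
    exact_mod_cast (by omega : 1 ≤ p - 1)
  have he0 : 0 < e := by
    rcases Nat.eq_zero_or_pos e with h | h
    · exfalso
      rw [h, pow_zero] at he
      have : (p : ℝ)⁻¹ < 1 := inv_lt_one_of_one_lt₀ (by exact_mod_cast hp.one_lt)
      rw [← he] at this
      exact lt_irrefl _ this
    · exact h
  have hm1 : 1 ≤ m := by
    by_contra hlt
    have hm0 : m ≤ 0 := by omega
    have : m * ((p - 1 : ℕ) : ℤ) ≤ 0 := mul_nonpos_of_nonpos_of_nonneg hm0 (by omega)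
    have he' : (0 : ℤ) < (e : ℤ) := by exact_mod_cast he0
    omega
  have h2 : ((p - 1 : ℕ) : ℤ) ≤ (e : ℤ) := by
    rw [← h1]
    nlinarith
  exact_mod_cast h2

theorem no_bad_unif (hp2 : p ≠ 2) {F LV : IntermediateField ℚ_[p] (PadicAlgCl p)}
    [FiniteDimensional ℚ_[p] F] [FiniteDimensional ℚ_[p] LV] [IsGalois ℚ_[p] LV]
    (hPm : FontaineP p LV) {ζ : PadicAlgCl p} (hζF : ζ ∈ F) (hζ : IsPrimitiveRoot ζ p)
    {π : PadicAlgCl p} (hπ : IsUnif p F π) {y1 : PadicAlgCl p} (hy1 : y1 ∈ F ⊔ LV)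
    (hyπ : y1 ^ p = π) : False := by
  classical
  have hp : p.Prime := Fact.out
  obtain ⟨ht0, hpt, htbig⟩ := t_spec (p := p) (finrank ℚ_[p] LV)
  set t := p * (p ^ finrank ℚ_[p] LV + 1) + 1 with ht
  obtain ⟨ϖ, τ, K0, F2, L, e, n, hfdF2, hfdL, hϖ, he0', he, hFF2, hLVL, hsupL, hLsup, S⟩ :=
    exists_frame F LV hπ ht0
  have hϖ0 : 0 < ‖ϖ‖ := S.trK.norm_pos
  have he2 : 2 ≤ e := by
    have h1 := le_of_zeta_mem hπ he hζF hζ
    have h2 : 3 ≤ p := by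
      have := hp.two_le
      omega
    omega
  set c : ℕ → PadicAlgCl p := fun k => if k = t then 1 else 0 with hc
  have hcmem : ∀ k, c k ∈ K0 ∧ ‖c k‖ ≤ 1 := by
    intro k
    rw [hc]
    dsimp only
    split_ifs
    · exact ⟨one_mem K0, by rw [norm_one]⟩
    · exact ⟨zero_mem K0, by rw [norm_zero]; exact zero_le_one⟩
  have hcsum : ∑ k ∈ range (t + 1), c k * ϖ ^ k = π := by
    rw [Finset.sum_eq_single t]
    · simp [hc, hϖ]
    · intro k _ hk; simp [hc, hk]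
    · intro h; exact absurd (Finset.mem_range.mpr (Nat.lt_succ_self t)) h
  refine Core.core S hPm hLVL hLsup hcmem (hsupL hy1) (by rw [hcsum]; exact hyπ)
    (k0 := t) (ν := t) (t := t) (Nat.lt_succ_self t) hpt ?_ ?_ ?_ htbig ?_
  · simp [hc]
  · intro k _ _ hkne
    simp only [hc, hkne, if_false, zero_mul, norm_zero]
    exact pow_pos hϖ0 t
  · rw [hcsum, ← hϖ, norm_pow]
  · have : t + t = t * 2 := by ring
    rw [this]
    exact Nat.mul_le_mul_left t he2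

/-! ### The passage -/

/-- **`(P_m) ⇒` Kummer levels.** -/
theorem kummer_level (hp2 : p ≠ 2) (LV : IntermediateField ℚ_[p] (PadicAlgCl p))
    [FiniteDimensional ℚ_[p] LV] [IsGalois ℚ_[p] LV] (hPm : FontaineP p LV)
    (F : IntermediateField ℚ_[p] (PadicAlgCl p)) [FiniteDimensional ℚ_[p] F]
    {ζ : PadicAlgCl p} (hζF : ζ ∈ F) (hζ : IsPrimitiveRoot ζ p) {u y : PadicAlgCl p}
    (hu : u ∈ F) (hu0 : u ≠ 0) (hy : y ∈ F ⊔ LV) (hyu : y ^ p = u) :
    ∃ a x : PadicAlgCl p, a ∈ F ∧ a ≠ 0 ∧ x ∈ F ∧ ‖x‖ ≤ 1 ∧ u = a ^ p * (1 + p * x) := by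
  have hp : p.Prime := Fact.out
  obtain ⟨π, hπ⟩ := exists_isUnif p F
  obtain ⟨e, -, he⟩ := hπ.exists_pow_eq
  have hFsup : F ≤ F ⊔ LV := le_sup_left
  have hperf : ∀ c ∈ F.toSubfield, ‖c‖ ≤ 1 → ∃ b ∈ F.toSubfield, ‖c - b ^ p‖ < 1 := by
    intro c hc hc1
    rcases lt_or_eq_of_le hc1 with hlt | heq
    · exact ⟨0, zero_mem _, by rw [zero_pow hp.ne_zero, sub_zero]; exact hlt⟩
    · obtain ⟨b, hb, hcb⟩ := Perfect.exists_pth_root_mod F hc heq
      exact ⟨b, hb, hcb⟩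
  have hpK : ‖(p : PadicAlgCl p)‖ = ‖π‖ ^ e := by rw [norm_p, he]
  rcases Normalize.normalize p F.toSubfield (π := π) hπ.1 hπ.2.1 hπ.2.2.1 hπ.2.2.2 hpK hperf
    (u := u) hu hu0 with ⟨a, haF, ha0, hgood⟩ | ⟨a, haF, ha0, i, hi0, hie, hpi, hlev⟩ |
    ⟨a, haF, ha0, j, -, hunif⟩
  · -- the good case
    have haF' : a ∈ F := haF
    have hp0 : (p : PadicAlgCl p) ≠ 0 := by
      rw [← norm_pos_iff, norm_p]; exact inv_pos.mpr (by exact_mod_cast hp.pos)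
    refine ⟨a⁻¹, (u * a ^ p - 1) / p, inv_mem haF', inv_ne_zero ha0,
      div_mem (sub_mem (mul_mem hu (pow_mem haF' p)) (one_mem F)) (natCast_mem F p), ?_, ?_⟩
    · rw [norm_div, hpK, div_le_one (pow_pos hπ.2.1 e)]
      exact hgood
    · have hap : a ^ p ≠ 0 := pow_ne_zero p ha0
      have h1 : (p : PadicAlgCl p) * ((u * a ^ p - 1) / p) = u * a ^ p - 1 :=
        mul_div_cancel₀ _ hp0
      rw [h1, inv_pow]
      field_simp
      ring
  · -- the bad unit case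
    exfalso
    have haF' : a ∈ F := haF
    exact no_bad_unit hPm hπ he (mul_mem hu (pow_mem haF' p))
      (mul_mem hy (hFsup haF')) (by rw [mul_pow, hyu]) hi0 hie hpi hlev
  · -- the uniformizer case
    exfalso
    have haF' : a ∈ F := haF
    have hπ' : IsUnif p F (u ^ j * a ^ p) := by
      refine ⟨mul_mem (pow_mem hu j) (pow_mem haF' p), by rw [hunif]; exact hπ.2.1,
        by rw [hunif]; exact hπ.2.2.1, fun x hx hx0 => ?_⟩
      rw [hunif]; exact hπ.2.2.2 x hx hx0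
    exact no_bad_unif hp2 hPm hζF hζ hπ' (mul_mem (pow_mem hy j) (hFsup haF'))
      (by rw [mul_pow, ← pow_mul, mul_comm j p, pow_mul, hyu])

end Fermat.Agent.S56.Flat.Passage.Main
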